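import Fermat.Agent.Corollaries.Quat.Gf

/-!
# The lattices `D⁺`

`D⁺(ι) = {x ∈ ℤ^ι ∪ (ℤ + 1/2)^ι : ∑ xᵢ even}`; `D⁺(8) = E₈`.  For `8 ∣ #ι` it is even and
unimodular.  For `ι = Fin k × Fin 4` its theta series is `(P(t)^k + P(-t)^k + Qo(t)^k) / 2`.
-/

set_option autoImplicit false

noncomputable section

namespace Fermat.Agent.Cor.Quat

open Finset

/-- the lattice `D⁺` with coordinates in `ι` -/
def Dplus (ι : Type) [Fintype ι] : AddSubgroup (ι → ℚ) where
  carrier := {x | ((∀ i, ∃ k : ℤ, x i = k) ∨ (∀ i, ∃ k : ℤ, x i = k + 1 / 2)) ∧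
    ∃ k : ℤ, ∑ i, x i = 2 * k}
  zero_mem' := ⟨Or.inl fun _ => ⟨0, by simp⟩, 0, by simp⟩
  add_mem' := by
    rintro x y ⟨hx, k, hk⟩ ⟨hy, l, hl⟩
    refine ⟨?_, k + l, by simp only [Pi.add_apply, Finset.sum_add_distrib, hk, hl]; push_cast; ring⟩
    rcases hx with hx | hx <;> rcases hy with hy | hy
    · refine Or.inl fun i => ?_
      obtain ⟨a, ha⟩ := hx i
      obtain ⟨b, hb⟩ := hy i
      exact ⟨a + b, by simp only [Pi.add_apply, ha, hb]; push_cast; ring⟩
    · refine Or.inr fun i => ?_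
      obtain ⟨a, ha⟩ := hx i
      obtain ⟨b, hb⟩ := hy i
      exact ⟨a + b, by simp only [Pi.add_apply, ha, hb]; push_cast; ring⟩
    · refine Or.inr fun i => ?_
      obtain ⟨a, ha⟩ := hx i
      obtain ⟨b, hb⟩ := hy i
      exact ⟨a + b, by simp only [Pi.add_apply, ha, hb]; push_cast; ring⟩
    · refine Or.inl fun i => ?_
      obtain ⟨a, ha⟩ := hx i
      obtain ⟨b, hb⟩ := hy i
      exact ⟨a + b + 1, by simp only [Pi.add_apply, ha, hb]; push_cast; ring⟩
  neg_mem' := by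
    rintro x ⟨hx, k, hk⟩
    refine ⟨?_, -k, by simp only [Pi.neg_apply, Finset.sum_neg_distrib, hk]; push_cast; ring⟩
    rcases hx with hx | hx
    · refine Or.inl fun i => ?_
      obtain ⟨a, ha⟩ := hx i
      exact ⟨-a, by simp only [Pi.neg_apply, ha]; push_cast; ring⟩
    · refine Or.inr fun i => ?_
      obtain ⟨a, ha⟩ := hx i
      exact ⟨-a - 1, by simp only [Pi.neg_apply, ha]; push_cast; ring⟩

theorem E8_eq : E8 = Dplus (Fin 8) := rfl

/-- the norm -/
def qn {ι : Type} [Fintype ι] (x : ι → ℚ) : ℚ := ∑ i, x i ^ 2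

section
variable {ι : Type} [Fintype ι]

/-- `D⁺` is an even lattice if `8` divides the number of coordinates -/
theorem Dplus_even (h8 : 8 ∣ Fintype.card ι) {x : ι → ℚ} (hx : x ∈ Dplus ι) :
    ∃ m : ℕ, qn x = 2 * m := by
  suffices h : ∃ m : ℤ, qn x = 2 * m by
    obtain ⟨m, hm⟩ := h
    have h0 : 0 ≤ qn x := Finset.sum_nonneg fun i _ => sq_nonneg _
    have h1 : 0 ≤ m := by
      rw [hm] at h0
      have : (0 : ℚ) ≤ m := by linarith
      exact_mod_cast this
    refine ⟨m.toNat, ?_⟩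
    rw [hm]
    have : ((m.toNat : ℕ) : ℤ) = m := Int.toNat_of_nonneg h1
    rw [← Int.cast_natCast, this]
  unfold qn
  obtain ⟨h1 | h1, k, hk⟩ := hx
  · choose z hz using h1
    have h2 : ∀ i, (2 : ℤ) ∣ z i ^ 2 - z i := fun i => by
      rcases Int.even_or_odd (z i) with h | h
      · exact (((Int.even_pow' (by norm_num)).mpr h).sub h).two_dvd
      · exact ((h.pow).sub_odd h).two_dvd
    obtain ⟨c, hc⟩ : (2 : ℤ) ∣ ∑ i, (z i ^ 2 - z i) := Finset.dvd_sum fun i _ => h2 i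
    rw [Finset.sum_sub_distrib] at hc
    refine ⟨c + k, ?_⟩
    simp only [hz] at hk ⊢
    have h3 : (∑ i, (z i : ℚ) ^ 2) - ∑ i, (z i : ℚ) = 2 * c := by exact_mod_cast hc
    push_cast
    linarith
  · choose z hz using h1
    have h2 : ∀ i, (8 : ℤ) ∣ (2 * z i + 1) ^ 2 - 1 := fun i => by
      have := odd_sq_mod_eight (y := 2 * z i + 1) ⟨z i, rfl⟩
      omega
    obtain ⟨c, hc⟩ : (8 : ℤ) ∣ ∑ i, ((2 * z i + 1) ^ 2 - 1) := Finset.dvd_sum fun i _ => h2 i
    obtain ⟨r, hr⟩ := h8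
    refine ⟨c + r, ?_⟩
    have h3 : ∑ i : ι, ((2 * (z i : ℚ) + 1) ^ 2 - 1 : ℚ) = 8 * (c : ℚ) := by
      exact_mod_cast hc
    have h4 : ∀ i, x i ^ 2 = ((2 * (z i : ℚ) + 1) ^ 2 - 1) / 4 + 1 / 4 := fun i => by
      rw [hz]
      ring
    rw [Finset.sum_congr rfl fun i _ => h4 i, Finset.sum_add_distrib, ← Finset.sum_div, h3]
    simp only [Finset.sum_const, Finset.card_univ, nsmul_eq_mul, hr]
    push_cast
    ring

/-- `D⁺` is unimodular if `8` divides the number of coordinates -/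
theorem Dplus_selfdual [Nontrivial ι] (h8 : 8 ∣ Fintype.card ι) (x : ι → ℚ) :
    x ∈ Dplus ι ↔ ∀ y ∈ Dplus ι, ∃ k : ℤ, ∑ i, x i * y i = k := by
  classical
  constructor
  · intro hx y hy
    obtain ⟨a, ha⟩ := Dplus_even h8 hx
    obtain ⟨b, hb⟩ := Dplus_even h8 hy
    obtain ⟨c, hc⟩ := Dplus_even h8 ((Dplus ι).add_mem hx hy)
    refine ⟨(c : ℤ) - a - b, ?_⟩
    have h1 : qn (x + y) = qn x + qn y + 2 * ∑ i, x i * y i := by
      unfold qn
      rw [Finset.mul_sum, ← Finset.sum_add_distrib, ← Finset.sum_add_distrib]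
      exact Finset.sum_congr rfl fun i _ => by rw [Pi.add_apply]; ring
    rw [ha, hb, hc] at h1
    push_cast
    linarith
  · intro h
    obtain ⟨i₀, j₀, hij₀⟩ := exists_pair_ne ι
    have hs : ∀ (s : ℚ) (i j : ι), i ≠ j → (s = 1 ∨ s = -1) →
        (Pi.single i 1 + Pi.single j s : ι → ℚ) ∈ Dplus ι := by
      intro s i j hij hs
      have hsum : ∑ l, (Pi.single i (1 : ℚ) + Pi.single j s : ι → ℚ) l = 1 + s := by
        simp only [Pi.add_apply, Finset.sum_add_distrib, Finset.sum_pi_single', Finset.mem_univ,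
          if_true]
      refine ⟨Or.inl fun l => ?_, ?_⟩
      · have h1 : ∃ a : ℤ, (Pi.single i (1 : ℚ) : ι → ℚ) l = a := by
          by_cases hl : l = i
          · subst hl
            exact ⟨1, by simp⟩
          · exact ⟨0, by rw [Pi.single_eq_of_ne hl]; simp⟩
        have h2 : ∃ a : ℤ, (Pi.single j s : ι → ℚ) l = a := by
          by_cases hl : l = j
          · subst hl
            rcases hs with rfl | rfl
            · exact ⟨1, by simp⟩
            · exact ⟨-1, by simp⟩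
          · exact ⟨0, by rw [Pi.single_eq_of_ne hl]; simp⟩
        obtain ⟨a, ha⟩ := h1
        obtain ⟨b, hb⟩ := h2
        exact ⟨a + b, by rw [Pi.add_apply, ha, hb]; push_cast; rfl⟩
      · rw [hsum]
        rcases hs with rfl | rfl
        · exact ⟨1, by norm_num⟩
        · exact ⟨0, by norm_num⟩
    have hdot : ∀ (s : ℚ) (i j : ι),
        ∑ l, x l * (Pi.single i (1 : ℚ) + Pi.single j s : ι → ℚ) l = x i + x j * s := by
      intro s i j
      simp [mul_add, Finset.sum_add_distrib, Pi.single_apply]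
    have hp : ∃ k : ℤ, x i₀ + x j₀ = k := by
      obtain ⟨k, hk⟩ := h _ (hs 1 i₀ j₀ hij₀ (Or.inl rfl))
      rw [hdot, mul_one] at hk
      exact ⟨k, hk⟩
    have hm : ∀ j : ι, ∃ k : ℤ, x i₀ - x j = k := fun j => by
      by_cases hj : i₀ = j
      · subst hj
        exact ⟨0, by simp⟩
      · obtain ⟨k, hk⟩ := h _ (hs (-1) i₀ j hj (Or.inr rfl))
        rw [hdot, mul_neg_one, ← sub_eq_add_neg] at hk
        exact ⟨k, hk⟩
    obtain ⟨a, ha⟩ := hp
    obtain ⟨b, hb⟩ := hm j₀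
    choose k hk using hm
    refine ⟨?_, ?_⟩
    · rcases Int.even_or_odd' (a + b) with ⟨c, hc | hc⟩
      · refine Or.inl fun i => ⟨c - k i, ?_⟩
        have h1 : (a : ℚ) + b = 2 * c := by exact_mod_cast hc
        have h2 := hk i
        push_cast
        linarith
      · refine Or.inr fun i => ⟨c - k i, ?_⟩
        have h1 : (a : ℚ) + b = 2 * c + 1 := by exact_mod_cast hc
        have h2 := hk i
        push_cast
        linarith
    · obtain ⟨r, hr⟩ := h8
      obtain ⟨c, hc⟩ := h (fun _ => 1 / 2) ⟨Or.inr fun _ => ⟨0, by norm_num⟩, 2 * r, by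
        simp only [Finset.sum_const, Finset.card_univ, nsmul_eq_mul, hr]
        push_cast
        ring⟩
      refine ⟨c, ?_⟩
      rw [← Finset.sum_mul] at hc
      linarith

/-- number of vectors of norm `m` -/
def nD (ι : Type) [Fintype ι] (m : ℕ) : ℕ := {x : ι → ℚ | x ∈ Dplus ι ∧ qn x = m}.ncard

/-- the integral vectors -/
def setZ (ι : Type) [Fintype ι] (m : ℕ) : Set (ι → ℤ) := {z | 2 ∣ ∑ i, z i ∧ ∑ i, z i ^ 2 = (m : ℤ)}

/-- the others, multiplied by two -/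
def setH (ι : Type) [Fintype ι] (m : ℕ) : Set (ι → ℤ) :=
  {y | ((∀ i, Odd (y i)) ∧ 4 ∣ ∑ i, y i) ∧ ∑ i, y i ^ 2 = 4 * (m : ℤ)}

/-- `z ↦ z` and `y ↦ y / 2` -/
def fZ (z : ι → ℤ) : ι → ℚ := fun i => (z i : ℚ)

/-- `y ↦ y / 2` -/
def fH (y : ι → ℤ) : ι → ℚ := fun i => (y i : ℚ) / 2

omit [Fintype ι] in
theorem fZ_injective : Function.Injective (fZ : (ι → ℤ) → ι → ℚ) := fun y z h => by
  funext i
  have h1 : (y i : ℚ) = (z i : ℚ) := congrFun h i
  exact_mod_cast h1

omit [Fintype ι] in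
theorem fH_injective : Function.Injective (fH : (ι → ℤ) → ι → ℚ) := fun y z h => by
  funext i
  have h1 : (y i : ℚ) / 2 = (z i : ℚ) / 2 := congrFun h i
  have h2 : (y i : ℚ) = z i := by linarith
  exact_mod_cast h2

theorem normSet_eq (m : ℕ) :
    {x : ι → ℚ | x ∈ Dplus ι ∧ qn x = m} = fZ '' setZ ι m ∪ fH '' setH ι m := by
  ext x
  constructor
  · rintro ⟨⟨h1 | h1, k, hk⟩, h2⟩
    · choose z hz using h1
      refine Or.inl ⟨z, ⟨⟨k, ?_⟩, ?_⟩, funext fun i => (hz i).symm⟩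
      · simp only [hz] at hk
        exact_mod_cast hk
      · simp only [qn, hz] at h2
        exact_mod_cast h2
    · choose z hz using h1
      have hz' : ∀ i, x i = ((2 * z i + 1 : ℤ) : ℚ) / 2 := fun i => by rw [hz]; push_cast; ring
      refine Or.inr ⟨fun i => 2 * z i + 1, ⟨⟨fun i => ⟨z i, rfl⟩, ⟨k, ?_⟩⟩, ?_⟩,
        funext fun i => (hz' i).symm⟩
      · simp only [hz', ← Finset.sum_div] at hk
        have h3 : (∑ i, ((2 * z i + 1 : ℤ) : ℚ)) = ((4 * k : ℤ) : ℚ) := by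
          push_cast at hk ⊢
          linarith
        exact_mod_cast h3
      · simp only [qn, hz', div_pow, ← Finset.sum_div] at h2
        have h3 : (∑ i, ((2 * z i + 1 : ℤ) : ℚ) ^ 2) = ((4 * (m : ℤ) : ℤ) : ℚ) := by
          push_cast at h2 ⊢
          linarith
        exact_mod_cast h3
  · rintro (⟨z, ⟨⟨k, hk⟩, h2⟩, rfl⟩ | ⟨y, ⟨⟨h1, ⟨k, hk⟩⟩, h2⟩, rfl⟩)
    · refine ⟨⟨Or.inl fun i => ⟨z i, rfl⟩, k, ?_⟩, ?_⟩
      · show ∑ i, (z i : ℚ) = 2 * k
        exact_mod_cast hk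
      · show ∑ i, (z i : ℚ) ^ 2 = m
        exact_mod_cast h2
    · refine ⟨⟨Or.inr fun i => ?_, k, ?_⟩, ?_⟩
      · obtain ⟨a, ha⟩ := h1 i
        exact ⟨a, by simp only [fH, ha]; push_cast; ring⟩
      · simp only [fH, ← Finset.sum_div]
        have h3 : (∑ i, (y i : ℚ)) = ((4 * k : ℤ) : ℚ) := by exact_mod_cast hk
        rw [h3]
        push_cast
        ring
      · simp only [qn, fH, div_pow, ← Finset.sum_div]
        have h3 : (∑ i, (y i : ℚ) ^ 2) = ((4 * (m : ℤ) : ℤ) : ℚ) := by exact_mod_cast h2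
        rw [h3]
        push_cast
        ring

theorem finite_sq (m : ℕ) : {z : ι → ℤ | ∑ i, z i ^ 2 = (m : ℤ)}.Finite := by
  have h : {z : ι → ℤ | ∀ i, z i ∈ Set.Icc (-(m : ℤ)) m}.Finite :=
    Set.Finite.pi' fun _ => Set.finite_Icc _ _
  refine h.subset fun z hz i => ?_
  have h1 : z i ^ 2 ≤ m := by
    rw [← show ∑ i, z i ^ 2 = (m : ℤ) from hz]
    exact Finset.single_le_sum (f := fun i => z i ^ 2) (fun j _ => sq_nonneg (z j)) (mem_univ i)
  rw [Set.mem_Icc]
  constructor <;> nlinarith [sq_nonneg (z i - 1), sq_nonneg (z i + 1), sq_nonneg (z i)]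

theorem finite_setZ (m : ℕ) : (setZ ι m).Finite := (finite_sq m).subset fun _ hz => hz.2

theorem finite_setH (m : ℕ) : (setH ι m).Finite :=
  (finite_sq (4 * m)).subset fun z hz => by
    show ∑ i, z i ^ 2 = ((4 * m : ℕ) : ℤ)
    rw [hz.2]
    push_cast
    rfl

/-- `D⁺` has only finitely many vectors of norm `m` -/
theorem finite_norm (m : ℕ) : {x : ι → ℚ | x ∈ Dplus ι ∧ qn x = m}.Finite := by
  rw [normSet_eq]
  exact ((finite_setZ m).image _).union ((finite_setH m).image _)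

theorem nD_eq [Nonempty ι] (m : ℕ) : nD ι m = (setZ ι m).ncard + (setH ι m).ncard := by
  have hd : Disjoint (fZ '' setZ ι m) (fH '' setH ι m) := by
    rw [Set.disjoint_left]
    rintro x ⟨z, -, rfl⟩ ⟨y, ⟨⟨hy, -⟩, -⟩, h⟩
    obtain ⟨i⟩ := ‹Nonempty ι›
    have h1 : (y i : ℚ) / 2 = (z i : ℚ) := congrFun h i
    have h2 : (y i : ℚ) = ((2 * z i : ℤ) : ℚ) := by push_cast; linarith
    have h3 : y i = 2 * z i := by exact_mod_cast h2
    have h4 := hy i
    rw [h3] at h4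
    exact Int.not_even_iff_odd.mpr h4 (even_two_mul _)
  rw [← Set.ncard_image_of_injective _ fZ_injective, ← Set.ncard_image_of_injective _ fH_injective,
    ← Set.ncard_union_eq hd ((finite_setZ m).image _) ((finite_setH m).image _), ← normSet_eq]
  rfl

end

end Fermat.Agent.Cor.Quat
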