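import Fermat.Agent.LTF.Theta.AN
import Fermat.Agent.S16.EisE2
import Fermat.Agent.P1Count.Index
import Fermat.Prelude.Thm_ModularForm_sturm_bound_Gamma0

/-!
# Quaternary quadratic forms whose theta series is an Eisenstein series

For positive definite binary forms `Q`, `R` of the same discriminant `D` and `c ≥ 1` the theta
series of `Q(x, y) + c R(z, w)` is a modular form of weight two and level `M = |D| c`
(`LTF.Theta.exists_modularForm_prod`).  `card_eq_sum`: if it agrees with a combination of the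
Eisenstein series `d E₂(dz) - E₂(z)`, `d ∣ M`, up to the Sturm bound then the number of
representations of every `n ≥ 1` is `∑_{e ∣ n} W(e) e` for an explicit function `W`.
-/

set_option autoImplicit false

noncomputable section

open UpperHalfPlane CongruenceSubgroup ModularFormClass
open scoped MatrixGroups

namespace Fermat.Agent.Cor.Quat

open Fermat.Agent.LTF.Theta

/-! ### Eisenstein series -/

/-- coefficients of `d E₂(dz) - E₂(z)` -/
def eisc (d n : ℕ) : ℤ :=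
  if n = 0 then (d : ℤ) - 1 else 24 * ∑ e ∈ n.divisors.filter (fun e => ¬ d ∣ e), (e : ℤ)

theorem exists_eis (d M : ℕ) [NeZero d] [NeZero M] (h : d ∣ M) :
    ∃ F : ModularForm (Gamma0 M) 2, ∀ n, qCoeff F n = (eisc d n : ℂ) := by
  let F : ModularForm (Gamma0 M) 2 :=
    { toFun := S16.eisFun d
      slash_action_eq' := by
        rintro _ ⟨γ, hγ, rfl⟩
        refine S16.eisFun_slash d ?_
        rw [SetLike.mem_coe, Gamma0_mem, ZMod.intCast_zmod_eq_zero_iff_dvd] at hγ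
        rw [Gamma0_mem, ZMod.intCast_zmod_eq_zero_iff_dvd]
        exact (Int.natCast_dvd_natCast.mpr h).trans hγ
      holo' := (S16.eisForm d).holo'
      bdd_at_cusps' := fun hc => S16.isBoundedAt_eisFun d (hc.mono (S16.Gamma0_le_SL M)) }
  refine ⟨F, fun n => ?_⟩
  have h1 : qCoeff F n = (qExpansion 1 (S16.eisForm d)).coeff n := rfl
  rw [h1, S16.qExpansion_eisForm, S16.coeff_toC, S16.eisSeries, PowerSeries.coeff_mk]
  rfl

/-! ### comparison of coefficients -/

theorem qCoeff_sub {M : ℕ} (F G : ModularForm (Gamma0 M) 2) (n : ℕ) :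
    qCoeff ⇑(F - G) n = qCoeff F n - qCoeff G n := by
  unfold qCoeff
  have h := ModularForm.qExpansion_sub one_pos (one_mem_strictPeriods_Gamma0 M) F G
  rw [show (⇑(F - G) : ℍ → ℂ) = ⇑F - ⇑G from rfl, h, map_sub]

theorem qCoeff_sum {M : ℕ} (ι : Finset ℕ) (β : ℕ → ℂ) (E : ℕ → ModularForm (Gamma0 M) 2)
    (n : ℕ) : qCoeff ⇑(∑ d ∈ ι, β d • E d) n = ∑ d ∈ ι, β d * qCoeff (E d) n := by
  unfold qCoeff
  have h := map_sum (ModularForm.qExpansionAddHom one_pos (one_mem_strictPeriods_Gamma0 M) 2)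
    (fun d => β d • E d) ι
  have h2 : ∀ d, ModularForm.qExpansionAddHom one_pos (one_mem_strictPeriods_Gamma0 M) 2
      (β d • E d) = β d • qExpansion 1 (E d) := fun d =>
    ModularForm.qExpansion_smul one_pos (one_mem_strictPeriods_Gamma0 M) (β d) (E d)
  have h3 : qExpansion 1 ⇑(∑ d ∈ ι, β d • E d) = ∑ d ∈ ι, β d • qExpansion 1 (E d) := by
    rw [← Finset.sum_congr rfl fun d _ => h2 d, ← h]
    rfl
  rw [h3, map_sum]
  rfl

theorem eq_of_sturm {M : ℕ} [NeZero M] {F G : ModularForm (Gamma0 M) 2} {B : ℕ}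
    (hB : 2 * ModularCurve.dedekindPsi M / 12 ≤ B) (h : ∀ n ≤ B, qCoeff F n = qCoeff G n) :
    F = G := by
  rw [← sub_eq_zero]
  refine ModularForm.sturm_bound_Gamma0 M _ fun n hn => ?_
  rw [P1Count.index_Gamma0] at hn
  have h1 : n ≤ B := by
    refine le_trans ?_ hB
    have h2 : ((2 : ℤ) * (ModularCurve.dedekindPsi M : ℤ)).toNat =
        2 * ModularCurve.dedekindPsi M := by
      omega
    rwa [h2] at hn
  have h3 : qCoeff ⇑(F - G) n = 0 := by rw [qCoeff_sub, h n h1, sub_self]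
  exact h3

/-- the weights: `W(e) = ∑_{d ∈ ι, d ∤ e} β(d)` -/
def wt (ι : Finset ℕ) (β : ℕ → ℤ) (e : ℕ) : ℤ := ∑ d ∈ ι.filter (fun d => ¬ d ∣ e), β d

theorem sum_wt (ι : Finset ℕ) (β : ℕ → ℤ) (n : ℕ) :
    ∑ e ∈ n.divisors, wt ι β e * e =
      ∑ d ∈ ι, β d * ∑ e ∈ n.divisors.filter (fun e => ¬ d ∣ e), (e : ℤ) := by
  unfold wt
  simp only [Finset.sum_filter, Finset.sum_mul, Finset.mul_sum]
  rw [Finset.sum_comm]
  refine Finset.sum_congr rfl fun d _ => Finset.sum_congr rfl fun e _ => ?_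
  split_ifs <;> simp

/-- **the general formula**, for the numbers `cf` -/
theorem cf_eq_sum {Q R : BQ} (hQ : Q.Pos) (hR : R.Pos) (hdisc : Q.disc = R.disc) {c : ℕ}
    (hc : 0 < c) {M : ℕ} [NeZero M] (hM : (M : ℤ) = -Q.disc * c) (ι : Finset ℕ)
    (hι : ∀ d ∈ ι, d ∣ M) (β : ℕ → ℤ) {B : ℕ}
    (hB : 2 * ModularCurve.dedekindPsi M / 12 ≤ B)
    (h0 : ∑ d ∈ ι, β d * ((d : ℤ) - 1) = 24) (h00 : cf Q R c 0 = 1)
    (h : ∀ n, 1 ≤ n → n ≤ B → (cf Q R c n : ℤ) = ∑ e ∈ n.divisors, wt ι β e * e) {n : ℕ}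
    (hn : 1 ≤ n) : (cf Q R c n : ℤ) = ∑ e ∈ n.divisors, wt ι β e * e := by
  obtain ⟨F, -, hF⟩ := exists_modularForm_prod hQ hR hdisc hc hM
  have hE : ∀ d : ℕ, ∃ E : ModularForm (Gamma0 M) 2, d ∣ M → ∀ n, qCoeff E n = (eisc d n : ℂ) := by
    intro d
    by_cases hd : d ∣ M
    · have : NeZero d := ⟨fun h => NeZero.ne M (Nat.eq_zero_of_zero_dvd (h ▸ hd))⟩
      obtain ⟨E, hE⟩ := exists_eis d M hd
      exact ⟨E, fun _ => hE⟩
    · exact ⟨0, fun h => absurd h hd⟩
  choose E hE using hE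
  set G : ModularForm (Gamma0 M) 2 := ∑ d ∈ ι, ((β d : ℂ) / 24) • E d with hG
  have hGc : ∀ n, qCoeff G n = ∑ d ∈ ι, ((β d : ℂ) / 24) * (eisc d n : ℂ) := by
    intro n
    rw [hG, qCoeff_sum ι (fun d => (β d : ℂ) / 24) E n]
    exact Finset.sum_congr rfl fun d hd => by rw [hE d (hι d hd) n]
  have hG0 : qCoeff G 0 = 1 := by
    rw [hGc]
    have h1 := congrArg (Int.cast : ℤ → ℂ) h0
    push_cast at h1
    have h2 : ∀ d : ℕ, ((β d : ℂ) / 24) * ((eisc d 0 : ℤ) : ℂ) =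
        ((β d : ℂ) * ((d : ℂ) - 1)) / 24 := by
      intro d
      unfold eisc
      rw [if_pos rfl]
      push_cast
      ring
    rw [Finset.sum_congr rfl fun d _ => h2 d, ← Finset.sum_div, h1]
    norm_num
  have hG1 : ∀ n, 1 ≤ n → qCoeff G n = ((∑ e ∈ n.divisors, wt ι β e * e : ℤ) : ℂ) := by
    intro n hn
    rw [hGc, sum_wt]
    push_cast
    refine Finset.sum_congr rfl fun d _ => ?_
    unfold eisc
    rw [if_neg (by omega)]
    push_cast
    ring
  have key : F = G := by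
    refine eq_of_sturm hB fun n hn => ?_
    rcases Nat.eq_zero_or_pos n with rfl | hpos
    · rw [hF, hG0, h00, Nat.cast_one]
    · rw [hF, hG1 n hpos, ← h n hpos hn]
      push_cast
      rfl
  have h3 := hF n
  rw [key, hG1 n hn] at h3
  exact_mod_cast h3.symm

end Fermat.Agent.Cor.Quat
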