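import Fermat.Agent.Corollaries.Quat.Forms

/-!
# Consequences: primes, universal forms
-/

set_option autoImplicit false

namespace Fermat.Agent.Cor.Quat

open Finset

/-! ### primes, odd and even numbers -/

theorem sum_divisors_prime {p l : ℕ} (hp : p.Prime) (hl : ¬ l ∣ p) (hl1 : l ≠ 1) :
    ∑ d ∈ p.divisors with ¬ l ∣ d, d = p + 1 := by
  rw [hp.divisors, Finset.filter_true_of_mem, Finset.sum_insert, Finset.sum_singleton, add_comm]
  · rw [mem_singleton]
    exact hp.one_lt.ne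
  · intro d hd
    rw [mem_insert, mem_singleton] at hd
    rcases hd with rfl | rfl
    · rwa [Nat.dvd_one]
    · exact hl

/-- a prime number `p` has `8 (p + 1)` representations as a sum of four squares -/
theorem four_squares_prime {p : ℕ} (hp : p.Prime) :
    {(x, y, z, w) : ℤ × ℤ × ℤ × ℤ | x ^ 2 + y ^ 2 + z ^ 2 + w ^ 2 = p}.ncard = 8 * (p + 1) := by
  rw [jacobi_four_squares hp.ne_zero, sum_divisors_prime hp (fun h => ?_) (by norm_num)]
  rcases (Nat.dvd_prime hp).mp h with h | h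
  · norm_num at h
  · subst h
    revert hp
    norm_num

/-- a prime number `p ≠ 3` has `12 (p + 1)` representations by `x² + xy + y² + z² + zw + w²` -/
theorem hex_hex_prime {p : ℕ} (hp : p.Prime) (h3 : p ≠ 3) :
    {(x, y, z, w) : ℤ × ℤ × ℤ × ℤ |
      x ^ 2 + x * y + y ^ 2 + z ^ 2 + z * w + w ^ 2 = p}.ncard = 12 * (p + 1) := by
  rw [card_hex_hex hp.ne_zero, sum_divisors_prime hp (fun h => ?_) (by norm_num)]
  exact h3 ((Nat.prime_dvd_prime_iff_eq Nat.prime_three hp).mp h).symm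

/-- a prime number `p ≠ 7` has `4 (p + 1)` representations by
`x² + xy + 2y² + z² + zw + 2w²` -/
theorem seven_seven_prime {p : ℕ} (hp : p.Prime) (h7 : p ≠ 7) :
    {(x, y, z, w) : ℤ × ℤ × ℤ × ℤ |
      x ^ 2 + x * y + 2 * y ^ 2 + z ^ 2 + z * w + 2 * w ^ 2 = p}.ncard = 4 * (p + 1) := by
  rw [card_seven_seven hp.ne_zero, sum_divisors_prime hp (fun h => ?_) (by norm_num)]
  exact h7 ((Nat.prime_dvd_prime_iff_eq (by norm_num) hp).mp h).symm

/-- **Jacobi**: an odd number `n` has `8 σ(n)` representations as a sum of four squares -/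
theorem four_squares_odd {n : ℕ} (hn : Odd n) :
    {(x, y, z, w) : ℤ × ℤ × ℤ × ℤ | x ^ 2 + y ^ 2 + z ^ 2 + w ^ 2 = n}.ncard =
      8 * ∑ d ∈ n.divisors, d := by
  rw [jacobi_four_squares hn.pos.ne', Finset.filter_true_of_mem]
  intro d hd h
  have h1 : 2 ∣ n := (dvd_trans (by norm_num) h).trans (Nat.dvd_of_mem_divisors hd)
  rw [← Nat.not_even_iff_odd] at hn
  exact hn (even_iff_two_dvd.mpr h1)

/-- **Jacobi**: an even number `n` has `24` times the sum of its odd divisors representations as a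
sum of four squares -/
theorem four_squares_even {n : ℕ} (hn : n ≠ 0) (he : Even n) :
    {(x, y, z, w) : ℤ × ℤ × ℤ × ℤ | x ^ 2 + y ^ 2 + z ^ 2 + w ^ 2 = n}.ncard =
      24 * ∑ d ∈ n.divisors with Odd d, d := by
  have h2 : ∑ d ∈ n.divisors with ¬ 4 ∣ d ∧ Even d, d = ∑ d ∈ n.divisors with Odd d, 2 * d := by
    refine (Finset.sum_bij' (fun d _ => 2 * d) (fun d _ => d / 2) ?_ ?_ ?_ ?_ ?_).symm
    · intro d hd
      rw [mem_filter, Nat.mem_divisors] at hd ⊢
      obtain ⟨⟨hd, -⟩, ho⟩ := hd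
      refine ⟨⟨(Nat.Coprime.mul_dvd_of_dvd_of_dvd ?_ (even_iff_two_dvd.mp he) hd), hn⟩, ?_, ?_⟩
      · exact (Nat.coprime_two_left).mpr ho
      · rw [← Nat.not_even_iff_odd, even_iff_two_dvd] at ho
        omega
      · exact even_two_mul d
    · intro d hd
      rw [mem_filter, Nat.mem_divisors] at hd ⊢
      obtain ⟨⟨hd, -⟩, h4, ho⟩ := hd
      obtain ⟨m, rfl⟩ := even_iff_two_dvd.mp ho
      rw [Nat.mul_div_cancel_left m (by norm_num)]
      refine ⟨⟨(Nat.dvd_mul_left m 2).trans hd, hn⟩, ?_⟩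
      rw [← Nat.not_even_iff_odd, even_iff_two_dvd]
      omega
    · intro d _
      exact Nat.mul_div_cancel_left d (by norm_num)
    · intro d hd
      rw [mem_filter] at hd
      exact Nat.two_mul_div_two_of_even hd.2.2
    · intro d _
      rfl
  have h1 : ∑ d ∈ n.divisors with ¬ 4 ∣ d, d =
      ∑ d ∈ n.divisors with Odd d, d + ∑ d ∈ n.divisors with ¬ 4 ∣ d ∧ Even d, d := by
    simp only [Finset.sum_filter]
    rw [← Finset.sum_add_distrib]
    refine Finset.sum_congr rfl fun d _ => ?_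
    rcases Nat.even_or_odd d with h | h
    · have : ¬ Odd d := Nat.not_odd_iff_even.mpr h
      simp [h, this]
    · have h' : ¬ Even d := Nat.not_even_iff_odd.mpr h
      have h4 : ¬ 4 ∣ d := fun h4 => h' (even_iff_two_dvd.mpr ((by norm_num : 2 ∣ 4).trans h4))
      simp [h, h', h4]
  rw [jacobi_four_squares hn, h1, h2, ← Finset.mul_sum]
  ring

/-! ### universal forms -/

theorem exists_of_ncard {F : ℤ → ℤ → ℤ → ℤ → ℤ} {n : ℕ} {s : ℤ}
    (h : ({(x, y, z, w) : ℤ × ℤ × ℤ × ℤ | F x y z w = n}.ncard : ℤ) = s) (hs : 0 < s) :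
    ∃ x y z w : ℤ, F x y z w = n := by
  have h1 : {(x, y, z, w) : ℤ × ℤ × ℤ × ℤ | F x y z w = n}.ncard ≠ 0 := by omega
  obtain ⟨⟨x, y, z, w⟩, hx⟩ := Set.nonempty_of_ncard_ne_zero h1
  exact ⟨x, y, z, w, hx⟩

theorem sum_pos_of {W : ℕ → ℤ} (h0 : ∀ e, 0 ≤ W e) (h1 : 0 < W 1) {n : ℕ} (hn : n ≠ 0) :
    0 < ∑ e ∈ n.divisors, W e * e := by
  refine Finset.sum_pos' (fun e _ => mul_nonneg (h0 e) (Int.natCast_nonneg e))
    ⟨1, Nat.one_mem_divisors.mpr hn, ?_⟩
  simpa using h1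

theorem filter_pos_of {k l : ℕ} (hk : 0 < k) (hl : l ≠ 1) {n : ℕ} (hn : n ≠ 0) :
    0 < k * ∑ d ∈ n.divisors with ¬ l ∣ d, d := by
  refine Nat.mul_pos hk (Finset.sum_pos' (fun _ _ => Nat.zero_le _) ⟨1, ?_, one_pos⟩)
  rw [mem_filter, Nat.dvd_one]
  exact ⟨Nat.one_mem_divisors.mpr hn, hl⟩

theorem universal_1122 (n : ℕ) : ∃ x y z w : ℤ, x ^ 2 + y ^ 2 + 2 * z ^ 2 + 2 * w ^ 2 = n := by
  rcases eq_or_ne n 0 with rfl | hn
  · exact ⟨0, 0, 0, 0, by norm_num⟩
  · exact exists_of_ncard (card_1122 hn) (sum_pos_of (fun e => by split_ifs <;> norm_num)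
      (by norm_num) hn)

theorem universal_1133 (n : ℕ) : ∃ x y z w : ℤ, x ^ 2 + y ^ 2 + 3 * z ^ 2 + 3 * w ^ 2 = n := by
  rcases eq_or_ne n 0 with rfl | hn
  · exact ⟨0, 0, 0, 0, by norm_num⟩
  · exact exists_of_ncard (card_1133 hn) (sum_pos_of (fun e => by split_ifs <;> norm_num)
      (by norm_num) hn)

theorem universal_1224 (n : ℕ) : ∃ x y z w : ℤ, x ^ 2 + 2 * y ^ 2 + 2 * z ^ 2 + 4 * w ^ 2 = n := by
  rcases eq_or_ne n 0 with rfl | hn
  · exact ⟨0, 0, 0, 0, by norm_num⟩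
  · exact exists_of_ncard (card_1224 hn) (sum_pos_of (fun e => by split_ifs <;> norm_num)
      (by norm_num) hn)

theorem universal_hex_hex (n : ℕ) :
    ∃ x y z w : ℤ, x ^ 2 + x * y + y ^ 2 + z ^ 2 + z * w + w ^ 2 = n := by
  rcases eq_or_ne n 0 with rfl | hn
  · exact ⟨0, 0, 0, 0, by norm_num⟩
  · exact exists_of_ncard (congrArg Nat.cast (card_hex_hex hn))
      (by exact_mod_cast filter_pos_of (by norm_num) (by norm_num) hn)

theorem universal_seven_seven (n : ℕ) :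
    ∃ x y z w : ℤ, x ^ 2 + x * y + 2 * y ^ 2 + z ^ 2 + z * w + 2 * w ^ 2 = n := by
  rcases eq_or_ne n 0 with rfl | hn
  · exact ⟨0, 0, 0, 0, by norm_num⟩
  · exact exists_of_ncard (congrArg Nat.cast (card_seven_seven hn))
      (by exact_mod_cast filter_pos_of (by norm_num) (by norm_num) hn)

theorem universal_hex_two_hex (n : ℕ) :
    ∃ x y z w : ℤ, x ^ 2 + x * y + y ^ 2 + 2 * (z ^ 2 + z * w + w ^ 2) = n := by
  rcases eq_or_ne n 0 with rfl | hn
  · exact ⟨0, 0, 0, 0, by norm_num⟩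
  · exact exists_of_ncard (card_hex_two_hex hn) (sum_pos_of (fun e => by split_ifs <;> norm_num)
      (by norm_num) hn)

theorem universal_eleven_two_eleven (n : ℕ) :
    ∃ x y z w : ℤ, x ^ 2 + x * y + 3 * y ^ 2 + 2 * (z ^ 2 + z * w + 3 * w ^ 2) = n := by
  rcases eq_or_ne n 0 with rfl | hn
  · exact ⟨0, 0, 0, 0, by norm_num⟩
  · exact exists_of_ncard (card_eleven_two_eleven hn)
      (sum_pos_of (fun e => by split_ifs <;> norm_num) (by norm_num) hn)

theorem universal_three_two_hex (n : ℕ) :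
    ∃ x y z w : ℤ, x ^ 2 + 3 * y ^ 2 + 2 * (z ^ 2 + z * w + w ^ 2) = n := by
  rcases eq_or_ne n 0 with rfl | hn
  · exact ⟨0, 0, 0, 0, by norm_num⟩
  · exact exists_of_ncard (card_three_two_hex hn) (sum_pos_of (fun e => by split_ifs <;> norm_num)
      (by norm_num) hn)

theorem universal_five_genus (n : ℕ) :
    ∃ x y z w : ℤ, x ^ 2 + 5 * y ^ 2 + 2 * z ^ 2 + 2 * z * w + 3 * w ^ 2 = n := by
  rcases eq_or_ne n 0 with rfl | hn
  · exact ⟨0, 0, 0, 0, by norm_num⟩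
  · exact exists_of_ncard (card_five_genus hn) (sum_pos_of (fun e => by split_ifs <;> norm_num)
      (by norm_num) hn)

end Fermat.Agent.Cor.Quat
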