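import Fermat.Agent.Corollaries.Quat.Basic

/-!
# Counting the solutions of `Q(x, y) + c R(z, w) = n`
-/

set_option autoImplicit false

noncomputable section

namespace Fermat.Agent.Cor.Quat

open Fermat.Agent.LTF.Theta Finset

/-- the box `|x|, |y| ≤ b` -/
def box (b : ℕ) : Finset (ℤ × ℤ) := Icc (-(b : ℤ)) b ×ˢ Icc (-(b : ℤ)) b

theorem sq_lt_abs_le {y : ℤ} {b : ℕ} (h : y ^ 2 < ((b : ℤ) + 1) ^ 2) : y ∈ Icc (-(b : ℤ)) b := by
  have h1 := abs_lt_of_sq_lt_sq h (by positivity)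
  rw [abs_lt] at h1
  rw [mem_Icc]
  omega

theorem mem_box {Q : BQ} (hQ : Q.Pos) {x : ℤ × ℤ} {n b : ℕ} (hx : Q.ev x = (n : ℤ))
    (ha : 4 * Q.a * n < -Q.disc * ((b : ℤ) + 1) ^ 2)
    (hc : 4 * Q.c * n < -Q.disc * ((b : ℤ) + 1) ^ 2) : x ∈ box b := by
  obtain ⟨x, y⟩ := x
  have hD : 0 < -Q.disc := by have := hQ.neg; omega
  simp only [BQ.ev, Int.cast_id] at hx
  have h1 : -Q.disc * y ^ 2 ≤ 4 * Q.a * n := by
    rw [← hx]
    have := sq_nonneg (2 * Q.a * x + Q.b * y)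
    simp only [BQ.disc]
    nlinarith
  have h2 : -Q.disc * x ^ 2 ≤ 4 * Q.c * n := by
    rw [← hx]
    have := sq_nonneg (2 * Q.c * y + Q.b * x)
    simp only [BQ.disc]
    nlinarith
  unfold box
  rw [mem_product]
  exact ⟨sq_lt_abs_le (lt_of_mul_lt_mul_left (h2.trans_lt hc) hD.le),
    sq_lt_abs_le (lt_of_mul_lt_mul_left (h1.trans_lt ha) hD.le)⟩

/-- number of representations, by a search in the box -/
def repc (Q : BQ) (b n : ℕ) : ℕ := ((box b).filter fun x => Q.ev x = (n : ℤ)).card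

theorem rep_eq_repc {Q : BQ} (hQ : Q.Pos) {n b : ℕ}
    (ha : 4 * Q.a * n < -Q.disc * ((b : ℤ) + 1) ^ 2)
    (hc : 4 * Q.c * n < -Q.disc * ((b : ℤ) + 1) ^ 2) : Q.rep n = repc Q b n := by
  unfold BQ.rep repc
  rw [← Nat.card_eq_finsetCard]
  refine Nat.card_congr (Equiv.subtypeEquivRight fun x => ?_)
  rw [mem_filter]
  exact ⟨fun h => ⟨mem_box hQ h ha hc, h⟩, fun h => h.2⟩

theorem finite_ev {Q : BQ} (hQ : Q.Pos) (n : ℕ) : Finite {x : ℤ × ℤ // Q.ev x = (n : ℤ)} := by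
  have hD : 1 ≤ -Q.disc := by have := hQ.neg; omega
  have ha := hQ.pos
  have hc := hQ.c_pos
  set b : ℕ := (4 * Q.a * n + 4 * Q.c * n).toNat with hb
  have hb' : (b : ℤ) = 4 * Q.a * n + 4 * Q.c * n := by
    rw [hb, Int.toNat_of_nonneg (by positivity)]
  have h1 : (b : ℤ) < -Q.disc * ((b : ℤ) + 1) ^ 2 := by nlinarith
  refine Finite.of_injective (β := box b) (fun x => ⟨x.1, mem_box hQ x.2 ?_ ?_⟩) ?_
  · refine lt_of_le_of_lt ?_ h1
    rw [hb']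
    have : 0 ≤ 4 * Q.c * n := by positivity
    linarith
  · refine lt_of_le_of_lt ?_ h1
    rw [hb']
    have : 0 ≤ 4 * Q.a * n := by positivity
    linarith
  · intro x y h
    have h2 := congrArg Subtype.val h
    exact Subtype.ext h2

/-- **the number of solutions** -/
theorem card_eq_cf {Q R : BQ} (hQ : Q.Pos) (hR : R.Pos) {c : ℕ} (hc : 0 < c) (n : ℕ) :
    Nat.card {v : (ℤ × ℤ) × (ℤ × ℤ) // Q.ev v.1 + c * R.ev v.2 = (n : ℤ)} = cf Q R c n := by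
  classical
  set S := (range (n + 1)).filter (fun k => c * k ≤ n) with hS
  let β : S → Type := fun k => {x : ℤ × ℤ // Q.ev x = ((n - c * k : ℕ) : ℤ)} ×
    {y : ℤ × ℤ // R.ev y = ((k : ℕ) : ℤ)}
  have hk : ∀ v : {v : (ℤ × ℤ) × (ℤ × ℤ) // Q.ev v.1 + c * R.ev v.2 = (n : ℤ)},
      (((R.ev v.1.2).toNat : ℕ) : ℤ) = R.ev v.1.2 := fun v =>
    Int.toNat_of_nonneg (ev_nonneg hR _)
  have hck : ∀ v : {v : (ℤ × ℤ) × (ℤ × ℤ) // Q.ev v.1 + c * R.ev v.2 = (n : ℤ)},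
      c * (R.ev v.1.2).toNat ≤ n := by
    intro v
    have h1 := v.2
    rw [← hk v] at h1
    have h2 := ev_nonneg hQ v.1.1
    zify
    linarith
  have hmem : ∀ v : {v : (ℤ × ℤ) × (ℤ × ℤ) // Q.ev v.1 + c * R.ev v.2 = (n : ℤ)},
      (R.ev v.1.2).toNat ∈ S := by
    intro v
    rw [hS, mem_filter, mem_range]
    refine ⟨?_, hck v⟩
    have h1 : (R.ev v.1.2).toNat ≤ c * (R.ev v.1.2).toNat := Nat.le_mul_of_pos_left _ hc
    have := hck v
    omega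
  let e : {v : (ℤ × ℤ) × (ℤ × ℤ) // Q.ev v.1 + c * R.ev v.2 = (n : ℤ)} ≃ Σ k : S, β k :=
    { toFun := fun v => ⟨⟨(R.ev v.1.2).toNat, hmem v⟩, ⟨v.1.1, by
          rw [Nat.cast_sub (hck v), Nat.cast_mul, hk v]
          have := v.2
          linarith⟩, ⟨v.1.2, (hk v).symm⟩⟩
      invFun := fun w => ⟨(w.2.1.1, w.2.2.1), by
          have h1 := w.2.1.2
          have h2 := w.2.2.2
          have h3 := (mem_filter.mp w.1.2).2
          have h4 : ((n - c * (w.1 : ℕ) : ℕ) : ℤ) = n - c * ((w.1 : ℕ) : ℤ) := by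
            rw [Nat.cast_sub h3, Nat.cast_mul]
          have h5 := h1.trans h4
          simp only [h5, h2]
          ring⟩
      left_inv := fun v => rfl
      right_inv := by
        rintro ⟨⟨k, hk⟩, ⟨x, hx⟩, ⟨y, hy⟩⟩
        have h1 : (R.ev y).toNat = k := by rw [hy]; simp
        subst h1
        rfl }
  rw [Nat.card_congr e]
  have hfin : ∀ k : S, Finite (β k) := fun k => by
    have := finite_ev hQ (n - c * k)
    have := finite_ev hR (k : ℕ)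
    exact inferInstanceAs (Finite (_ × _))
  rw [Nat.card_sigma]
  unfold cf
  rw [← hS, ← Finset.sum_coe_sort S]
  refine Finset.sum_congr rfl fun k _ => ?_
  exact Nat.card_prod _ _

/-- `cf` by a search in the box -/
def cfc (Q R : BQ) (c b n : ℕ) : ℕ :=
  ∑ k ∈ (range (n + 1)).filter (fun k => c * k ≤ n), repc Q b (n - c * k) * repc R b k

/-- the conditions on the size of the box -/
structure BoxOK (Q : BQ) (b B : ℕ) : Prop where
  a : 4 * Q.a * B < -Q.disc * ((b : ℤ) + 1) ^ 2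
  c : 4 * Q.c * B < -Q.disc * ((b : ℤ) + 1) ^ 2

theorem BoxOK.rep {Q : BQ} (hQ : Q.Pos) {b B : ℕ} (h : BoxOK Q b B) {n : ℕ} (hn : n ≤ B) :
    Q.rep n = repc Q b n := by
  have h1 : (n : ℤ) ≤ B := by exact_mod_cast hn
  refine rep_eq_repc hQ (lt_of_le_of_lt ?_ h.a) (lt_of_le_of_lt ?_ h.c)
  · have := hQ.pos
    nlinarith
  · have := hQ.c_pos
    nlinarith

theorem cf_eq_cfc {Q R : BQ} (hQ : Q.Pos) (hR : R.Pos) {c b B : ℕ}
    (hbQ : BoxOK Q b B) (hbR : BoxOK R b B) {n : ℕ} (hn : n ≤ B) :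
    cf Q R c n = cfc Q R c b n := by
  unfold cf cfc
  refine Finset.sum_congr rfl fun k hk => ?_
  rw [mem_filter, mem_range] at hk
  rw [hbQ.rep hQ (by omega), hbR.rep hR (by omega)]

/-- **The general theorem.** -/
theorem card_eq_sum {Q R : BQ} (hQ : Q.Pos) (hR : R.Pos) (hdisc : Q.disc = R.disc) {c : ℕ}
    (hc : 0 < c) {M : ℕ} [NeZero M] (hM : (M : ℤ) = -Q.disc * c) (ι : Finset ℕ)
    (hι : ∀ d ∈ ι, d ∣ M) (β : ℕ → ℤ) {B : ℕ}
    (hB : 2 * ModularCurve.dedekindPsi M / 12 ≤ B)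
    (h0 : ∑ d ∈ ι, β d * ((d : ℤ) - 1) = 24) {b : ℕ} (hbQ : BoxOK Q b B) (hbR : BoxOK R b B)
    (h00 : cfc Q R c b 0 = 1)
    (h : ∀ n ∈ Icc 1 B, (cfc Q R c b n : ℤ) = ∑ e ∈ n.divisors, wt ι β e * e) {n : ℕ}
    (hn : n ≠ 0) :
    (Nat.card {v : (ℤ × ℤ) × (ℤ × ℤ) // Q.ev v.1 + c * R.ev v.2 = (n : ℤ)} : ℤ) =
      ∑ e ∈ n.divisors, wt ι β e * e := by
  rw [card_eq_cf hQ hR hc]
  refine cf_eq_sum hQ hR hdisc hc hM ι hι β hB h0 ?_ (fun n h1 h2 => ?_) (Nat.pos_of_ne_zero hn)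
  · rw [cf_eq_cfc hQ hR hbQ hbR (Nat.zero_le _), h00]
  · rw [cf_eq_cfc hQ hR hbQ hbR h2, h n (mem_Icc.mpr ⟨h1, h2⟩)]

end Fermat.Agent.Cor.Quat
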