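import Fermat.Agent.Corollaries.Quat.Dplus

/-!
# The theta series of `D⁺`

`2 θ(D⁺(4k)) = P(t)^k + P(-t)^k + Qo(t)^k`, hence `θ(D⁺(16)) = θ(D⁺(8))²`.
-/

set_option autoImplicit false

noncomputable section

namespace Fermat.Agent.Cor.Quat

open Finset

/-! ### change of a sign -/

section
variable {ι : Type} [Fintype ι] [DecidableEq ι]

/-- change of the sign of the coordinate `i₀` -/
def flipAt (i₀ : ι) (y : ι → ℤ) : ι → ℤ := Function.update y i₀ (-y i₀)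

omit [Fintype ι] in
theorem flipAt_flipAt (i₀ : ι) (y : ι → ℤ) : flipAt i₀ (flipAt i₀ y) = y := by
  unfold flipAt
  rw [Function.update_idem, Function.update_self, neg_neg, Function.update_eq_self]

theorem flipAt_sq (i₀ : ι) (y : ι → ℤ) : ∑ i, flipAt i₀ y i ^ 2 = ∑ i, y i ^ 2 := by
  refine Finset.sum_congr rfl fun i _ => ?_
  unfold flipAt
  by_cases h : i = i₀
  · subst h
    rw [Function.update_self, neg_sq]
  · rw [Function.update_of_ne h]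

omit [Fintype ι] in
theorem flipAt_odd (i₀ : ι) {y : ι → ℤ} (hy : ∀ i, Odd (y i)) (i : ι) : Odd (flipAt i₀ y i) := by
  unfold flipAt
  by_cases h : i = i₀
  · subst h
    rw [Function.update_self]
    exact (hy i).neg
  · rw [Function.update_of_ne h]
    exact hy i

theorem flipAt_sum (i₀ : ι) (y : ι → ℤ) : ∑ i, flipAt i₀ y i = ∑ i, y i - 2 * y i₀ := by
  unfold flipAt
  rw [Finset.sum_update_of_mem (mem_univ i₀), ← Finset.add_sum_erase univ y (mem_univ i₀),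
    Finset.sdiff_singleton_eq_erase]
  ring

omit [DecidableEq ι] in
theorem sum_odd_even (h2 : 2 ∣ Fintype.card ι) {y : ι → ℤ} (hy : ∀ i, Odd (y i)) :
    (2 : ℤ) ∣ ∑ i, y i := by
  have h1 : (2 : ℤ) ∣ ∑ i, (y i - 1) := Finset.dvd_sum fun i _ => by
    obtain ⟨k, hk⟩ := hy i
    exact ⟨k, by rw [hk]; ring⟩
  rw [Finset.sum_sub_distrib] at h1
  simp only [Finset.sum_const, Finset.card_univ, nsmul_eq_mul, mul_one] at h1
  have h3 : (2 : ℤ) ∣ (Fintype.card ι : ℤ) := by exact_mod_cast h2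
  exact (dvd_sub_left h3).mp h1

theorem dvd_flipAt (h2 : 2 ∣ Fintype.card ι) (i₀ : ι) {y : ι → ℤ} (hy : ∀ i, Odd (y i)) :
    4 ∣ ∑ i, flipAt i₀ y i ↔ ¬ 4 ∣ ∑ i, y i := by
  rw [flipAt_sum]
  have h3 := sum_odd_even h2 hy
  have h4 := Int.odd_iff.mp (hy i₀)
  omega

theorem ncard_odd_half (h2 : 2 ∣ Fintype.card ι) (i₀ : ι) (m : ℕ)
    (hfin : {y : ι → ℤ | (∀ i, Odd (y i)) ∧ ∑ i, y i ^ 2 = 4 * (m : ℤ)}.Finite) :
    {y : ι → ℤ | (∀ i, Odd (y i)) ∧ ∑ i, y i ^ 2 = 4 * (m : ℤ)}.ncard = 2 * (setH ι m).ncard := by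
  set S := {y : ι → ℤ | (∀ i, Odd (y i)) ∧ ∑ i, y i ^ 2 = 4 * (m : ℤ)} with hS
  have hU : S = setH ι m ∪ flipAt i₀ '' setH ι m := by
    ext y
    constructor
    · rintro ⟨h1, h3⟩
      by_cases h : 4 ∣ ∑ i, y i
      · exact Or.inl ⟨⟨h1, h⟩, h3⟩
      · exact Or.inr ⟨flipAt i₀ y, ⟨⟨flipAt_odd i₀ h1, (dvd_flipAt h2 i₀ h1).mpr h⟩,
          (flipAt_sq i₀ y).trans h3⟩, flipAt_flipAt i₀ y⟩
    · rintro (⟨⟨h1, -⟩, h3⟩ | ⟨z, ⟨⟨h1, -⟩, h3⟩, rfl⟩)
      · exact ⟨h1, h3⟩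
      · exact ⟨flipAt_odd i₀ h1, (flipAt_sq i₀ z).trans h3⟩
  have hd : Disjoint (setH ι m) (flipAt i₀ '' setH ι m) := by
    rw [Set.disjoint_left]
    rintro y ⟨⟨-, h1⟩, -⟩ ⟨z, ⟨⟨h3, h4⟩, -⟩, rfl⟩
    exact (dvd_flipAt h2 i₀ h3).mp h1 h4
  have hinj : Function.Injective (flipAt i₀ : (ι → ℤ) → ι → ℤ) := fun y z h => by
    rw [← flipAt_flipAt i₀ y, h, flipAt_flipAt]
  rw [hU, Set.ncard_union_eq hd (hfin.subset (hU ▸ Set.subset_union_left))
    (hfin.subset (hU ▸ Set.subset_union_right)), Set.ncard_image_of_injective _ hinj]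
  ring

end

/-! ### coordinates in `Fin k × Fin 4` -/

theorem card_block (k m : ℕ) :
    {z : Fin k × Fin 4 → ℤ | ∑ i, z i ^ 2 = (m : ℤ)}.ncard =
      Nat.card {a : Fin k → Fin 4 → ℤ // ∑ j, nsq (a j) = m} := by
  rw [← Nat.card_coe_set_eq]
  refine Nat.card_congr ((Equiv.curry (Fin k) (Fin 4) ℤ).subtypeEquiv fun z => ?_)
  change ∑ i, z i ^ 2 = (m : ℤ) ↔ ∑ j, nsq (fun l => z (j, l)) = m
  rw [Fintype.sum_prod_type, ← Nat.cast_inj (R := ℤ), Nat.cast_sum]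
  have h : ∀ j, ((nsq fun l => z (j, l) : ℕ) : ℤ) = ∑ l, z (j, l) ^ 2 := fun j =>
    ((nsq_eq_iff _ _).mp rfl).symm
  simp only [h]

/-- odd vectors in blocks of four -/
def oddBlock (k m : ℕ) :
    {y : Fin k × Fin 4 → ℤ // (∀ i, Odd (y i)) ∧ ∑ i, y i ^ 2 = 4 * (m : ℤ)} ≃
      {a : Fin k → O4 // ∑ j, osq (a j) = m} where
  toFun y := ⟨fun j => ⟨fun l => y.1 (j, l), fun l => y.2.1 (j, l)⟩, by
    have h1 := y.2.2
    rw [Fintype.sum_prod_type] at h1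
    have h2 : ∀ j, ∑ l, y.1 (j, l) ^ 2 =
        4 * ((osq ⟨fun l => y.1 (j, l), fun l => y.2.1 (j, l)⟩ : ℕ) : ℤ) := fun j => by
      have h3 := (osq_eq_iff ⟨fun l => y.1 (j, l), fun l => y.2.1 (j, l)⟩ _).mp rfl
      rw [nsq_eq_iff] at h3
      rw [h3]
      push_cast
      rfl
    simp only [h2, ← Finset.mul_sum] at h1
    have h4 := mul_left_cancel₀ (by norm_num) h1
    exact_mod_cast h4⟩
  invFun a := ⟨fun i => (a.1 i.1).1 i.2, fun i => (a.1 i.1).2 i.2, by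
    have h1 := a.2
    rw [Fintype.sum_prod_type]
    have h2 : ∀ j, ∑ l, (a.1 j).1 l ^ 2 = 4 * ((osq (a.1 j) : ℕ) : ℤ) := fun j => by
      have h3 := (osq_eq_iff (a.1 j) _).mp rfl
      rw [nsq_eq_iff] at h3
      rw [h3]
      push_cast
      rfl
    simp only [h2, ← Finset.mul_sum]
    have h4 : ∑ j, ((osq (a.1 j) : ℕ) : ℤ) = (m : ℤ) := by exact_mod_cast h1
    rw [h4]⟩
  left_inv y := rfl
  right_inv a := rfl

/-- the theta series of `D⁺` -/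
def thetaD (ι : Type) [Fintype ι] : PowerSeries ℤ := PowerSeries.mk fun m => (nD ι m : ℤ)

theorem two_mul_thetaD (k : ℕ) [NeZero k] :
    2 * thetaD (Fin k × Fin 4) =
      gf nsq ^ k + PowerSeries.rescale (-1 : ℤ) (gf nsq) ^ k + gf osq ^ k := by
  have h2 : 2 ∣ Fintype.card (Fin k × Fin 4) := by
    rw [Fintype.card_prod, Fintype.card_fin, Fintype.card_fin]
    exact ⟨k * 2, by ring⟩
  let i₀ : Fin k × Fin 4 := (⟨0, Nat.pos_of_ne_zero (NeZero.ne k)⟩, 0)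
  have : Nonempty (Fin k × Fin 4) := ⟨i₀⟩
  rw [← map_pow, ← gf_pi finite_nsq k, ← gf_pi finite_osq k]
  ext m
  have hfinO : {y : Fin k × Fin 4 → ℤ |
      (∀ i, Odd (y i)) ∧ ∑ i, y i ^ 2 = 4 * (m : ℤ)}.Finite :=
    (finite_sq (4 * m)).subset fun z hz => by
      show ∑ i, z i ^ 2 = ((4 * m : ℕ) : ℤ)
      rw [hz.2]
      push_cast
      rfl
  have hN := nD_eq (ι := Fin k × Fin 4) m
  have hO := ncard_odd_half h2 i₀ m hfinO
  have hO2 : {y : Fin k × Fin 4 → ℤ | (∀ i, Odd (y i)) ∧ ∑ i, y i ^ 2 = 4 * (m : ℤ)}.ncard =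
      Nat.card {a : Fin k → O4 // ∑ j, osq (a j) = m} := by
    rw [← Nat.card_congr (oddBlock k m), ← Nat.card_coe_set_eq]
    rfl
  have hpar : ∀ z : Fin k × Fin 4 → ℤ, (2 : ℤ) ∣ ∑ i, z i ^ 2 - ∑ i, z i := by
    intro z
    rw [← Finset.sum_sub_distrib]
    refine Finset.dvd_sum fun i _ => ?_
    rcases Int.even_or_odd (z i) with h | h
    · exact (((Int.even_pow' (by norm_num)).mpr h).sub h).two_dvd
    · exact ((h.pow).sub_odd h).two_dvd
  have hZ : 2 * ((setZ (Fin k × Fin 4) m).ncard : ℤ) =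
      ({z : Fin k × Fin 4 → ℤ | ∑ i, z i ^ 2 = (m : ℤ)}.ncard : ℤ) +
        (-1) ^ m * ({z : Fin k × Fin 4 → ℤ | ∑ i, z i ^ 2 = (m : ℤ)}.ncard : ℤ) := by
    rcases Nat.even_or_odd m with he | ho
    · have h1 : setZ (Fin k × Fin 4) m = {z | ∑ i, z i ^ 2 = (m : ℤ)} := by
        ext z
        refine ⟨fun h => h.2, fun h => ⟨?_, h⟩⟩
        have h3 := hpar z
        rw [show ∑ i, z i ^ 2 = (m : ℤ) from h] at h3
        obtain ⟨c, rfl⟩ := he
        push_cast at h3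
        omega
      rw [h1, he.neg_one_pow]
      ring
    · have h1 : setZ (Fin k × Fin 4) m = ∅ := by
        rw [Set.eq_empty_iff_forall_notMem]
        rintro z ⟨h4, h⟩
        have h3 := hpar z
        rw [h] at h3
        obtain ⟨c, rfl⟩ := ho
        push_cast at h3
        omega
      rw [h1, ho.neg_one_pow, Set.ncard_empty]
      push_cast
      ring
  rw [card_block] at hZ
  rw [hO2] at hO
  have h5 : PowerSeries.coeff m (2 * thetaD (Fin k × Fin 4)) = 2 * (nD (Fin k × Fin 4) m : ℤ) := by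
    rw [show (2 : PowerSeries ℤ) = PowerSeries.C (2 : ℤ) by simp, PowerSeries.coeff_C_mul, thetaD,
      PowerSeries.coeff_mk]
  rw [h5, map_add, map_add, PowerSeries.coeff_rescale, coeff_gf, coeff_gf, hN, hO]
  push_cast
  linarith

end Fermat.Agent.Cor.Quat
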