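import Fermat.Agent.Corollaries.Quat.Sigma7
import Fermat.Agent.Corollaries.Tau.Ramanujan

/-!
# `P(t)² P(-t)² Qo(t)² = 256 Δ(t²)`

The identity `θ₂⁸ θ₃⁸ θ₄⁸ = 256 Δ` in `M₁₂(Γ₀(4))`.
-/

set_option autoImplicit false

noncomputable section

open UpperHalfPlane CongruenceSubgroup ModularFormClass Matrix.SpecialLinearGroup
open scoped MatrixGroups ModularForm

namespace Fermat.Agent.Cor.Quat

open Finset

/-- `f(dz)` as a modular form of level `M`, `d ∣ M`, for a form `f` of level one -/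
theorem exists_V {k : ℤ} {F : Type} [FunLike F ℍ ℂ] [ModularFormClass F 𝒮ℒ k] (f : F) (d M : ℕ)
    [NeZero M] (h : d ∣ M) :
    ∃ G : ModularForm (Gamma0 M) k, ∀ n, qCoeff G n = if d ∣ n then qCoeff f (n / d) else 0 := by
  have hd : d ≠ 0 := fun h0 => NeZero.ne M (Nat.eq_zero_of_zero_dvd (h0 ▸ h))
  have hd1 : d = d * 1 := (mul_one d).symm
  have hle : ∀ g ∈ Gamma0 M, g ∈ Gamma0 d := by
    intro g hg
    rw [Gamma0_mem, ZMod.intCast_zmod_eq_zero_iff_dvd] at hg ⊢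
    exact (Int.natCast_dvd_natCast.mpr h).trans hg
  let E1 : ModularForm (Gamma0 1) k :=
    { toFun := ⇑f
      slash_action_eq' := fun γ hγ =>
        SlashInvariantFormClass.slash_action_eq f γ (S16.Gamma0_le_SL 1 hγ)
      holo' := ModularFormClass.holo f
      bdd_at_cusps' := fun hc => ModularFormClass.bdd_at_cusps f (hc.mono (S16.Gamma0_le_SL 1)) }
  let G : ModularForm (Gamma0 M) k :=
    { toFun := (⇑E1 : ℍ → ℂ) ∣[k] ModularForm.heckeDiagMatrix d
      slash_action_eq' := fun γ hγ => by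
        obtain ⟨g, hg, rfl⟩ := hγ
        obtain ⟨g', hg', h⟩ := Oldforms.exists_diag_mul hd hd1 g (hle g hg)
        have hinv : (⇑E1 : ℍ → ℂ) ∣[k] (mapGL ℝ g') = ⇑E1 :=
          SlashInvariantFormClass.slash_action_eq E1 (mapGL ℝ g')
            (show mapGL ℝ g' ∈ (Gamma0 1 : Subgroup (GL (Fin 2) ℝ)) from
              Subgroup.mem_map_of_mem _ hg')
        have h' : ModularForm.heckeDiagMatrix d * (mapGL ℝ g) =
          mapGL ℝ g' * ModularForm.heckeDiagMatrix d := h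
        rw [← SlashAction.slash_mul]
        erw [h']
        rw [SlashAction.slash_mul, hinv]
      holo' := (ModularFormClass.holo E1).slash k _
      bdd_at_cusps' := fun {c} hc =>
        (ModularForm.translate E1 (ModularForm.heckeDiagMatrix d)).bdd_at_cusps'
          ((hc.mono (Subgroup.map_mono fun g hg => hle g hg)).mono
            (Oldforms.Gamma0_le_conj_diag hd hd1)) }
  refine ⟨((d : ℂ) ^ (k - 1))⁻¹ • G, fun n => ?_⟩
  have h1 : qCoeff ⇑(((d : ℂ) ^ (k - 1))⁻¹ • G) n = ((d : ℂ) ^ (k - 1))⁻¹ * qCoeff G n := by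
    unfold qCoeff
    have h2 := ModularForm.qExpansion_smul one_pos (one_mem_strictPeriods_Gamma0 M)
      (((d : ℂ) ^ (k - 1))⁻¹) G
    rw [show (⇑(((d : ℂ) ^ (k - 1))⁻¹ • G) : ℍ → ℂ) = ((d : ℂ) ^ (k - 1))⁻¹ • ⇑G from rfl, h2]
    rfl
  have h3 : qCoeff G n = if d ∣ n then (d : ℂ) ^ (k - 1) * qCoeff ⇑E1 (n / d) else 0 :=
    (X1.qGood_of_modularFormClass 1 (Gamma0 1) k E1).qCoeff_diag k hd n
  have h4 : qCoeff ⇑E1 (n / d) = qCoeff f (n / d) := rfl
  have hd' : (d : ℂ) ^ (k - 1) ≠ 0 := zpow_ne_zero _ (by exact_mod_cast hd)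
  rw [h1, h3, h4]
  split_ifs
  · rw [inv_mul_cancel_left₀ hd']
  · rw [mul_zero]

/-! ### the coefficients of `P` and `Qo` -/

/-- `r₄(n)` -/
def rr (n : ℕ) : ℤ := if n = 0 then 1 else 8 * ∑ d ∈ n.divisors with ¬ 4 ∣ d, (d : ℤ)

theorem coeff_nsq (n : ℕ) : PowerSeries.coeff n (gf nsq) = rr n := by
  rw [coeff_gf, card_nsq]
  rcases eq_or_ne n 0 with rfl | hn
  · have h : {(x, y, z, w) : ℤ × ℤ × ℤ × ℤ | x ^ 2 + y ^ 2 + z ^ 2 + w ^ 2 = ((0 : ℕ) : ℤ)} =
        {(0, 0, 0, 0)} := by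
      ext ⟨x, y, z, w⟩
      rw [Set.mem_singleton_iff, Prod.mk.injEq, Prod.mk.injEq, Prod.mk.injEq]
      constructor
      · intro h
        have h' : x ^ 2 + y ^ 2 + z ^ 2 + w ^ 2 = 0 := h
        have h1 := sq_nonneg x
        have h2 := sq_nonneg y
        have h3 := sq_nonneg z
        have h4 := sq_nonneg w
        exact ⟨pow_eq_zero_iff (two_ne_zero) |>.mp (by linarith),
          pow_eq_zero_iff (two_ne_zero) |>.mp (by linarith),
          pow_eq_zero_iff (two_ne_zero) |>.mp (by linarith),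
          pow_eq_zero_iff (two_ne_zero) |>.mp (by linarith)⟩
      · rintro ⟨rfl, rfl, rfl, rfl⟩
        show (0 : ℤ) ^ 2 + 0 ^ 2 + 0 ^ 2 + 0 ^ 2 = ((0 : ℕ) : ℤ)
        norm_num
    rw [h, Set.ncard_singleton, rr, if_pos rfl, Nat.cast_one]
  · rw [jacobi_four_squares hn, rr, if_neg hn]
    push_cast
    rfl

theorem coeff_osq (n : ℕ) : PowerSeries.coeff n (gf osq) = 16 * (oddσ n : ℤ) := by
  rw [coeff_gf, card_osq]
  rcases Nat.even_or_odd n with he | ho
  · have h0 : {(x, y, z, w) : ℤ × ℤ × ℤ × ℤ | (Odd x ∧ Odd y ∧ Odd z ∧ Odd w) ∧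
        x ^ 2 + y ^ 2 + z ^ 2 + w ^ 2 = 4 * n} = ∅ := by
      rw [Set.eq_empty_iff_forall_notMem]
      rintro ⟨x, y, z, w⟩ ⟨⟨h1, h2, h3, h4⟩, h⟩
      have e1 := odd_sq_mod_eight h1
      have e2 := odd_sq_mod_eight h2
      have e3 := odd_sq_mod_eight h3
      have e4 := odd_sq_mod_eight h4
      obtain ⟨m, rfl⟩ := he
      push_cast at h
      omega
    rw [h0, Set.ncard_empty, oddσ, if_neg (by rw [Nat.even_iff] at he; omega)]
    simp
  · rw [card_four_odd_squares ho, oddσ, if_pos (Nat.odd_iff.mp ho)]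
    push_cast
    rfl

/-- convolution -/
def cv (f g : ℕ → ℤ) (n : ℕ) : ℤ := ∑ ij ∈ HasAntidiagonal.antidiagonal n, f ij.1 * g ij.2

theorem mk_mul (f g : ℕ → ℤ) : PowerSeries.mk f * PowerSeries.mk g = PowerSeries.mk (cv f g) := by
  ext n
  rw [PowerSeries.coeff_mul, PowerSeries.coeff_mk]
  exact Finset.sum_congr rfl fun ij _ => by rw [PowerSeries.coeff_mk, PowerSeries.coeff_mk]

/-- `(-1)ⁿ r₄(n)` -/
def rr' (n : ℕ) : ℤ := (-1) ^ n * rr n

/-- the coefficients of `Qo` -/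
def oo (n : ℕ) : ℤ := 16 * (oddσ n : ℤ)

theorem gf_nsq_eq : gf nsq = PowerSeries.mk rr := by
  ext n
  rw [coeff_nsq, PowerSeries.coeff_mk]

theorem gf_osq_eq : gf osq = PowerSeries.mk oo := by
  ext n
  rw [coeff_osq, PowerSeries.coeff_mk, oo]

theorem rescale_eq : PowerSeries.rescale (-1 : ℤ) (gf nsq) = PowerSeries.mk rr' := by
  ext n
  rw [PowerSeries.coeff_rescale, coeff_nsq, PowerSeries.coeff_mk, rr']

theorem rr'_eq (n : ℕ) : rr' n = rr n - oo n := by
  have h := congrArg (PowerSeries.coeff n) jacobi_identity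
  rw [map_add, rescale_eq, gf_nsq_eq, gf_osq_eq, PowerSeries.coeff_mk, PowerSeries.coeff_mk,
    PowerSeries.coeff_mk] at h
  linarith

/-! ### the modular forms -/

theorem tau_two : Tau.tau 2 = -24 := by
  have h := Tau.tau_eq_sigma_five 2
  rw [show ArithmeticFunction.sigma 11 2 = 2049 by decide +kernel,
    show ArithmeticFunction.sigma 5 2 = 33 by decide +kernel,
    show Tau.conv 5 5 2 = 1 by decide +kernel] at h
  push_cast at h
  linarith

theorem tau_three : Tau.tau 3 = 252 := by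
  have h := Tau.tau_eq_sigma_five 3
  rw [show ArithmeticFunction.sigma 11 3 = 177148 by decide +kernel,
    show ArithmeticFunction.sigma 5 3 = 244 by decide +kernel,
    show Tau.conv 5 5 3 = 66 by decide +kernel] at h
  push_cast at h
  linarith

/-- the coefficients of `Δ(t²)` -/
def tau2 (n : ℕ) : ℤ := if 2 ∣ n then Tau.tau (n / 2) else 0

/-- the coefficients of `P² P(-t)² Qo²` -/
def prodc : ℕ → ℤ := cv (cv (cv rr rr) (cv rr' rr')) (cv oo oo)

theorem prodc_small : ∀ n ∈ Icc 0 6, prodc n =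
    256 * (if n = 2 then 1 else if n = 4 then -24 else if n = 6 then 252 else 0) := by
  decide +kernel

theorem tau2_small {n : ℕ} (hn : n ≤ 6) :
    tau2 n = if n = 2 then 1 else if n = 4 then -24 else if n = 6 then 252 else 0 := by
  interval_cases n
  · exact Tau.tau_zero
  · rfl
  · exact Tau.tau_one
  · rfl
  · exact tau_two
  · rfl
  · exact tau_three

theorem qCoeff_smul2 {M : ℕ} {k : ℤ} (c : ℂ) (F : ModularForm (Gamma0 M) k) (n : ℕ) :
    qCoeff ⇑(c • F) n = c * qCoeff F n := by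
  unfold qCoeff
  have h2 := ModularForm.qExpansion_smul one_pos (one_mem_strictPeriods_Gamma0 M) c F
  rw [show (⇑(c • F) : ℍ → ℂ) = c • ⇑F from rfl, h2]
  rfl

theorem qExp_eq {M : ℕ} {k : ℤ} {F : ModularForm (Gamma0 M) k} {f : ℕ → ℤ}
    (h : ∀ n, qCoeff F n = (f n : ℂ)) :
    qExpansion 1 F = PowerSeries.map (Int.castRingHom ℂ) (PowerSeries.mk f) := by
  ext n
  rw [PowerSeries.coeff_map, PowerSeries.coeff_mk]
  exact h n

/-- **`P(t)² P(-t)² Qo(t)² = 256 Δ(t²)`** -/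
theorem prodc_eq (n : ℕ) : prodc n = 256 * tau2 n := by
  obtain ⟨E, hE⟩ := exists_eis 4 4 (dvd_refl 4)
  obtain ⟨Fo, hFo⟩ := exists_form_oddσ
  obtain ⟨D, hD⟩ := exists_V CuspForm.discriminant 2 4 (by norm_num)
  set A : ModularForm (Gamma0 4) 2 := (1 / 3 : ℂ) • E with hAdef
  set C : ModularForm (Gamma0 4) 2 := (16 : ℂ) • Fo with hCdef
  set B : ModularForm (Gamma0 4) 2 := A - C with hBdef
  have hA : ∀ n, qCoeff A n = (rr n : ℂ) := by
    intro n
    rw [hAdef, qCoeff_smul2, hE, eisc, rr]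
    split_ifs
    · norm_num
    · push_cast
      ring
  have hC : ∀ n, qCoeff C n = (oo n : ℂ) := by
    intro n
    rw [hCdef, qCoeff_smul2, hFo, oo]
    push_cast
    ring
  have hB : ∀ n, qCoeff B n = (rr' n : ℂ) := by
    intro n
    rw [hBdef, qCoeff_sub, hA, hC, rr'_eq]
    push_cast
    rfl
  let G : ModularForm (Gamma0 4) 12 := ((A.mul A).mul (B.mul B)).mul (C.mul C)
  have hG : ∀ n, qCoeff G n = (prodc n : ℂ) := by
    intro n
    have h1 : qExpansion 1 ⇑G = qExpansion 1 ⇑A * qExpansion 1 ⇑A *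
        (qExpansion 1 ⇑B * qExpansion 1 ⇑B) * (qExpansion 1 ⇑C * qExpansion 1 ⇑C) := by
      have e1 := ModularForm.qExpansion_mul one_pos (one_mem_strictPeriods_Gamma0 4)
        ((A.mul A).mul (B.mul B)) (C.mul C)
      have e2 := ModularForm.qExpansion_mul one_pos (one_mem_strictPeriods_Gamma0 4)
        (A.mul A) (B.mul B)
      have e3 := ModularForm.qExpansion_mul one_pos (one_mem_strictPeriods_Gamma0 4) A A
      have e4 := ModularForm.qExpansion_mul one_pos (one_mem_strictPeriods_Gamma0 4) B B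
      have e5 := ModularForm.qExpansion_mul one_pos (one_mem_strictPeriods_Gamma0 4) C C
      have e6 : qExpansion 1 ⇑G = qExpansion 1 ⇑(((A.mul A).mul (B.mul B)).mul (C.mul C)) := rfl
      rw [e6, e1, e2, e3, e4, e5]
    unfold qCoeff
    rw [h1, qExp_eq hA, qExp_eq hB, qExp_eq hC, ← map_mul, ← map_mul, ← map_mul, ← map_mul,
      ← map_mul, mk_mul, mk_mul, mk_mul, mk_mul, mk_mul, PowerSeries.coeff_map,
      PowerSeries.coeff_mk]
    rfl
  have hD' : ∀ n, qCoeff D n = (tau2 n : ℂ) := by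
    intro n
    rw [hD, tau2]
    split_ifs
    · exact Tau.coeff_discriminant _
    · simp
  have hsub : ∀ n, qCoeff ⇑(G - (256 : ℂ) • D) n = ((prodc n - 256 * tau2 n : ℤ) : ℂ) := by
    intro n
    have h2 : qCoeff ⇑(G - (256 : ℂ) • D) n = qCoeff G n - qCoeff ⇑((256 : ℂ) • D) n := by
      unfold qCoeff
      have h := ModularForm.qExpansion_sub one_pos (one_mem_strictPeriods_Gamma0 4) G
        ((256 : ℂ) • D)
      rw [show (⇑(G - (256 : ℂ) • D) : ℍ → ℂ) = ⇑G - ⇑((256 : ℂ) • D) from rfl, h, map_sub]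
    rw [h2, qCoeff_smul2, hG, hD']
    push_cast
    rfl
  have key : G - (256 : ℂ) • D = 0 := by
    refine ModularForm.sturm_bound_Gamma0 4 _ fun n hn => ?_
    rw [P1Count.index_Gamma0, show ModularCurve.dedekindPsi 4 = 6 by decide +kernel] at hn
    have hn6 : n ≤ 6 := by
      have h1 : ((12 : ℤ) * ((6 : ℕ) : ℤ)).toNat / 12 = 6 := by decide
      omega
    have h3 : qCoeff ⇑(G - (256 : ℂ) • D) n = 0 := by
      rw [hsub, prodc_small n (mem_Icc.mpr ⟨Nat.zero_le _, hn6⟩), tau2_small hn6, sub_self,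
        Int.cast_zero]
    exact h3
  have h4 := hsub n
  rw [key] at h4
  have h5 : qCoeff (⇑(0 : ModularForm (Gamma0 4) 12) : ℍ → ℂ) n = 0 := by
    unfold qCoeff
    have h6 : (qExpansion 1 (⇑(0 : ModularForm (Gamma0 4) 12) : ℍ → ℂ)) = 0 := by
      rw [ModularForm.qExpansion_eq_zero_iff one_pos (one_mem_strictPeriods_Gamma0 4)]
    rw [h6, map_zero]
  rw [h5] at h4
  have h6 : prodc n - 256 * tau2 n = 0 := by exact_mod_cast h4.symm
  linarith

/-- **`(P(t) P(-t) Qo(t))² = 256 Δ(t²)`** (`θ₂⁸ θ₃⁸ θ₄⁸ = 256 Δ`) -/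
theorem theta_product :
    (gf nsq * PowerSeries.rescale (-1 : ℤ) (gf nsq) * gf osq) ^ 2 =
      256 * PowerSeries.mk tau2 := by
  have h : (gf nsq * PowerSeries.rescale (-1 : ℤ) (gf nsq) * gf osq) ^ 2 =
      (gf nsq * gf nsq) * (PowerSeries.rescale (-1 : ℤ) (gf nsq) *
        PowerSeries.rescale (-1 : ℤ) (gf nsq)) * (gf osq * gf osq) := by ring
  rw [h, rescale_eq, gf_nsq_eq, gf_osq_eq, mk_mul, mk_mul, mk_mul, mk_mul, mk_mul]
  ext n
  rw [PowerSeries.coeff_mk, show (256 : PowerSeries ℤ) = PowerSeries.C (256 : ℤ) by simp,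
    PowerSeries.coeff_C_mul, PowerSeries.coeff_mk]
  exact prodc_eq n

end Fermat.Agent.Cor.Quat
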