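import Fermat.Agent.Corollaries.Quat.OctTri

/-!
# The `E₈` lattice

The lattice `E₈` is the set of the `x ∈ ℤ⁸ ∪ (ℤ + 1/2)⁸` with `∑ xᵢ` even.  For `n ≥ 1` it has
exactly `240 σ₃(n)` vectors with `∑ xᵢ² = 2n`; in particular `240` vectors of norm `2`.
-/

set_option autoImplicit false

noncomputable section

namespace Fermat.Agent.Cor.Quat

open Finset

/-- the lattice `E₈` -/
def E8 : AddSubgroup (Fin 8 → ℚ) where
  carrier := {x | ((∀ i, ∃ k : ℤ, x i = k) ∨ (∀ i, ∃ k : ℤ, x i = k + 1 / 2)) ∧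
    ∃ k : ℤ, ∑ i, x i = 2 * k}
  zero_mem' := ⟨Or.inl fun _ => ⟨0, by simp⟩, 0, by simp⟩
  add_mem' := by
    rintro x y ⟨hx, k, hk⟩ ⟨hy, l, hl⟩
    refine ⟨?_, k + l, by simp only [Pi.add_apply, Finset.sum_add_distrib, hk, hl]; push_cast; ring⟩
    rcases hx with hx | hx <;> rcases hy with hy | hy
    · refine Or.inl fun i => ?_
      obtain ⟨a, ha⟩ := hx i
      obtain ⟨b, hb⟩ := hy i
      exact ⟨a + b, by simp only [Pi.add_apply, ha, hb]; push_cast; ring⟩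
    · refine Or.inr fun i => ?_
      obtain ⟨a, ha⟩ := hx i
      obtain ⟨b, hb⟩ := hy i
      exact ⟨a + b, by simp only [Pi.add_apply, ha, hb]; push_cast; ring⟩
    · refine Or.inr fun i => ?_
      obtain ⟨a, ha⟩ := hx i
      obtain ⟨b, hb⟩ := hy i
      exact ⟨a + b, by simp only [Pi.add_apply, ha, hb]; push_cast; ring⟩
    · refine Or.inl fun i => ?_
      obtain ⟨a, ha⟩ := hx i
      obtain ⟨b, hb⟩ := hy i
      exact ⟨a + b + 1, by simp only [Pi.add_apply, ha, hb]; push_cast; ring⟩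
  neg_mem' := by
    rintro x ⟨hx, k, hk⟩
    refine ⟨?_, -k, by simp only [Pi.neg_apply, Finset.sum_neg_distrib, hk]; push_cast; ring⟩
    rcases hx with hx | hx
    · refine Or.inl fun i => ?_
      obtain ⟨a, ha⟩ := hx i
      exact ⟨-a, by simp only [Pi.neg_apply, ha]; push_cast; ring⟩
    · refine Or.inr fun i => ?_
      obtain ⟨a, ha⟩ := hx i
      exact ⟨-a - 1, by simp only [Pi.neg_apply, ha]; push_cast; ring⟩

/-! ### the vectors with odd coordinates -/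

/-- eight odd integers = eight signs and eight natural numbers -/
def oddEight (n : ℕ) :
    {y : Fin 8 → ℤ // (∀ i, Odd (y i)) ∧ ∑ i, y i ^ 2 = 8 * ((n : ℤ) + 1)} ≃
      (Fin 8 → Bool) × {a : Fin 8 → ℕ // ∑ i, a i * (a i + 1) / 2 = n} where
  toFun y := (fun i => decide (0 < y.1 i), ⟨fun i => ((y.1 i).natAbs - 1) / 2, by
    obtain ⟨y, hy, h⟩ := y
    dsimp only
    have key : ∀ a : ℕ, (2 * (a : ℤ) + 1) ^ 2 = 8 * ((a * (a + 1) / 2 : ℕ) : ℤ) + 1 := by
      intro a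
      have h1 : ((a * (a + 1) / 2 : ℕ) : ℤ) * 2 = a * (a + 1) := by
        exact_mod_cast Nat.div_mul_cancel (Nat.even_mul_succ_self a).two_dvd
      nlinarith
    have h2 : ∀ i, y i ^ 2 = 8 * (((((y i).natAbs - 1) / 2) * (((y i).natAbs - 1) / 2 + 1) / 2 : ℕ) :
        ℤ) + 1 := by
      intro i
      rw [← key, ← sg_sq (decide (0 < y i)), sg_eq (hy i)]
    rw [Finset.sum_congr rfl fun i _ => h2 i, Finset.sum_add_distrib, ← Finset.mul_sum,
      ← Nat.cast_sum] at h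
    simp only [Finset.sum_const, Finset.card_univ, Fintype.card_fin, nsmul_eq_mul] at h
    push_cast at h
    zify
    linarith⟩)
  invFun p := ⟨fun i => sg (p.1 i) (p.2.1 i), fun i => odd_sg _ _, by
    obtain ⟨s, a, h⟩ := p
    dsimp only
    have key : ∀ a : ℕ, (2 * (a : ℤ) + 1) ^ 2 = 8 * ((a * (a + 1) / 2 : ℕ) : ℤ) + 1 := by
      intro a
      have h1 : ((a * (a + 1) / 2 : ℕ) : ℤ) * 2 = a * (a + 1) := by
        exact_mod_cast Nat.div_mul_cancel (Nat.even_mul_succ_self a).two_dvd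
      nlinarith
    rw [Finset.sum_congr rfl fun i _ => (sg_sq (s i) (a i)).trans (key (a i)),
      Finset.sum_add_distrib, ← Finset.mul_sum, ← Nat.cast_sum, h]
    simp only [Finset.sum_const, Finset.card_univ, Fintype.card_fin, nsmul_eq_mul]
    push_cast
    ring⟩
  left_inv y := by
    obtain ⟨y, hy, h⟩ := y
    apply Subtype.ext
    funext i
    exact sg_eq (hy i)
  right_inv p := by
    obtain ⟨s, a, h⟩ := p
    simp only [decide_sg, natAbs_sg]

theorem card_odd_eight (n : ℕ) :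
    {y : Fin 8 → ℤ | (∀ i, Odd (y i)) ∧ ∑ i, y i ^ 2 = 8 * ((n : ℤ) + 1)}.ncard =
      256 * ∑ d ∈ (n + 1).divisors with Odd ((n + 1) / d), d ^ 3 := by
  have h := Nat.card_congr (oddEight n)
  rw [Nat.card_prod] at h
  have h1 : Nat.card (Fin 8 → Bool) = 256 := by simp [Nat.card_eq_fintype_card]
  have h2 : Nat.card {a : Fin 8 → ℕ // ∑ i, a i * (a i + 1) / 2 = n} =
      ∑ d ∈ (n + 1).divisors with Odd ((n + 1) / d), d ^ 3 := by
    rw [← card_eight_triangular n, ← Nat.card_coe_set_eq]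
    rfl
  rw [h1, h2] at h
  rw [← h, ← Nat.card_coe_set_eq]
  rfl

/-- change of the sign of the first coordinate -/
def flip (y : Fin 8 → ℤ) : Fin 8 → ℤ := Function.update y 0 (-y 0)

theorem flip_flip (y : Fin 8 → ℤ) : flip (flip y) = y := by
  unfold flip
  rw [Function.update_idem, Function.update_self, neg_neg, Function.update_eq_self]

theorem flip_sq (y : Fin 8 → ℤ) : ∑ i, flip y i ^ 2 = ∑ i, y i ^ 2 := by
  refine Finset.sum_congr rfl fun i _ => ?_
  unfold flip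
  by_cases h : i = 0
  · subst h
    rw [Function.update_self, neg_sq]
  · rw [Function.update_of_ne h]

theorem flip_odd {y : Fin 8 → ℤ} (hy : ∀ i, Odd (y i)) (i : Fin 8) : Odd (flip y i) := by
  unfold flip
  by_cases h : i = 0
  · subst h
    rw [Function.update_self]
    exact (hy 0).neg
  · rw [Function.update_of_ne h]
    exact hy i

theorem flip_sum (y : Fin 8 → ℤ) : ∑ i, flip y i = ∑ i, y i - 2 * y 0 := by
  rw [Fin.sum_univ_eight, Fin.sum_univ_eight]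
  unfold flip
  simp
  ring

theorem dvd_flip {y : Fin 8 → ℤ} (hy : ∀ i, Odd (y i)) :
    4 ∣ ∑ i, flip y i ↔ ¬ 4 ∣ ∑ i, y i := by
  rw [flip_sum]
  have h1 : ∀ i, y i % 2 = 1 := fun i => Int.odd_iff.mp (hy i)
  have h2 : (∑ i, y i) % 2 = 0 := by
    rw [Fin.sum_univ_eight]
    have := h1 0
    have := h1 1
    have := h1 2
    have := h1 3
    have := h1 4
    have := h1 5
    have := h1 6
    have := h1 7
    omega
  have h3 := h1 0
  omega

theorem card_odd_half {N : ℤ}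
    (hfin : {y : Fin 8 → ℤ | (∀ i, Odd (y i)) ∧ ∑ i, y i ^ 2 = N}.Finite) :
    {y : Fin 8 → ℤ | (∀ i, Odd (y i)) ∧ ∑ i, y i ^ 2 = N}.ncard =
      2 * {y : Fin 8 → ℤ | ((∀ i, Odd (y i)) ∧ 4 ∣ ∑ i, y i) ∧ ∑ i, y i ^ 2 = N}.ncard := by
  set S := {y : Fin 8 → ℤ | (∀ i, Odd (y i)) ∧ ∑ i, y i ^ 2 = N} with hS
  set A := {y : Fin 8 → ℤ | ((∀ i, Odd (y i)) ∧ 4 ∣ ∑ i, y i) ∧ ∑ i, y i ^ 2 = N} with hA
  have hU : S = A ∪ flip '' A := by
    ext y
    constructor
    · rintro ⟨h1, h2⟩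
      by_cases h : 4 ∣ ∑ i, y i
      · exact Or.inl ⟨⟨h1, h⟩, h2⟩
      · exact Or.inr ⟨flip y, ⟨⟨flip_odd h1, (dvd_flip h1).mpr h⟩, (flip_sq y).trans h2⟩,
          flip_flip y⟩
    · rintro (⟨⟨h1, -⟩, h2⟩ | ⟨z, ⟨⟨h1, -⟩, h2⟩, rfl⟩)
      · exact ⟨h1, h2⟩
      · exact ⟨flip_odd h1, (flip_sq z).trans h2⟩
  have hd : Disjoint A (flip '' A) := by
    rw [Set.disjoint_left]
    rintro y ⟨⟨-, h1⟩, -⟩ ⟨z, ⟨⟨h2, h3⟩, -⟩, rfl⟩
    exact (dvd_flip h2).mp h1 h3
  have hinj : Function.Injective flip := fun y z h => by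
    rw [← flip_flip y, h, flip_flip]
  rw [hU, Set.ncard_union_eq hd (hfin.subset (hU ▸ Set.subset_union_left))
    (hfin.subset (hU ▸ Set.subset_union_right)), Set.ncard_image_of_injective _ hinj]
  ring

/-! ### the number of vectors -/

theorem s3_cube (d : ℕ) {n : ℕ} (hn : n ≠ 0) :
    (d : ℤ) ^ 3 * s3 d n = ∑ f ∈ n.divisors with d ∣ f, (f : ℤ) ^ 3 := by
  unfold s3
  split_ifs with hd
  · exact sum_cube d n hn hd
  · symm
    rw [mul_zero]
    refine Finset.sum_eq_zero fun f hf => ?_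
    rw [mem_filter, Nat.mem_divisors] at hf
    exact absurd (hf.2.trans hf.1.1) hd

/-- the number of representations of `2n` as a sum of eight squares -/
theorem eight_squares_two_mul {n : ℕ} (hn : n ≠ 0) :
    ({x : Fin 8 → ℤ | ∑ i, x i ^ 2 = ((2 * n : ℕ) : ℤ)}.ncard : ℤ) =
      112 * s3 1 n + 128 * s3 2 n := by
  have h2n : 2 * n ≠ 0 := by omega
  rw [card_eight_squares h2n]
  have h1 : ∀ e : ℕ, (if 4 ∣ e then 16 else if 2 ∣ e then 12 else 16 : ℤ) * (e : ℤ) ^ 3 =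
      16 * (if ¬ 2 ∣ e then (e : ℤ) ^ 3 else 0) + 12 * (if 2 ∣ e then (e : ℤ) ^ 3 else 0) +
        4 * (if 4 ∣ e then (e : ℤ) ^ 3 else 0) := by
    intro e
    by_cases h2 : 2 ∣ e
    · by_cases h4 : 4 ∣ e
      · simp only [h2, h4, if_true, not_true, if_false]
        ring
      · simp only [h2, h4, if_true, not_true, if_false]
        ring
    · have h4 : ¬ 4 ∣ e := by omega
      simp only [h2, h4, if_true, not_false_eq_true, if_false]
      ring
  have h3 : ∑ e ∈ (2 * n).divisors with ¬ 2 ∣ e, (e : ℤ) ^ 3 =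
      ∑ e ∈ n.divisors with ¬ 2 ∣ e, (e : ℤ) ^ 3 := by
    refine Finset.sum_congr ?_ fun _ _ => rfl
    ext e
    rw [mem_filter, mem_filter, Nat.mem_divisors, Nat.mem_divisors]
    constructor
    · rintro ⟨⟨h, -⟩, ho⟩
      exact ⟨⟨(((Nat.Prime.coprime_iff_not_dvd Nat.prime_two).mpr ho).symm).dvd_of_dvd_mul_left h,
        hn⟩, ho⟩
    · rintro ⟨⟨h, -⟩, ho⟩
      exact ⟨⟨h.mul_left 2, h2n⟩, ho⟩
  have h4 := s3_cube 2 hn
  have h5 : s3 1 n = ∑ e ∈ n.divisors, (e : ℤ) ^ 3 := by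
    rw [s3, if_pos (one_dvd n), Nat.div_one]
  have h6 := Finset.sum_filter_add_sum_filter_not n.divisors (fun e => 2 ∣ e)
    (fun e => (e : ℤ) ^ 3)
  have h7 := s3_cube 2 h2n
  have h8 := s3_cube 4 h2n
  rw [show s3 2 (2 * n) = s3 1 n from s3_two_mul 1 n] at h7
  rw [show s3 4 (2 * n) = s3 2 n from s3_two_mul 2 n] at h8
  rw [Finset.sum_congr rfl fun e _ => h1 e, Finset.sum_add_distrib, Finset.sum_add_distrib,
    ← Finset.mul_sum, ← Finset.mul_sum, ← Finset.mul_sum, ← Finset.sum_filter,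
    ← Finset.sum_filter, ← Finset.sum_filter, h3, ← h7, ← h8]
  rw [← h5, ← h4] at h6
  push_cast at h6 ⊢
  linarith

/-- the vectors of `E₈`, multiplied by two -/
theorem card_E8_int {n : ℕ} (hn : n ≠ 0) :
    {y : Fin 8 → ℤ | (((∀ i, Even (y i)) ∨ (∀ i, Odd (y i))) ∧ 4 ∣ ∑ i, y i) ∧
      ∑ i, y i ^ 2 = 8 * (n : ℤ)}.ncard = 240 * ∑ d ∈ n.divisors, d ^ 3 := by
  obtain ⟨m, rfl⟩ : ∃ m, n = m + 1 := ⟨n - 1, by omega⟩
  set S := {y : Fin 8 → ℤ | (((∀ i, Even (y i)) ∨ (∀ i, Odd (y i))) ∧ 4 ∣ ∑ i, y i) ∧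
      ∑ i, y i ^ 2 = 8 * ((m + 1 : ℕ) : ℤ)} with hS
  set O := {y : Fin 8 → ℤ | ((∀ i, Odd (y i)) ∧ 4 ∣ ∑ i, y i) ∧
    ∑ i, y i ^ 2 = 8 * ((m : ℤ) + 1)} with hO
  set T := {z : Fin 8 → ℤ | ∑ i, z i ^ 2 = ((2 * (m + 1) : ℕ) : ℤ)} with hT
  let f : (Fin 8 → ℤ) → (Fin 8 → ℤ) := fun z i => 2 * z i
  have hf : Function.Injective f := fun y z h => by
    funext i
    have := congrFun h i
    simp only [f] at this
    omega
  have hsum : ∀ z : Fin 8 → ℤ, (∑ i, z i ^ 2 - ∑ i, z i) % 2 = 0 := by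
    intro z
    have h1 : ∀ i, (2 : ℤ) ∣ z i ^ 2 - z i := fun i => by
      rcases Int.even_or_odd (z i) with h | h
      · exact (((Int.even_pow' (by norm_num)).mpr h).sub h).two_dvd
      · exact ((h.pow).sub_odd h).two_dvd
    rw [← Finset.sum_sub_distrib]
    exact Int.emod_eq_zero_of_dvd (Finset.dvd_sum fun i _ => h1 i)
  have hU : S = O ∪ f '' T := by
    ext y
    constructor
    · rintro ⟨⟨h1 | h1, h2⟩, h3⟩
      · choose z hz using fun i => (h1 i).two_dvd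
        refine Or.inr ⟨z, ?_, funext fun i => (hz i).symm⟩
        simp only [hz, mul_pow, ← Finset.mul_sum] at h3
        show ∑ i, z i ^ 2 = ((2 * (m + 1) : ℕ) : ℤ)
        push_cast at h3 ⊢
        linarith
      · refine Or.inl ⟨⟨h1, h2⟩, ?_⟩
        rw [h3]
        push_cast
        rfl
    · rintro (⟨⟨h1, h2⟩, h3⟩ | ⟨z, h1, rfl⟩)
      · refine ⟨⟨Or.inr h1, h2⟩, ?_⟩
        rw [h3]
        push_cast
        rfl
      · have h1' : ∑ i, z i ^ 2 = ((2 * (m + 1) : ℕ) : ℤ) := h1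
        refine ⟨⟨Or.inl fun i => even_two_mul (z i), ?_⟩, ?_⟩
        · have h2 := hsum z
          rw [h1'] at h2
          push_cast at h2
          simp only [f, ← Finset.mul_sum]
          omega
        · simp only [f, mul_pow, ← Finset.mul_sum]
          rw [h1']
          push_cast
          ring
  have hd : Disjoint O (f '' T) := by
    rw [Set.disjoint_left]
    rintro y ⟨⟨h1, -⟩, -⟩ ⟨z, -, rfl⟩
    exact Int.not_even_iff_odd.mpr (h1 0) (even_two_mul (z 0))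
  have hpos : 0 < ∑ d ∈ (m + 1).divisors with Odd ((m + 1) / d), d ^ 3 := by
    refine Finset.sum_pos (fun d hd => pow_pos (Nat.pos_of_mem_divisors (mem_filter.mp hd).1) 3)
      ⟨m + 1, ?_⟩
    rw [mem_filter, Nat.mem_divisors, Nat.div_self (by omega)]
    exact ⟨⟨dvd_refl _, by omega⟩, odd_one⟩
  have hcard := card_odd_eight m
  have hfin : {y : Fin 8 → ℤ | (∀ i, Odd (y i)) ∧ ∑ i, y i ^ 2 = 8 * ((m : ℤ) + 1)}.Finite :=
    Set.finite_of_ncard_ne_zero (by rw [hcard]; omega)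
  have hhalf := card_odd_half hfin
  rw [hcard] at hhalf
  change _ = 2 * O.ncard at hhalf
  have hOfin : O.Finite := hfin.subset fun y hy => ⟨hy.1.1, hy.2⟩
  have hTcard := eight_squares_two_mul (n := m + 1) (by omega)
  have h1 : s3 1 (m + 1) = ((∑ d ∈ (m + 1).divisors, d ^ 3 : ℕ) : ℤ) := by
    rw [s3, if_pos (one_dvd _), Nat.div_one]
    push_cast
    rfl
  have h2 := s3_sub (m := m + 1) (by omega)
  have h3 : 0 ≤ s3 2 (m + 1) := by
    unfold s3
    split_ifs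
    · positivity
    · exact le_refl 0
  have h4 : 0 < ∑ d ∈ (m + 1).divisors, d ^ 3 :=
    Finset.sum_pos (fun d hd => pow_pos (Nat.pos_of_mem_divisors hd) 3)
      ⟨1, Nat.one_mem_divisors.mpr (by omega)⟩
  have hTfin : T.Finite := Set.finite_of_ncard_ne_zero (by
    intro h0
    have h5 : (T.ncard : ℤ) = 112 * s3 1 (m + 1) + 128 * s3 2 (m + 1) := hTcard
    rw [h0] at h5
    have h6 : (0 : ℤ) < s3 1 (m + 1) := by rw [h1]; exact_mod_cast h4
    push_cast at h5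
    linarith)
  rw [hU, Set.ncard_union_eq hd hOfin (hTfin.image f), Set.ncard_image_of_injective _ hf]
  have h5 : (T.ncard : ℤ) = 112 * s3 1 (m + 1) + 128 * s3 2 (m + 1) := hTcard
  have h6 : (O.ncard : ℤ) = 128 * (s3 1 (m + 1) - s3 2 (m + 1)) := by
    rw [h2]
    have h7 : O.ncard = 128 * ∑ d ∈ (m + 1).divisors with Odd ((m + 1) / d), d ^ 3 := by omega
    rw [h7]
    push_cast
    ring
  have h7 : ((O.ncard + T.ncard : ℕ) : ℤ) = ((240 * ∑ d ∈ (m + 1).divisors, d ^ 3 : ℕ) : ℤ) := by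
    rw [Nat.cast_add, h5, h6, Nat.cast_mul, ← h1]
    push_cast
    ring
  exact_mod_cast h7

/-- **the theta series of `E₈`**: for `n ≥ 1` the lattice `E₈` has exactly `240 σ₃(n)` vectors `x`
with `∑ xᵢ² = 2n` -/
theorem card_E8 {n : ℕ} (hn : n ≠ 0) :
    {x : Fin 8 → ℚ | x ∈ E8 ∧ ∑ i, x i ^ 2 = 2 * n}.ncard = 240 * ∑ d ∈ n.divisors, d ^ 3 := by
  let f : (Fin 8 → ℤ) → (Fin 8 → ℚ) := fun y i => (y i : ℚ) / 2
  have hf : Function.Injective f := fun y z h => by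
    funext i
    have h1 : (y i : ℚ) / 2 = (z i : ℚ) / 2 := congrFun h i
    have h2 : (y i : ℚ) = z i := by linarith
    exact_mod_cast h2
  rw [← card_E8_int hn, ← Set.ncard_image_of_injective _ hf]
  congr 1
  ext x
  constructor
  · rintro ⟨⟨h1, k, hk⟩, h2⟩
    obtain ⟨y, hy, hpar⟩ : ∃ y : Fin 8 → ℤ, (∀ i, x i = (y i : ℚ) / 2) ∧
        ((∀ i, Even (y i)) ∨ (∀ i, Odd (y i))) := by
      rcases h1 with h1 | h1
      · choose z hz using h1
        exact ⟨fun i => 2 * z i, fun i => by rw [hz]; push_cast; ring,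
          Or.inl fun i => even_two_mul (z i)⟩
      · choose z hz using h1
        exact ⟨fun i => 2 * z i + 1, fun i => by rw [hz]; push_cast; ring,
          Or.inr fun i => ⟨z i, rfl⟩⟩
    refine ⟨y, ⟨⟨hpar, ⟨k, ?_⟩⟩, ?_⟩, funext fun i => (hy i).symm⟩
    · simp only [hy, ← Finset.sum_div] at hk
      have h3 : (∑ i, (y i : ℚ)) = ((4 * k : ℤ) : ℚ) := by push_cast; linarith
      exact_mod_cast h3
    · simp only [hy, div_pow, ← Finset.sum_div] at h2
      have h3 : (∑ i, (y i : ℚ) ^ 2) = ((8 * (n : ℤ) : ℤ) : ℚ) := by push_cast; linarith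
      exact_mod_cast h3
  · rintro ⟨y, ⟨⟨hpar, ⟨k, hk⟩⟩, h2⟩, rfl⟩
    refine ⟨⟨?_, k, ?_⟩, ?_⟩
    · rcases hpar with h | h
      · refine Or.inl fun i => ?_
        obtain ⟨a, ha⟩ := (h i).two_dvd
        exact ⟨a, by simp only [f, ha]; push_cast; ring⟩
      · refine Or.inr fun i => ?_
        obtain ⟨a, ha⟩ := h i
        exact ⟨a, by simp only [f, ha]; push_cast; ring⟩
    · simp only [f, ← Finset.sum_div]
      have h3 : (∑ i, (y i : ℚ)) = ((4 * k : ℤ) : ℚ) := by exact_mod_cast hk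
      rw [h3]
      push_cast
      ring
    · simp only [f, div_pow, ← Finset.sum_div]
      have h3 : (∑ i, (y i : ℚ) ^ 2) = ((8 * (n : ℤ) : ℤ) : ℚ) := by exact_mod_cast h2
      rw [h3]
      push_cast
      ring

/-- the lattice `E₈` has `240` vectors of norm `2` (the roots) -/
theorem card_E8_roots : {x : Fin 8 → ℚ | x ∈ E8 ∧ ∑ i, x i ^ 2 = 2}.ncard = 240 := by
  have h := card_E8 one_ne_zero
  simpa using h

end Fermat.Agent.Cor.Quat
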