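import Fermat.Agent.Corollaries.Quat.E8
import Mathlib.LinearAlgebra.Matrix.Cartan

/-!
# `E₈` is even and unimodular; the form of the Cartan matrix

* `E8_even`: `∑ xᵢ²` is an even integer for `x ∈ E₈`;
* `E8_selfdual`: `E₈` is its own dual lattice;
* `card_cartan_E8`: for `n ≥ 1` there are exactly `240 σ₃(n)` vectors `v ∈ ℤ⁸` with
  `vᵀ C v = 2n`, `C` = the Cartan matrix `E₈` of Mathlib (the positive definite even unimodular
  form in eight variables).
-/

set_option autoImplicit false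

noncomputable section

namespace Fermat.Agent.Cor.Quat

open Finset

theorem odd_sq_mod_eight {y : ℤ} (hy : Odd y) : y ^ 2 % 8 = 1 := by
  obtain ⟨k, rfl⟩ := hy
  obtain ⟨m, hm⟩ := Int.even_mul_succ_self k
  have : (2 * k + 1) ^ 2 = 8 * m + 1 := by linear_combination 4 * hm
  rw [this]
  omega

/-- `E₈` is an even lattice -/
theorem E8_even {x : Fin 8 → ℚ} (hx : x ∈ E8) : ∃ m : ℕ, ∑ i, x i ^ 2 = 2 * m := by
  suffices h : ∃ m : ℤ, ∑ i, x i ^ 2 = 2 * m by
    obtain ⟨m, hm⟩ := h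
    have h0 : 0 ≤ ∑ i, x i ^ 2 := Finset.sum_nonneg fun i _ => sq_nonneg _
    have h1 : 0 ≤ m := by
      rw [hm] at h0
      have : (0 : ℚ) ≤ m := by linarith
      exact_mod_cast this
    refine ⟨m.toNat, ?_⟩
    rw [hm]
    have : ((m.toNat : ℕ) : ℤ) = m := Int.toNat_of_nonneg h1
    rw [← Int.cast_natCast, this]
  obtain ⟨h1 | h1, k, hk⟩ := hx
  · choose z hz using h1
    have h2 : ∀ i, (2 : ℤ) ∣ z i ^ 2 - z i := fun i => by
      rcases Int.even_or_odd (z i) with h | h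
      · exact (((Int.even_pow' (by norm_num)).mpr h).sub h).two_dvd
      · exact ((h.pow).sub_odd h).two_dvd
    obtain ⟨c, hc⟩ : (2 : ℤ) ∣ ∑ i, (z i ^ 2 - z i) := Finset.dvd_sum fun i _ => h2 i
    rw [Finset.sum_sub_distrib] at hc
    refine ⟨c + k, ?_⟩
    simp only [hz] at hk ⊢
    have h3 : (∑ i, (z i : ℚ) ^ 2) - ∑ i, (z i : ℚ) = 2 * c := by exact_mod_cast hc
    push_cast
    linarith
  · choose z hz using h1
    have h2 : ∀ i, (8 : ℤ) ∣ (2 * z i + 1) ^ 2 - 1 := fun i => by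
      have := odd_sq_mod_eight (y := 2 * z i + 1) ⟨z i, rfl⟩
      omega
    obtain ⟨c, hc⟩ : (8 : ℤ) ∣ ∑ i, ((2 * z i + 1) ^ 2 - 1) := Finset.dvd_sum fun i _ => h2 i
    refine ⟨c + 1, ?_⟩
    have h3 : ∑ i : Fin 8, ((2 * (z i : ℚ) + 1) ^ 2 - 1 : ℚ) = 8 * (c : ℚ) := by
      exact_mod_cast hc
    have h4 : ∀ i, x i ^ 2 = ((2 * (z i : ℚ) + 1) ^ 2 - 1) / 4 + 1 / 4 := fun i => by
      rw [hz]
      ring
    rw [Finset.sum_congr rfl fun i _ => h4 i, Finset.sum_add_distrib, ← Finset.sum_div, h3]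
    simp only [Finset.sum_const, Finset.card_univ, Fintype.card_fin, nsmul_eq_mul]
    push_cast
    ring

/-- `E₈` is unimodular: it is its own dual lattice -/
theorem E8_selfdual (x : Fin 8 → ℚ) :
    x ∈ E8 ↔ ∀ y ∈ E8, ∃ k : ℤ, ∑ i, x i * y i = k := by
  constructor
  · intro hx y hy
    obtain ⟨a, ha⟩ := E8_even hx
    obtain ⟨b, hb⟩ := E8_even hy
    obtain ⟨c, hc⟩ := E8_even (E8.add_mem hx hy)
    refine ⟨(c : ℤ) - a - b, ?_⟩
    have h1 : ∑ i, (x + y) i ^ 2 = ∑ i, x i ^ 2 + ∑ i, y i ^ 2 + 2 * ∑ i, x i * y i := by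
      rw [Finset.mul_sum, ← Finset.sum_add_distrib, ← Finset.sum_add_distrib]
      exact Finset.sum_congr rfl fun i _ => by rw [Pi.add_apply]; ring
    rw [ha, hb, hc] at h1
    push_cast
    linarith
  · intro h
    have hs : ∀ (s : ℚ) (i j : Fin 8), i ≠ j → (s = 1 ∨ s = -1) →
        (Pi.single i 1 + Pi.single j s : Fin 8 → ℚ) ∈ E8 := by
      intro s i j hij hs
      have hsum : ∑ l, (Pi.single i (1 : ℚ) + Pi.single j s : Fin 8 → ℚ) l = 1 + s := by
        simp only [Pi.add_apply, Finset.sum_add_distrib, Finset.sum_pi_single', Finset.mem_univ,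
          if_true]
      refine ⟨Or.inl fun l => ?_, ?_⟩
      · have h1 : ∃ a : ℤ, (Pi.single i (1 : ℚ) : Fin 8 → ℚ) l = a := by
          by_cases hl : l = i
          · subst hl
            exact ⟨1, by simp⟩
          · exact ⟨0, by rw [Pi.single_eq_of_ne hl]; simp⟩
        have h2 : ∃ a : ℤ, (Pi.single j s : Fin 8 → ℚ) l = a := by
          by_cases hl : l = j
          · subst hl
            rcases hs with rfl | rfl
            · exact ⟨1, by simp⟩
            · exact ⟨-1, by simp⟩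
          · exact ⟨0, by rw [Pi.single_eq_of_ne hl]; simp⟩
        obtain ⟨a, ha⟩ := h1
        obtain ⟨b, hb⟩ := h2
        exact ⟨a + b, by rw [Pi.add_apply, ha, hb]; push_cast; rfl⟩
      · rw [hsum]
        rcases hs with rfl | rfl
        · exact ⟨1, by norm_num⟩
        · exact ⟨0, by norm_num⟩
    have hdot : ∀ (s : ℚ) (i j : Fin 8),
        ∑ l, x l * (Pi.single i (1 : ℚ) + Pi.single j s : Fin 8 → ℚ) l = x i + x j * s := by
      intro s i j
      simp [mul_add, Finset.sum_add_distrib, Pi.single_apply]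
    have hp : ∀ j : Fin 8, 0 ≠ j → ∃ k : ℤ, x 0 + x j = k := fun j hj => by
      obtain ⟨k, hk⟩ := h _ (hs 1 0 j hj (Or.inl rfl))
      rw [hdot, mul_one] at hk
      exact ⟨k, hk⟩
    have hm : ∀ j : Fin 8, 0 ≠ j → ∃ k : ℤ, x 0 - x j = k := fun j hj => by
      obtain ⟨k, hk⟩ := h _ (hs (-1) 0 j hj (Or.inr rfl))
      rw [hdot, mul_neg_one, ← sub_eq_add_neg] at hk
      exact ⟨k, hk⟩
    have hm' : ∀ j : Fin 8, ∃ k : ℤ, x 0 - x j = k := fun j => by
      by_cases hj : (0 : Fin 8) = j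
      · subst hj
        exact ⟨0, by simp⟩
      · exact hm j hj
    obtain ⟨a, ha⟩ := hp 1 (by decide)
    obtain ⟨b, hb⟩ := hm 1 (by decide)
    choose k hk using hm'
    refine ⟨?_, ?_⟩
    · rcases Int.even_or_odd' (a + b) with ⟨c, hc | hc⟩
      · refine Or.inl fun i => ⟨c - k i, ?_⟩
        have h1 : (a : ℚ) + b = 2 * c := by exact_mod_cast hc
        have h2 := hk i
        push_cast
        linarith
      · refine Or.inr fun i => ⟨c - k i, ?_⟩
        have h1 : (a : ℚ) + b = 2 * c + 1 := by exact_mod_cast hc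
        have h2 := hk i
        push_cast
        linarith
    · obtain ⟨c, hc⟩ := h (fun _ => 1 / 2) ⟨Or.inr fun _ => ⟨0, by norm_num⟩, 2, by
        simp only [Finset.sum_const, Finset.card_univ, Fintype.card_fin, nsmul_eq_mul]
        norm_num⟩
      refine ⟨c, ?_⟩
      rw [← Finset.sum_mul] at hc
      linarith

/-! ### the Cartan matrix -/

/-- `2 ∑ vᵢ αᵢ` for the simple roots `αᵢ` of `E₈` (Bourbaki) -/
def root2 (v : Fin 8 → ℤ) : Fin 8 → ℤ :=
  ![v 0 + 2 * v 1 - 2 * v 2, -v 0 + 2 * v 1 + 2 * v 2 - 2 * v 3, -v 0 + 2 * v 3 - 2 * v 4,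
    -v 0 + 2 * v 4 - 2 * v 5, -v 0 + 2 * v 5 - 2 * v 6, -v 0 + 2 * v 6 - 2 * v 7,
    -v 0 + 2 * v 7, v 0]

theorem root2_sq (v : Fin 8 → ℤ) :
    ∑ i, root2 v i ^ 2 = 4 * (v ⬝ᵥ (CartanMatrix.E₈.mulVec v)) := by
  simp only [Matrix.mulVec, dotProduct, Fin.sum_univ_eight, CartanMatrix.E₈, root2]
  simp
  ring

theorem root2_injective : Function.Injective root2 := by
  intro v w h
  have h0 := congrFun h 0
  have h1 := congrFun h 1
  have h2 := congrFun h 2
  have h3 := congrFun h 3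
  have h4 := congrFun h 4
  have h5 := congrFun h 5
  have h6 := congrFun h 6
  have h7 := congrFun h 7
  simp only [root2, Matrix.cons_val] at h0 h1 h2 h3 h4 h5 h6 h7
  have e7 : v 7 = w 7 := by linarith
  have e6 : v 6 = w 6 := by linarith
  have e5 : v 5 = w 5 := by linarith
  have e4 : v 4 = w 4 := by linarith
  have e3 : v 3 = w 3 := by linarith
  have e2 : v 2 = w 2 := by linarith
  have e1 : v 1 = w 1 := by linarith
  funext i
  fin_cases i
  exacts [h7, e1, e2, e3, e4, e5, e6, e7]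

/-- the image of `root2` is `2 E₈` -/
theorem mem_range_root2 (y : Fin 8 → ℤ) :
    y ∈ Set.range root2 ↔ ((∀ i, Even (y i)) ∨ (∀ i, Odd (y i))) ∧ 4 ∣ ∑ i, y i := by
  constructor
  · rintro ⟨v, rfl⟩
    refine ⟨?_, ?_⟩
    · rcases Int.even_or_odd (v 0) with h | h
      · refine Or.inl fun i => ?_
        rw [Int.even_iff] at h ⊢
        fin_cases i <;> simp only [root2, Fin.zero_eta, Fin.mk_one, Fin.reduceFinMk,
          Matrix.cons_val] <;> omega
      · refine Or.inr fun i => ?_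
        rw [Int.odd_iff] at h ⊢
        fin_cases i <;> simp only [root2, Fin.zero_eta, Fin.mk_one, Fin.reduceFinMk,
          Matrix.cons_val] <;> omega
    · rw [Fin.sum_univ_eight]
      simp only [root2, Matrix.cons_val]
      omega
  · rintro ⟨hpar, h4⟩
    rw [Fin.sum_univ_eight] at h4
    have hp : ∀ i, (y i - y 0) % 2 = 0 := by
      intro i
      rcases hpar with h | h
      · have := Int.even_iff.mp (h i)
        have := Int.even_iff.mp (h 0)
        omega
      · have := Int.odd_iff.mp (h i)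
        have := Int.odd_iff.mp (h 0)
        omega
    have p1 := hp 1
    have p2 := hp 2
    have p3 := hp 3
    have p4 := hp 4
    have p5 := hp 5
    have p6 := hp 6
    have p7 := hp 7
    refine ⟨![y 7, (y 0 + y 1 + y 2 + y 3 + y 4 + y 5 + y 6 + 5 * y 7) / 4,
      (-y 0 + y 1 + y 2 + y 3 + y 4 + y 5 + y 6 + 7 * y 7) / 4,
      (y 2 + y 3 + y 4 + y 5 + y 6 + 5 * y 7) / 2, (y 3 + y 4 + y 5 + y 6 + 4 * y 7) / 2,
      (y 4 + y 5 + y 6 + 3 * y 7) / 2, (y 5 + y 6 + 2 * y 7) / 2, (y 6 + y 7) / 2], ?_⟩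
    funext i
    fin_cases i <;> simp only [root2, Fin.zero_eta, Fin.mk_one, Fin.reduceFinMk,
      Matrix.cons_val] <;> omega

/-- **the form of the Cartan matrix `E₈`**: for `n ≥ 1` it takes the value `2n` exactly
`240 σ₃(n)` times on `ℤ⁸` -/
theorem card_cartan_E8 {n : ℕ} (hn : n ≠ 0) :
    {v : Fin 8 → ℤ | v ⬝ᵥ (CartanMatrix.E₈.mulVec v) = 2 * n}.ncard =
      240 * ∑ d ∈ n.divisors, d ^ 3 := by
  rw [← card_E8_int hn, ← Set.ncard_image_of_injective _ root2_injective]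
  congr 1
  ext y
  constructor
  · rintro ⟨v, hv, rfl⟩
    refine ⟨(mem_range_root2 _).mp ⟨v, rfl⟩, ?_⟩
    have hv' : v ⬝ᵥ (CartanMatrix.E₈.mulVec v) = 2 * n := hv
    rw [root2_sq, hv']
    ring
  · rintro ⟨h1, h2⟩
    obtain ⟨v, rfl⟩ := (mem_range_root2 y).mpr h1
    refine ⟨v, ?_, rfl⟩
    rw [root2_sq] at h2
    show v ⬝ᵥ (CartanMatrix.E₈.mulVec v) = 2 * n
    linarith

end Fermat.Agent.Cor.Quat
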