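import Fermat.Agent.Corollaries.Quat.Weight4

/-!
# Jacobi's eight-square theorem

For `n ≥ 1` the number of `x ∈ ℤ⁸` with `∑ xᵢ² = n` is `16 ∑_{d ∣ n} (-1)^(n + d) d³`.  The same
method gives the number of representations by `∑_{i ≤ 4} (xᵢ² + xᵢ yᵢ + yᵢ²)`.
-/

set_option autoImplicit false

noncomputable section

namespace Fermat.Agent.Cor.Quat

open Fermat.Agent.LTF.Theta Finset

theorem card_add {A B : Type} {f : A → ℤ} {g : B → ℤ} (hf : ∀ a, 0 ≤ f a) (hg : ∀ b, 0 ≤ g b)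
    (hfin : ∀ n : ℕ, Finite {a // f a = n}) (hgin : ∀ n : ℕ, Finite {b // g b = n}) (n : ℕ) :
    Nat.card {p : A × B // f p.1 + g p.2 = n} =
      ∑ ij ∈ antidiagonal n,
        Nat.card {a // f a = ((ij.1 : ℕ) : ℤ)} * Nat.card {b // g b = ((ij.2 : ℕ) : ℤ)} := by
  classical
  let β : antidiagonal n → Type := fun ij => {a // f a = ((ij.1.1 : ℕ) : ℤ)} ×
    {b // g b = ((ij.1.2 : ℕ) : ℤ)}
  have h1 : ∀ a, (((f a).toNat : ℕ) : ℤ) = f a := fun a => Int.toNat_of_nonneg (hf a)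
  have h2 : ∀ b, (((g b).toNat : ℕ) : ℤ) = g b := fun b => Int.toNat_of_nonneg (hg b)
  let e : {p : A × B // f p.1 + g p.2 = n} ≃ Σ ij : antidiagonal n, β ij :=
    { toFun := fun p => ⟨⟨((f p.1.1).toNat, (g p.1.2).toNat), by
          rw [HasAntidiagonal.mem_antidiagonal]
          have h3 := p.2
          have h4 := h1 p.1.1
          have h5 := h2 p.1.2
          dsimp only
          omega⟩, ⟨p.1.1, (h1 _).symm⟩, ⟨p.1.2, (h2 _).symm⟩⟩
      invFun := fun w => ⟨(w.2.1.1, w.2.2.1), by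
          have h3 := w.2.1.2
          have h4 := w.2.2.2
          have h5 := HasAntidiagonal.mem_antidiagonal.mp w.1.2
          dsimp only
          rw [h3, h4]
          exact_mod_cast h5⟩
      left_inv := fun p => rfl
      right_inv := by
        rintro ⟨⟨⟨i, j⟩, hij⟩, ⟨a, ha⟩, ⟨b, hb⟩⟩
        have h3 : (f a).toNat = i := by rw [ha]; simp
        have h4 : (g b).toNat = j := by rw [hb]; simp
        subst h3 h4
        rfl }
  rw [Nat.card_congr e]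
  have hfi : ∀ ij : antidiagonal n, Finite (β ij) := fun ij => by
    have := hfin ij.1.1
    have := hgin ij.1.2
    exact inferInstanceAs (Finite (_ × _))
  rw [Nat.card_sigma, ← Finset.sum_coe_sort (antidiagonal n)]
  exact Finset.sum_congr rfl fun ij _ => Nat.card_prod _ _

theorem finite_pair {Q R : BQ} {c : ℕ} (hQ : Q.Pos) (hR : R.Pos) (hc : 0 < c) (n : ℕ) :
    Finite {v : (ℤ × ℤ) × (ℤ × ℤ) // Q.ev v.1 + c * R.ev v.2 = (n : ℤ)} := by
  have h := finite_solutions (fun x y z w => Q.ev (x, y) + c * R.ev (z, w)) Q R c hQ hR hc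
    (fun _ _ _ _ => rfl) n
  have := h.to_subtype
  refine Finite.of_injective
    (β := ↥{(x, y, z, w) : ℤ × ℤ × ℤ × ℤ | Q.ev (x, y) + c * R.ev (z, w) = (n : ℤ)})
    (fun v => ⟨(v.1.1.1, v.1.1.2, v.1.2.1, v.1.2.2), v.2⟩) ?_
  rintro ⟨⟨⟨x, y⟩, ⟨z, w⟩⟩, h1⟩ ⟨⟨⟨x', y'⟩, ⟨z', w'⟩⟩, h2⟩ h3
  simp only [Subtype.mk.injEq, Prod.mk.injEq] at h3 ⊢
  tauto

/-- the number of representations by the sum of two copies of `Q(x, y) + c R(z, w)` -/
theorem card_double (Q R : BQ) (c M B b : ℕ) (hQ : Q.Pos) (hR : R.Pos)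
    (hdisc : Q.disc = R.disc) (hc : 0 < c) (hM : (M : ℤ) = -Q.disc * c)
    (hB : 4 * ModularCurve.dedekindPsi M / 12 ≤ B) (hbQ : BoxOK Q b B) (hbR : BoxOK R b B)
    (ι : Finset ℕ) (δ : ℕ → ℤ) (hι : ∀ d ∈ ι, d ∣ M)
    (h0 : ∑ d ∈ ι, δ d * (d : ℤ) ^ 3 = 240) (h00 : cfc Q R c b 0 = 1)
    (h : ∀ n ∈ Icc 1 B, ((∑ ij ∈ antidiagonal n, cfc Q R c b ij.1 * cfc Q R c b ij.2 : ℕ) : ℤ) =
      ∑ e ∈ n.divisors, wt4 ι δ e * (e : ℤ) ^ 3) {n : ℕ} (hn : n ≠ 0) :
    (Nat.card {p : ((ℤ × ℤ) × (ℤ × ℤ)) × ((ℤ × ℤ) × (ℤ × ℤ)) //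
      (Q.ev p.1.1 + c * R.ev p.1.2) + (Q.ev p.2.1 + c * R.ev p.2.2) = (n : ℤ)} : ℤ) =
      ∑ e ∈ n.divisors, wt4 ι δ e * (e : ℤ) ^ 3 := by
  have : NeZero M := ⟨by
    rintro rfl
    have h1 := hQ.neg
    have h2 : (0 : ℤ) < c := by exact_mod_cast hc
    simp only [Nat.cast_zero] at hM
    nlinarith⟩
  obtain ⟨F, -, hF⟩ := exists_modularForm_prod hQ hR hdisc hc hM
  have h1 := fun v : (ℤ × ℤ) × (ℤ × ℤ) =>
    add_nonneg (ev_nonneg hQ v.1) (mul_nonneg (Int.natCast_nonneg c) (ev_nonneg hR v.2))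
  rw [card_add (f := fun v : (ℤ × ℤ) × (ℤ × ℤ) => Q.ev v.1 + c * R.ev v.2)
    (g := fun v : (ℤ × ℤ) × (ℤ × ℤ) => Q.ev v.1 + c * R.ev v.2) h1 h1
    (finite_pair hQ hR hc) (finite_pair hQ hR hc)]
  simp only [card_eq_cf hQ hR hc]
  refine mul_eq_sum hF hF ι hι δ hB ?_ (fun m hm => ?_) hn
  · rw [cf_eq_cfc hQ hR hbQ hbR (Nat.zero_le _), h00, h0]
    rfl
  · rw [← h m hm, Nat.cast_inj]
    refine Finset.sum_congr rfl fun ij hij => ?_
    rw [HasAntidiagonal.mem_antidiagonal] at hij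
    rw [mem_Icc] at hm
    rw [cf_eq_cfc hQ hR hbQ hbR (by omega), cf_eq_cfc hQ hR hbQ hbR (by omega)]

/-- eight coordinates -/
def eightEquiv : (Fin 8 → ℤ) ≃ ((ℤ × ℤ) × (ℤ × ℤ)) × ((ℤ × ℤ) × (ℤ × ℤ)) where
  toFun x := (((x 0, x 1), (x 2, x 3)), ((x 4, x 5), (x 6, x 7)))
  invFun p := ![p.1.1.1, p.1.1.2, p.1.2.1, p.1.2.2, p.2.1.1, p.2.1.2, p.2.2.1, p.2.2.2]
  left_inv x := by
    funext i
    fin_cases i <;> rfl
  right_inv p := rfl

theorem eightEquiv_apply (x : Fin 8 → ℤ) :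
    eightEquiv x = (((x 0, x 1), (x 2, x 3)), ((x 4, x 5), (x 6, x 7))) := rfl

/-- the number of representations of `n ≥ 1` as a sum of eight squares: the divisors `e` of `n`
count `12 e³` if `2 ∥ e`, `16 e³` otherwise -/
theorem card_eight_squares {n : ℕ} (hn : n ≠ 0) :
    ({x : Fin 8 → ℤ | ∑ i, x i ^ 2 = n}.ncard : ℤ) =
      ∑ e ∈ n.divisors, (if 4 ∣ e then 16 else if 2 ∣ e then 12 else 16 : ℤ) * (e : ℤ) ^ 3 := by
  have h := card_double ⟨1, 0, 1⟩ ⟨1, 0, 1⟩ 1 4 2 2 (pos_mk 1 0 1 (by norm_num) (by norm_num))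
    (pos_mk 1 0 1 (by norm_num) (by norm_num)) rfl one_pos (by norm_num [BQ.disc])
    (by decide +kernel) ⟨by norm_num [BQ.disc], by norm_num [BQ.disc]⟩
    ⟨by norm_num [BQ.disc], by norm_num [BQ.disc]⟩ {1, 2, 4}
    (fun d => if d = 1 then 16 else if d = 2 then -4 else 4) (by decide) (by decide)
    (by decide +kernel) (by decide +kernel) hn
  have hw : ∀ e, wt4 {1, 2, 4} (fun d => if d = 1 then 16 else if d = 2 then -4 else 4) e =
      if 4 ∣ e then 16 else if 2 ∣ e then 12 else 16 := by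
    intro e
    simp [wt4, Finset.sum_filter, Finset.sum_insert]
    split_ifs <;> omega
  simp only [hw] at h
  rw [← h, ← Nat.card_coe_set_eq]
  refine congrArg _ (Nat.card_congr (eightEquiv.subtypeEquiv fun x => ?_))
  change ∑ i, x i ^ 2 = (n : ℤ) ↔ _
  rw [Fin.sum_univ_eight]
  simp only [eightEquiv_apply, BQ.ev, Int.cast_id]
  push_cast
  constructor
  · intro h1
    linarith
  · intro h1
    linarith

/-- **Jacobi's eight-square theorem**: for `n ≥ 1` the number of `x ∈ ℤ⁸` with `∑ xᵢ² = n` is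
`16 ∑_{d ∣ n} (-1)^(n + d) d³` -/
theorem jacobi_eight_squares {n : ℕ} (hn : n ≠ 0) :
    ({x : Fin 8 → ℤ | ∑ i, x i ^ 2 = n}.ncard : ℤ) =
      16 * ∑ d ∈ n.divisors, (-1) ^ (n + d) * (d : ℤ) ^ 3 := by
  rw [card_eight_squares hn]
  rcases Nat.even_or_odd n with he | ho
  · have hpar : ∀ d : ℕ, ((-1 : ℤ) ^ (n + d)) = if 2 ∣ d then 1 else -1 := by
      intro d
      split_ifs with h
      · exact Even.neg_one_pow (he.add (even_iff_two_dvd.mpr h))
      · refine Odd.neg_one_pow (he.add_odd ?_)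
        rwa [← Nat.not_even_iff_odd, even_iff_two_dvd]
    -- both sides are expressed by the sums over the odd divisors `A`, over `2 ∥ d`, over `4 ∣ d`
    have key : ∑ d ∈ n.divisors with (2 ∣ d ∧ ¬ 4 ∣ d), (d : ℤ) ^ 3 =
        8 * ∑ d ∈ n.divisors with ¬ 2 ∣ d, (d : ℤ) ^ 3 := by
      rw [Finset.mul_sum]
      refine (Finset.sum_bij' (fun d _ => 2 * d) (fun d _ => d / 2) ?_ ?_ ?_ ?_ ?_).symm
      · intro d hd
        rw [mem_filter, Nat.mem_divisors] at hd ⊢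
        obtain ⟨⟨hd, -⟩, ho⟩ := hd
        refine ⟨⟨Nat.Coprime.mul_dvd_of_dvd_of_dvd ?_ (even_iff_two_dvd.mp he) hd, hn⟩,
          dvd_mul_right 2 d, by omega⟩
        exact (Nat.Prime.coprime_iff_not_dvd Nat.prime_two).mpr ho
      · intro d hd
        rw [mem_filter, Nat.mem_divisors] at hd ⊢
        obtain ⟨⟨hd, -⟩, ⟨m, rfl⟩, h4⟩ := hd
        rw [Nat.mul_div_cancel_left m (by norm_num)]
        exact ⟨⟨(Nat.dvd_mul_left m 2).trans hd, hn⟩, by omega⟩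
      · intro d _
        exact Nat.mul_div_cancel_left d (by norm_num)
      · intro d hd
        rw [mem_filter] at hd
        exact Nat.mul_div_cancel' hd.2.1
      · intro d _
        push_cast
        ring
    have h1 : ∀ d : ℕ, (if 4 ∣ d then 16 else if 2 ∣ d then 12 else 16 : ℤ) * (d : ℤ) ^ 3 =
        16 * ((-1) ^ (n + d) * (d : ℤ) ^ 3) + (32 * (if ¬ 2 ∣ d then (d : ℤ) ^ 3 else 0) -
          4 * (if (2 ∣ d ∧ ¬ 4 ∣ d) then (d : ℤ) ^ 3 else 0)) := by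
      intro d
      rw [hpar]
      by_cases h2 : 2 ∣ d
      · by_cases h4 : 4 ∣ d
        · simp [h2, h4]
        · simp only [h2, h4, if_true, if_false, not_true, not_false_eq_true, and_self]
          ring
      · have h4 : ¬ 4 ∣ d := by omega
        simp only [h2, h4, if_true, if_false, not_false_eq_true, false_and]
        ring
    simp only [Finset.sum_filter] at key
    rw [Finset.sum_congr rfl fun d _ => h1 d, Finset.sum_add_distrib, Finset.sum_sub_distrib,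
      ← Finset.mul_sum, ← Finset.mul_sum, ← Finset.mul_sum, key]
    ring
  · rw [Finset.mul_sum]
    refine Finset.sum_congr rfl fun d hd => ?_
    have h2 : ¬ 2 ∣ d := fun h => Nat.not_even_iff_odd.mpr ho
      (even_iff_two_dvd.mpr (h.trans (Nat.dvd_of_mem_divisors hd)))
    have h4 : ¬ 4 ∣ d := by omega
    have hod : Odd d := by rwa [← Nat.not_even_iff_odd, even_iff_two_dvd]
    rw [if_neg h4, if_neg h2, (ho.add_odd hod).neg_one_pow]
    ring

/-- a prime number `p ≠ 2` has `16 (p³ + 1)` representations as a sum of eight squares -/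
theorem eight_squares_prime {p : ℕ} (hp : p.Prime) (h2 : p ≠ 2) :
    {x : Fin 8 → ℤ | ∑ i, x i ^ 2 = p}.ncard = 16 * (p ^ 3 + 1) := by
  have h := jacobi_eight_squares hp.ne_zero
  have ho := hp.odd_of_ne_two h2
  rw [hp.divisors, Finset.sum_insert (by rw [mem_singleton]; exact hp.one_lt.ne),
    Finset.sum_singleton, (ho.add_odd odd_one).neg_one_pow, (ho.add_odd ho).neg_one_pow] at h
  have h3 : (({x : Fin 8 → ℤ | ∑ i, x i ^ 2 = p}.ncard : ℕ) : ℤ) = ((16 * (p ^ 3 + 1) : ℕ) : ℤ) := by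
    rw [h]
    push_cast
    ring
  exact_mod_cast h3

/-- pairs of four coordinates -/
def fourEquiv : ((Fin 4 → ℤ) × (Fin 4 → ℤ)) ≃ ((ℤ × ℤ) × (ℤ × ℤ)) × ((ℤ × ℤ) × (ℤ × ℤ)) where
  toFun v := (((v.1 0, v.2 0), (v.1 1, v.2 1)), ((v.1 2, v.2 2), (v.1 3, v.2 3)))
  invFun p := (![p.1.1.1, p.1.2.1, p.2.1.1, p.2.2.1], ![p.1.1.2, p.1.2.2, p.2.1.2, p.2.2.2])
  left_inv v := by
    obtain ⟨x, y⟩ := v
    refine Prod.ext ?_ ?_
    · funext i
      fin_cases i <;> rfl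
    · funext i
      fin_cases i <;> rfl
  right_inv p := rfl

theorem fourEquiv_apply (x y : Fin 4 → ℤ) :
    fourEquiv (x, y) = (((x 0, y 0), (x 1, y 1)), ((x 2, y 2), (x 3, y 3))) := rfl

/-- for `n ≥ 1` the number of `(x, y) ∈ ℤ⁴ × ℤ⁴` with `∑ (xᵢ² + xᵢ yᵢ + yᵢ²) = n` is the sum over
the divisors `e` of `n` of `32 e³` if `3 ∣ e`, `24 e³` if `3 ∤ e` -/
theorem card_four_hex {n : ℕ} (hn : n ≠ 0) :
    ({(x, y) : (Fin 4 → ℤ) × (Fin 4 → ℤ) | ∑ i, (x i ^ 2 + x i * y i + y i ^ 2) = n}.ncard : ℤ) =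
      ∑ e ∈ n.divisors, (if 3 ∣ e then 32 else 24 : ℤ) * (e : ℤ) ^ 3 := by
  have h := card_double ⟨1, 1, 1⟩ ⟨1, 1, 1⟩ 1 3 1 1 (pos_mk 1 1 1 (by norm_num) (by norm_num))
    (pos_mk 1 1 1 (by norm_num) (by norm_num)) rfl one_pos (by norm_num [BQ.disc])
    (by decide +kernel) ⟨by norm_num [BQ.disc], by norm_num [BQ.disc]⟩
    ⟨by norm_num [BQ.disc], by norm_num [BQ.disc]⟩ {1, 3}
    (fun d => if d = 1 then 24 else 8) (by decide) (by decide)
    (by decide +kernel) (by decide +kernel) hn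
  have hw : ∀ e, wt4 {1, 3} (fun d => if d = 1 then 24 else 8) e =
      if 3 ∣ e then 32 else 24 := by
    intro e
    simp [wt4, Finset.sum_filter, Finset.sum_insert]
    split_ifs <;> omega
  simp only [hw] at h
  rw [← h, ← Nat.card_coe_set_eq]
  refine congrArg _ (Nat.card_congr (fourEquiv.subtypeEquiv fun v => ?_))
  obtain ⟨x, y⟩ := v
  change ∑ i, (x i ^ 2 + x i * y i + y i ^ 2) = (n : ℤ) ↔ _
  rw [Fin.sum_univ_four]
  simp only [fourEquiv_apply, BQ.ev, Int.cast_id]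
  push_cast
  constructor
  · intro h1
    linarith
  · intro h1
    linarith

end Fermat.Agent.Cor.Quat
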