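import Fermat.Agent.Corollaries.Quat.Basic
import Fermat.Agent.Oldforms.Vq
import Fermat.Agent.X1.HeckeCoeff
import Mathlib.NumberTheory.ModularForms.EisensteinSeries.QExpansion

/-!
# The Eisenstein series `E₄(dz)` of level `M`
-/

set_option autoImplicit false

noncomputable section

open UpperHalfPlane CongruenceSubgroup ModularFormClass Matrix.SpecialLinearGroup
open scoped MatrixGroups ModularForm

namespace Fermat.Agent.Cor.Quat

/-- coefficients of `E₄` -/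
def e4c (n : ℕ) : ℕ := if n = 0 then 1 else 240 * ∑ e ∈ n.divisors, e ^ 3

theorem qCoeff_E4 (n : ℕ) : qCoeff ⇑ModularForm.E₄ n = (e4c n : ℂ) := by
  rw [qCoeff, EisensteinSeries.E_qExpansion_coeff (by norm_num) ⟨2, rfl⟩, e4c]
  rcases eq_or_ne n 0 with rfl | hn
  · simp
  · rw [if_neg hn, if_neg hn, ArithmeticFunction.sigma_apply,
      show bernoulli 4 = -1 / 30 by decide +kernel]
    push_cast
    norm_num

/-- `E₄(dz)` as a modular form of level `M`, `d ∣ M` -/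
theorem exists_E4 (d M : ℕ) [NeZero M] (h : d ∣ M) :
    ∃ F : ModularForm (Gamma0 M) 4, ∀ n, qCoeff F n = if d ∣ n then (e4c (n / d) : ℂ) else 0 := by
  have hd : d ≠ 0 := fun h0 => NeZero.ne M (Nat.eq_zero_of_zero_dvd (h0 ▸ h))
  have hd1 : d = d * 1 := (mul_one d).symm
  have hle : ∀ g ∈ Gamma0 M, g ∈ Gamma0 d := by
    intro g hg
    rw [Gamma0_mem, ZMod.intCast_zmod_eq_zero_iff_dvd] at hg ⊢
    exact (Int.natCast_dvd_natCast.mpr h).trans hg
  let E1 : ModularForm (Gamma0 1) 4 :=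
    { toFun := ⇑ModularForm.E₄
      slash_action_eq' := fun γ hγ =>
        SlashInvariantFormClass.slash_action_eq ModularForm.E₄ γ (S16.Gamma0_le_SL 1 hγ)
      holo' := ModularFormClass.holo ModularForm.E₄
      bdd_at_cusps' := fun hc => ModularFormClass.bdd_at_cusps ModularForm.E₄
        (hc.mono (S16.Gamma0_le_SL 1)) }
  let F : ModularForm (Gamma0 M) 4 :=
    { toFun := (⇑E1 : ℍ → ℂ) ∣[(4 : ℤ)] ModularForm.heckeDiagMatrix d
      slash_action_eq' := fun γ hγ => by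
        obtain ⟨g, hg, rfl⟩ := hγ
        obtain ⟨g', hg', h⟩ := Oldforms.exists_diag_mul hd hd1 g (hle g hg)
        have hinv : (⇑E1 : ℍ → ℂ) ∣[(4 : ℤ)] (mapGL ℝ g') = ⇑E1 :=
          SlashInvariantFormClass.slash_action_eq E1 (mapGL ℝ g')
            (show mapGL ℝ g' ∈ (Gamma0 1 : Subgroup (GL (Fin 2) ℝ)) from
              Subgroup.mem_map_of_mem _ hg')
        have h' : ModularForm.heckeDiagMatrix d * (mapGL ℝ g) =
          mapGL ℝ g' * ModularForm.heckeDiagMatrix d := h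
        rw [← SlashAction.slash_mul]
        erw [h']
        rw [SlashAction.slash_mul, hinv]
      holo' := (ModularFormClass.holo E1).slash 4 _
      bdd_at_cusps' := fun {c} hc =>
        (ModularForm.translate E1 (ModularForm.heckeDiagMatrix d)).bdd_at_cusps'
          ((hc.mono (Subgroup.map_mono fun g hg => hle g hg)).mono
            (Oldforms.Gamma0_le_conj_diag hd hd1)) }
  refine ⟨((d : ℂ) ^ 3)⁻¹ • F, fun n => ?_⟩
  have h1 : qCoeff ⇑(((d : ℂ) ^ 3)⁻¹ • F) n = ((d : ℂ) ^ 3)⁻¹ * qCoeff F n := by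
    unfold qCoeff
    have h2 := ModularForm.qExpansion_smul one_pos (one_mem_strictPeriods_Gamma0 M)
      (((d : ℂ) ^ 3)⁻¹) F
    rw [show (⇑(((d : ℂ) ^ 3)⁻¹ • F) : ℍ → ℂ) = ((d : ℂ) ^ 3)⁻¹ • ⇑F from rfl, h2]
    rfl
  have h3 : qCoeff F n = if d ∣ n then (d : ℂ) ^ ((4 : ℤ) - 1) * qCoeff ⇑E1 (n / d) else 0 :=
    (X1.qGood_of_modularFormClass 1 (Gamma0 1) 4 E1).qCoeff_diag 4 hd n
  have h4 : qCoeff ⇑E1 (n / d) = (e4c (n / d) : ℂ) := qCoeff_E4 (n / d)
  have hd' : (d : ℂ) ^ 3 ≠ 0 := pow_ne_zero 3 (by exact_mod_cast hd)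
  rw [h1, h3, h4]
  split_ifs
  · rw [show ((4 : ℤ) - 1) = (3 : ℕ) by norm_num, zpow_natCast, inv_mul_cancel_left₀ hd']
  · rw [mul_zero]

end Fermat.Agent.Cor.Quat
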