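import Fermat.Agent.Corollaries.Quat.Count

/-!
# Jacobi's four-square theorem and eleven more quaternary forms

The numbers of representations of `n ≥ 1` by twelve positive definite quaternary quadratic forms
`Q(x, y) + c R(z, w)` whose theta series (weight two, level `|D| c`) is a combination of the
Eisenstein series `d E₂(dz) - E₂(z)`.  In each case the coefficients are compared up to the Sturm
bound by a search in the kernel.  The sets which are counted are finite (`finite_solutions`), so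
`Set.ncard` is the number of their elements.
-/

set_option autoImplicit false

namespace Fermat.Agent.Cor.Quat

open Fermat.Agent.LTF.Theta Finset

theorem pos_mk (a b c : ℤ) (h : 0 < a) (hD : b ^ 2 - 4 * a * c < 0) : (BQ.mk a b c).Pos := ⟨h, hD⟩

/-- the sets which are counted below are finite -/
theorem finite_solutions (F : ℤ → ℤ → ℤ → ℤ → ℤ) (Q R : BQ) (c : ℕ) (hQ : Q.Pos) (hR : R.Pos)
    (hc : 0 < c) (hF : ∀ x y z w, F x y z w = Q.ev (x, y) + c * R.ev (z, w)) (n : ℕ) :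
    {(x, y, z, w) : ℤ × ℤ × ℤ × ℤ | F x y z w = n}.Finite := by
  have key : ∀ P : BQ, P.Pos → (⋃ m ∈ range (n + 1), {x : ℤ × ℤ | P.ev x = (m : ℤ)}).Finite :=
    fun P hP => Set.Finite.biUnion (range (n + 1)).finite_toSet
      fun m _ => Set.finite_coe_iff.mp (finite_ev hP m)
  refine Set.Finite.subset (s := (Equiv.prodAssoc ℤ ℤ (ℤ × ℤ)) ''
    ((⋃ m ∈ range (n + 1), {x : ℤ × ℤ | Q.ev x = (m : ℤ)}) ×ˢ
      (⋃ m ∈ range (n + 1), {x : ℤ × ℤ | R.ev x = (m : ℤ)})))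
    (((key Q hQ).prod (key R hR)).image _) ?_
  rintro ⟨x, y, z, w⟩ (h : F x y z w = n)
  rw [hF] at h
  have h1 := ev_nonneg hQ (x, y)
  have h2 := ev_nonneg hR (z, w)
  have h3 : (1 : ℤ) ≤ c := by exact_mod_cast hc
  have h4 : R.ev (z, w) ≤ c * R.ev (z, w) := by nlinarith
  have h5 : ∀ {t : ℤ}, 0 ≤ t → t ≤ n → ∃ m ∈ range (n + 1), t = (m : ℤ) := fun {t} ht ht' =>
    ⟨t.toNat, mem_range.mpr (by omega), (Int.toNat_of_nonneg ht).symm⟩
  refine ⟨((x, y), (z, w)), ⟨?_, ?_⟩, rfl⟩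
  · obtain ⟨m, hm, h6⟩ := h5 h1 (by linarith)
    exact Set.mem_biUnion hm h6
  · obtain ⟨m, hm, h6⟩ := h5 h2 (by linarith)
    exact Set.mem_biUnion hm h6

/-- the general theorem with explicit weights -/
theorem ncard_eq_sum (F : ℤ → ℤ → ℤ → ℤ → ℤ) (Q R : BQ) (c M B b : ℕ) (hQ : Q.Pos) (hR : R.Pos)
    (hdisc : Q.disc = R.disc) (hc : 0 < c) (hM : (M : ℤ) = -Q.disc * c)
    (hF : ∀ x y z w, F x y z w = Q.ev (x, y) + c * R.ev (z, w))
    (hB : 2 * ModularCurve.dedekindPsi M / 12 ≤ B) (hbQ : BoxOK Q b B) (hbR : BoxOK R b B)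
    (ι : Finset ℕ) (β : ℕ → ℤ) (hι : ∀ d ∈ ι, d ∣ M)
    (h0 : ∑ d ∈ ι, β d * ((d : ℤ) - 1) = 24)
    (h00 : cfc Q R c b 0 = 1)
    (h : ∀ n ∈ Icc 1 B, (cfc Q R c b n : ℤ) = ∑ e ∈ n.divisors, wt ι β e * e)
    (W : ℕ → ℤ) (hW : ∀ e, wt ι β e = W e) {n : ℕ} (hn : n ≠ 0) :
    ({(x, y, z, w) : ℤ × ℤ × ℤ × ℤ | F x y z w = n}.ncard : ℤ) = ∑ e ∈ n.divisors, W e * e := by
  have : NeZero M := ⟨by
    rintro rfl
    have h1 := hQ.neg
    have h2 : (0 : ℤ) < c := by exact_mod_cast hc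
    simp only [Nat.cast_zero] at hM
    nlinarith⟩
  have h1 := card_eq_sum hQ hR hdisc hc hM ι hι β hB h0 hbQ hbR h00 h hn
  obtain rfl : wt ι β = W := funext hW
  rw [← h1, ← Nat.card_coe_set_eq]
  refine congrArg _ (Nat.card_congr
    ((Equiv.prodAssoc ℤ ℤ (ℤ × ℤ)).symm.subtypeEquiv fun v => ?_))
  obtain ⟨x, y, z, w⟩ := v
  change F x y z w = n ↔ Q.ev (x, y) + c * R.ev (z, w) = n
  rw [hF]

theorem ncard_simple {n l k c : ℕ}
    (h : (c : ℤ) = ∑ e ∈ n.divisors, (if l ∣ e then (0 : ℤ) else k) * e) :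
    c = k * ∑ d ∈ n.divisors with ¬ l ∣ d, d := by
  rw [← Int.natCast_inj, h, Finset.sum_filter, Finset.mul_sum, Nat.cast_sum]
  refine Finset.sum_congr rfl fun e _ => ?_
  split_ifs <;> simp

/-- **Jacobi's four-square theorem** (1834). The number of representations of `n ≥ 1` as a sum of
four squares is `8 ∑_{d ∣ n, 4 ∤ d} d`. -/
theorem jacobi_four_squares {n : ℕ} (hn : n ≠ 0) :
    {(x, y, z, w) : ℤ × ℤ × ℤ × ℤ | x ^ 2 + y ^ 2 + z ^ 2 + w ^ 2 = n}.ncard =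
      8 * ∑ d ∈ n.divisors with ¬ 4 ∣ d, d := by
  have h := ncard_eq_sum (fun x y z w => x ^ 2 + y ^ 2 + z ^ 2 + w ^ 2)
    ⟨1, 0, 1⟩ ⟨1, 0, 1⟩ 1 4 1 1 (pos_mk 1 0 1 (by norm_num) (by norm_num))
    (pos_mk 1 0 1 (by norm_num) (by norm_num)) (by decide) (by norm_num) (by norm_num [BQ.disc])
    (fun x y z w => by simp only [BQ.ev, Int.cast_id]; push_cast; ring)
    (by decide +kernel) ⟨by norm_num [BQ.disc], by norm_num [BQ.disc]⟩
    ⟨by norm_num [BQ.disc], by norm_num [BQ.disc]⟩ {4}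
    (fun _ => 8) (by decide) (by decide)
    (by decide +kernel) (by decide +kernel) (fun e => if 4 ∣ e then 0 else 8)
    (fun e => by simp [wt, Finset.filter_singleton]; split_ifs <;> simp_all) hn
  exact ncard_simple h

/-- `x² + y² + 2z² + 2w²` (Liouville): the divisors `e` of `n` count with weight `4` (`e` odd), `2` (`2 ∥ e`),
`4` (`4 ∥ e`), `0` (`8 ∣ e`). -/
theorem card_1122 {n : ℕ} (hn : n ≠ 0) :
    ({(x, y, z, w) : ℤ × ℤ × ℤ × ℤ | x ^ 2 + y ^ 2 + 2 * z ^ 2 + 2 * w ^ 2 = n}.ncard : ℤ) =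
      ∑ e ∈ n.divisors, (if 8 ∣ e then 0 else if 4 ∣ e then 4 else if 2 ∣ e then 2 else 4 : ℤ) * e :=
  ncard_eq_sum (fun x y z w => x ^ 2 + y ^ 2 + 2 * z ^ 2 + 2 * w ^ 2)
    ⟨1, 0, 1⟩ ⟨1, 0, 1⟩ 2 8 2 1 (pos_mk 1 0 1 (by norm_num) (by norm_num))
    (pos_mk 1 0 1 (by norm_num) (by norm_num)) (by decide) (by norm_num) (by norm_num [BQ.disc])
    (fun x y z w => by simp only [BQ.ev, Int.cast_id]; push_cast; ring)
    (by decide +kernel) ⟨by norm_num [BQ.disc], by norm_num [BQ.disc]⟩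
    ⟨by norm_num [BQ.disc], by norm_num [BQ.disc]⟩ {2, 4, 8}
    (fun d => if d = 2 then 2 else if d = 4 then -2 else 4) (by decide) (by decide)
    (by decide +kernel) (by decide +kernel) _
    (fun e => by simp [wt, Finset.sum_filter, Finset.sum_insert]; split_ifs <;> omega) hn

/-- `x² + y² + 3z² + 3w²` (Liouville): `4` times the sum of the divisors `e` of `n` with `3 ∤ e` and not `2 ∥ e`. -/
theorem card_1133 {n : ℕ} (hn : n ≠ 0) :
    ({(x, y, z, w) : ℤ × ℤ × ℤ × ℤ | x ^ 2 + y ^ 2 + 3 * z ^ 2 + 3 * w ^ 2 = n}.ncard : ℤ) =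
      ∑ e ∈ n.divisors, (if 3 ∣ e then 0 else if 4 ∣ e then 4 else if 2 ∣ e then 0 else 4 : ℤ) * e :=
  ncard_eq_sum (fun x y z w => x ^ 2 + y ^ 2 + 3 * z ^ 2 + 3 * w ^ 2)
    ⟨1, 0, 1⟩ ⟨1, 0, 1⟩ 3 12 4 2 (pos_mk 1 0 1 (by norm_num) (by norm_num))
    (pos_mk 1 0 1 (by norm_num) (by norm_num)) (by decide) (by norm_num) (by norm_num [BQ.disc])
    (fun x y z w => by simp only [BQ.ev, Int.cast_id]; push_cast; ring)
    (by decide +kernel) ⟨by norm_num [BQ.disc], by norm_num [BQ.disc]⟩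
    ⟨by norm_num [BQ.disc], by norm_num [BQ.disc]⟩ {2, 3, 4, 6, 12}
    (fun d => if d = 2 then 4 else if d = 3 then 4 else if d = 4 then -4 else if d = 6 then -4 else 4) (by decide) (by decide)
    (by decide +kernel) (by decide +kernel) _
    (fun e => by simp [wt, Finset.sum_filter, Finset.sum_insert]; split_ifs <;> omega) hn

/-- The number of representations of `n ≥ 1` by `x² + xy + y² + z² + zw + w²` is
`12 ∑_{d ∣ n, 3 ∤ d} d` (Liouville 1863). -/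
theorem card_hex_hex {n : ℕ} (hn : n ≠ 0) :
    {(x, y, z, w) : ℤ × ℤ × ℤ × ℤ | x ^ 2 + x * y + y ^ 2 + z ^ 2 + z * w + w ^ 2 = n}.ncard =
      12 * ∑ d ∈ n.divisors with ¬ 3 ∣ d, d := by
  have h := ncard_eq_sum (fun x y z w => x ^ 2 + x * y + y ^ 2 + z ^ 2 + z * w + w ^ 2)
    ⟨1, 1, 1⟩ ⟨1, 1, 1⟩ 1 3 0 0 (pos_mk 1 1 1 (by norm_num) (by norm_num))
    (pos_mk 1 1 1 (by norm_num) (by norm_num)) (by decide) (by norm_num) (by norm_num [BQ.disc])
    (fun x y z w => by simp only [BQ.ev, Int.cast_id]; push_cast; ring)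
    (by decide +kernel) ⟨by norm_num [BQ.disc], by norm_num [BQ.disc]⟩
    ⟨by norm_num [BQ.disc], by norm_num [BQ.disc]⟩ {3}
    (fun _ => 12) (by decide) (by decide)
    (by decide +kernel) (by decide +kernel) (fun e => if 3 ∣ e then 0 else 12)
    (fun e => by simp [wt, Finset.filter_singleton]; split_ifs <;> simp_all) hn
  exact ncard_simple h

/-- `x² + xy + y² + 2(z² + zw + w²)`: the odd divisors `e` of `n` with weight `12` if `3 ∣ e`, `6` if `3 ∤ e`. -/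
theorem card_hex_two_hex {n : ℕ} (hn : n ≠ 0) :
    ({(x, y, z, w) : ℤ × ℤ × ℤ × ℤ | x ^ 2 + x * y + y ^ 2 + 2 * (z ^ 2 + z * w + w ^ 2) = n}.ncard : ℤ) =
      ∑ e ∈ n.divisors, (if 2 ∣ e then 0 else if 3 ∣ e then 12 else 6 : ℤ) * e :=
  ncard_eq_sum (fun x y z w => x ^ 2 + x * y + y ^ 2 + 2 * (z ^ 2 + z * w + w ^ 2))
    ⟨1, 1, 1⟩ ⟨1, 1, 1⟩ 2 6 2 1 (pos_mk 1 1 1 (by norm_num) (by norm_num))
    (pos_mk 1 1 1 (by norm_num) (by norm_num)) (by decide) (by norm_num) (by norm_num [BQ.disc])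
    (fun x y z w => by simp only [BQ.ev, Int.cast_id]; push_cast; ring)
    (by decide +kernel) ⟨by norm_num [BQ.disc], by norm_num [BQ.disc]⟩
    ⟨by norm_num [BQ.disc], by norm_num [BQ.disc]⟩ {2, 3, 6}
    (fun d => if d = 2 then 6 else if d = 3 then -6 else 6) (by decide) (by decide)
    (by decide +kernel) (by decide +kernel) _
    (fun e => by simp [wt, Finset.sum_filter, Finset.sum_insert]; split_ifs <;> omega) hn

/-- `x² + xy + y² + 4(z² + zw + w²)`: the divisors `e` of `n` prime to `3` with weight `6` (`e` odd), `-3` (`2 ∥ e`),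
`3` (`4 ∣ e`). -/
theorem card_hex_four_hex {n : ℕ} (hn : n ≠ 0) :
    ({(x, y, z, w) : ℤ × ℤ × ℤ × ℤ | x ^ 2 + x * y + y ^ 2 + 4 * (z ^ 2 + z * w + w ^ 2) = n}.ncard : ℤ) =
      ∑ e ∈ n.divisors, (if 3 ∣ e then 0 else if 4 ∣ e then 3 else if 2 ∣ e then -3 else 6 : ℤ) * e :=
  ncard_eq_sum (fun x y z w => x ^ 2 + x * y + y ^ 2 + 4 * (z ^ 2 + z * w + w ^ 2))
    ⟨1, 1, 1⟩ ⟨1, 1, 1⟩ 4 12 4 2 (pos_mk 1 1 1 (by norm_num) (by norm_num))
    (pos_mk 1 1 1 (by norm_num) (by norm_num)) (by decide) (by norm_num) (by norm_num [BQ.disc])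
    (fun x y z w => by simp only [BQ.ev, Int.cast_id]; push_cast; ring)
    (by decide +kernel) ⟨by norm_num [BQ.disc], by norm_num [BQ.disc]⟩
    ⟨by norm_num [BQ.disc], by norm_num [BQ.disc]⟩ {2, 3, 4, 6, 12}
    (fun d => if d = 2 then 9 else if d = 3 then 6 else if d = 4 then -6 else if d = 6 then -9 else 6) (by decide) (by decide)
    (by decide +kernel) (by decide +kernel) _
    (fun e => by simp [wt, Finset.sum_filter, Finset.sum_insert]; split_ifs <;> omega) hn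

/-- The number of representations of `n ≥ 1` by `x² + xy + 2y² + z² + zw + 2w²` is
`4 ∑_{d ∣ n, 7 ∤ d} d` (Ramanujan). -/
theorem card_seven_seven {n : ℕ} (hn : n ≠ 0) :
    {(x, y, z, w) : ℤ × ℤ × ℤ × ℤ | x ^ 2 + x * y + 2 * y ^ 2 + z ^ 2 + z * w + 2 * w ^ 2 = n}.ncard =
      4 * ∑ d ∈ n.divisors with ¬ 7 ∣ d, d := by
  have h := ncard_eq_sum (fun x y z w => x ^ 2 + x * y + 2 * y ^ 2 + z ^ 2 + z * w + 2 * w ^ 2)
    ⟨1, 1, 2⟩ ⟨1, 1, 2⟩ 1 7 1 1 (pos_mk 1 1 2 (by norm_num) (by norm_num))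
    (pos_mk 1 1 2 (by norm_num) (by norm_num)) (by decide) (by norm_num) (by norm_num [BQ.disc])
    (fun x y z w => by simp only [BQ.ev, Int.cast_id]; push_cast; ring)
    (by decide +kernel) ⟨by norm_num [BQ.disc], by norm_num [BQ.disc]⟩
    ⟨by norm_num [BQ.disc], by norm_num [BQ.disc]⟩ {7}
    (fun _ => 4) (by decide) (by decide)
    (by decide +kernel) (by decide +kernel) (fun e => if 7 ∣ e then 0 else 4)
    (fun e => by simp [wt, Finset.filter_singleton]; split_ifs <;> simp_all) hn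
  exact ncard_simple h

/-- `x² + 2y² + 2z² + 4w²` (Liouville): the divisors `e` of `n` with weight `2` (`e` odd), `1` (`2 ∥ e` or `4 ∥ e`), `2`
(`8 ∥ e`), `0` (`16 ∣ e`). -/
theorem card_1224 {n : ℕ} (hn : n ≠ 0) :
    ({(x, y, z, w) : ℤ × ℤ × ℤ × ℤ | x ^ 2 + 2 * y ^ 2 + 2 * z ^ 2 + 4 * w ^ 2 = n}.ncard : ℤ) =
      ∑ e ∈ n.divisors, (if 16 ∣ e then 0 else if 8 ∣ e then 2 else if 2 ∣ e then 1 else 2 : ℤ) * e :=
  ncard_eq_sum (fun x y z w => x ^ 2 + 2 * y ^ 2 + 2 * z ^ 2 + 4 * w ^ 2)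
    ⟨1, 0, 2⟩ ⟨1, 0, 2⟩ 2 16 4 2 (pos_mk 1 0 2 (by norm_num) (by norm_num))
    (pos_mk 1 0 2 (by norm_num) (by norm_num)) (by decide) (by norm_num) (by norm_num [BQ.disc])
    (fun x y z w => by simp only [BQ.ev, Int.cast_id]; push_cast; ring)
    (by decide +kernel) ⟨by norm_num [BQ.disc], by norm_num [BQ.disc]⟩
    ⟨by norm_num [BQ.disc], by norm_num [BQ.disc]⟩ {2, 8, 16}
    (fun d => if d = 2 then 1 else if d = 8 then -1 else 2) (by decide) (by decide)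
    (by decide +kernel) (by decide +kernel) _
    (fun e => by simp [wt, Finset.sum_filter, Finset.sum_insert]; split_ifs <;> omega) hn

/-- `x² + xy + 3y² + 2(z² + zw + 3w²)` (level `22`; no cusp form occurs): the odd divisors `e` of `n` with
weight `4` if `11 ∣ e`, `2` if `11 ∤ e`. -/
theorem card_eleven_two_eleven {n : ℕ} (hn : n ≠ 0) :
    ({(x, y, z, w) : ℤ × ℤ × ℤ × ℤ | x ^ 2 + x * y + 3 * y ^ 2 + 2 * (z ^ 2 + z * w + 3 * w ^ 2) = n}.ncard : ℤ) =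
      ∑ e ∈ n.divisors, (if 2 ∣ e then 0 else if 11 ∣ e then 4 else 2 : ℤ) * e :=
  ncard_eq_sum (fun x y z w => x ^ 2 + x * y + 3 * y ^ 2 + 2 * (z ^ 2 + z * w + 3 * w ^ 2))
    ⟨1, 1, 3⟩ ⟨1, 1, 3⟩ 2 22 6 2 (pos_mk 1 1 3 (by norm_num) (by norm_num))
    (pos_mk 1 1 3 (by norm_num) (by norm_num)) (by decide) (by norm_num) (by norm_num [BQ.disc])
    (fun x y z w => by simp only [BQ.ev, Int.cast_id]; push_cast; ring)
    (by decide +kernel) ⟨by norm_num [BQ.disc], by norm_num [BQ.disc]⟩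
    ⟨by norm_num [BQ.disc], by norm_num [BQ.disc]⟩ {2, 11, 22}
    (fun d => if d = 2 then 2 else if d = 11 then -2 else 2) (by decide) (by decide)
    (by decide +kernel) (by decide +kernel) _
    (fun e => by simp [wt, Finset.sum_filter, Finset.sum_insert]; split_ifs <;> omega) hn

/-- `x² + 3y² + 2(z² + zw + w²)`: the divisors `e` of `n` with `4 ∤ e`, with weight `4` if `3 ∣ e`, `2` if `3 ∤ e`. -/
theorem card_three_two_hex {n : ℕ} (hn : n ≠ 0) :
    ({(x, y, z, w) : ℤ × ℤ × ℤ × ℤ | x ^ 2 + 3 * y ^ 2 + 2 * (z ^ 2 + z * w + w ^ 2) = n}.ncard : ℤ) =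
      ∑ e ∈ n.divisors, (if 4 ∣ e then 0 else if 3 ∣ e then 4 else 2 : ℤ) * e :=
  ncard_eq_sum (fun x y z w => x ^ 2 + 3 * y ^ 2 + 2 * (z ^ 2 + z * w + w ^ 2))
    ⟨1, 0, 3⟩ ⟨2, 2, 2⟩ 1 12 4 2 (pos_mk 1 0 3 (by norm_num) (by norm_num))
    (pos_mk 2 2 2 (by norm_num) (by norm_num)) (by decide) (by norm_num) (by norm_num [BQ.disc])
    (fun x y z w => by simp only [BQ.ev, Int.cast_id]; push_cast; ring)
    (by decide +kernel) ⟨by norm_num [BQ.disc], by norm_num [BQ.disc]⟩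
    ⟨by norm_num [BQ.disc], by norm_num [BQ.disc]⟩ {3, 4, 12}
    (fun d => if d = 3 then -2 else if d = 4 then 2 else 2) (by decide) (by decide)
    (by decide +kernel) (by decide +kernel) _
    (fun e => by simp [wt, Finset.sum_filter, Finset.sum_insert]; split_ifs <;> omega) hn

/-- `x² + 3y² + 4(z² + zw + w²)`: the divisors `e` of `n` prime to `3` with weight `2` (`e` odd), `-1` (`2 ∥ e`),
`3` (`4 ∣ e`). -/
theorem card_three_four_hex {n : ℕ} (hn : n ≠ 0) :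
    ({(x, y, z, w) : ℤ × ℤ × ℤ × ℤ | x ^ 2 + 3 * y ^ 2 + 4 * (z ^ 2 + z * w + w ^ 2) = n}.ncard : ℤ) =
      ∑ e ∈ n.divisors, (if 3 ∣ e then 0 else if 4 ∣ e then 3 else if 2 ∣ e then -1 else 2 : ℤ) * e :=
  ncard_eq_sum (fun x y z w => x ^ 2 + 3 * y ^ 2 + 4 * (z ^ 2 + z * w + w ^ 2))
    ⟨1, 0, 3⟩ ⟨2, 2, 2⟩ 2 24 8 2 (pos_mk 1 0 3 (by norm_num) (by norm_num))
    (pos_mk 2 2 2 (by norm_num) (by norm_num)) (by decide) (by norm_num) (by norm_num [BQ.disc])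
    (fun x y z w => by simp only [BQ.ev, Int.cast_id]; push_cast; ring)
    (by decide +kernel) ⟨by norm_num [BQ.disc], by norm_num [BQ.disc]⟩
    ⟨by norm_num [BQ.disc], by norm_num [BQ.disc]⟩ {2, 3, 4, 6, 12}
    (fun d => if d = 2 then 3 else if d = 3 then 2 else if d = 4 then -4 else if d = 6 then -3 else 4) (by decide) (by decide)
    (by decide +kernel) (by decide +kernel) _
    (fun e => by simp [wt, Finset.sum_filter, Finset.sum_insert]; split_ifs <;> omega) hn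

/-- `x² + 5y² + 2z² + 2zw + 3w²` (the two classes of forms of discriminant `-20`): `2` times the sum of the
divisors `e` of `n` with `5 ∤ e` and not `2 ∥ e`. -/
theorem card_five_genus {n : ℕ} (hn : n ≠ 0) :
    ({(x, y, z, w) : ℤ × ℤ × ℤ × ℤ | x ^ 2 + 5 * y ^ 2 + 2 * z ^ 2 + 2 * z * w + 3 * w ^ 2 = n}.ncard : ℤ) =
      ∑ e ∈ n.divisors, (if 5 ∣ e then 0 else if 4 ∣ e then 2 else if 2 ∣ e then 0 else 2 : ℤ) * e :=
  ncard_eq_sum (fun x y z w => x ^ 2 + 5 * y ^ 2 + 2 * z ^ 2 + 2 * z * w + 3 * w ^ 2)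
    ⟨1, 0, 5⟩ ⟨2, 2, 3⟩ 1 20 6 2 (pos_mk 1 0 5 (by norm_num) (by norm_num))
    (pos_mk 2 2 3 (by norm_num) (by norm_num)) (by decide) (by norm_num) (by norm_num [BQ.disc])
    (fun x y z w => by simp only [BQ.ev, Int.cast_id]; push_cast; ring)
    (by decide +kernel) ⟨by norm_num [BQ.disc], by norm_num [BQ.disc]⟩
    ⟨by norm_num [BQ.disc], by norm_num [BQ.disc]⟩ {2, 4, 5, 10, 20}
    (fun d => if d = 2 then 2 else if d = 4 then -2 else if d = 5 then 2 else if d = 10 then -2 else 2) (by decide) (by decide)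
    (by decide +kernel) (by decide +kernel) _
    (fun e => by simp [wt, Finset.sum_filter, Finset.sum_insert]; split_ifs <;> omega) hn

end Fermat.Agent.Cor.Quat
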