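import Fermat.Agent.Corollaries.Quat.E8Dual

/-!
# Generating functions of the lattices `ℤ^(4k)` and `D⁺`

`P = ∑ r₄(n) tⁿ`, `Qo = ∑ #{y ∈ ℤ⁴ odd : |y|² = 4n} tⁿ`.  Jacobi: `P(t) - P(-t) = Qo(t)`.  The
lattice `D⁺ = {x ∈ ℤ^(4k) ∪ (ℤ + 1/2)^(4k) : ∑ xᵢ even}` has the theta series
`(P(t)^k + P(-t)^k + Qo(t)^k) / 2`.
-/

set_option autoImplicit false

noncomputable section

namespace Fermat.Agent.Cor.Quat

open Finset

/-! ### counting in products -/

theorem card_add_nat {A B : Type} {f : A → ℕ} {g : B → ℕ}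
    (hfin : ∀ n : ℕ, Finite {a // f a = n}) (hgin : ∀ n : ℕ, Finite {b // g b = n}) (n : ℕ) :
    Nat.card {p : A × B // f p.1 + g p.2 = n} =
      ∑ ij ∈ HasAntidiagonal.antidiagonal n,
        Nat.card {a // f a = ij.1} * Nat.card {b // g b = ij.2} := by
  have hA : ∀ m : ℕ, Nonempty ({a // f a = m} ≃ {a // (f a : ℤ) = (m : ℤ)}) := fun m =>
    ⟨Equiv.subtypeEquivRight fun a => Nat.cast_inj.symm⟩
  have hB : ∀ m : ℕ, Nonempty ({b // g b = m} ≃ {b // (g b : ℤ) = (m : ℤ)}) := fun m =>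
    ⟨Equiv.subtypeEquivRight fun a => Nat.cast_inj.symm⟩
  have h := card_add (f := fun a => (f a : ℤ)) (g := fun b => (g b : ℤ))
    (fun a => Int.natCast_nonneg _) (fun b => Int.natCast_nonneg _)
    (fun m => by have := hfin m; exact Finite.of_equiv _ (hA m).some)
    (fun m => by have := hgin m; exact Finite.of_equiv _ (hB m).some) n
  have h1 : Nat.card {p : A × B // f p.1 + g p.2 = n} =
      Nat.card {p : A × B // (f p.1 : ℤ) + (g p.2 : ℤ) = (n : ℤ)} :=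
    Nat.card_congr (Equiv.subtypeEquivRight fun p => by
      rw [← Nat.cast_add, Nat.cast_inj])
  rw [h1, h]
  refine Finset.sum_congr rfl fun ij _ => ?_
  rw [Nat.card_congr (hA ij.1).some, Nat.card_congr (hB ij.2).some]

/-- the generating function -/
def gf {A : Type} (f : A → ℕ) : PowerSeries ℤ :=
  PowerSeries.mk fun n => (Nat.card {a // f a = n} : ℤ)

theorem coeff_gf {A : Type} (f : A → ℕ) (n : ℕ) :
    PowerSeries.coeff n (gf f) = (Nat.card {a // f a = n} : ℤ) := PowerSeries.coeff_mk _ _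

theorem gf_prod {A B : Type} {f : A → ℕ} {g : B → ℕ}
    (hfin : ∀ n : ℕ, Finite {a // f a = n}) (hgin : ∀ n : ℕ, Finite {b // g b = n}) :
    gf (fun p : A × B => f p.1 + g p.2) = gf f * gf g := by
  ext n
  rw [PowerSeries.coeff_mul, coeff_gf, card_add_nat hfin hgin]
  push_cast
  exact Finset.sum_congr rfl fun ij _ => by rw [coeff_gf, coeff_gf]

theorem gf_congr {A B : Type} (e : A ≃ B) {f : A → ℕ} {g : B → ℕ} (h : ∀ a, g (e a) = f a) :
    gf f = gf g := by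
  ext n
  rw [coeff_gf, coeff_gf,
    Nat.card_congr (e.subtypeEquiv (q := fun b => g b = n) fun a => by rw [h])]

theorem finite_pi {A : Type} {f : A → ℕ} (hfin : ∀ n : ℕ, Finite {a // f a = n}) (k n : ℕ) :
    Finite {a : Fin k → A // ∑ j, f (a j) = n} := by
  have h1 : (⋃ m ∈ range (n + 1), {a | f a = m}).Finite :=
    Set.Finite.biUnion (range (n + 1)).finite_toSet fun m _ => Set.finite_coe_iff.mp (hfin m)
  have h2 : {a : Fin k → A | ∀ j, a j ∈ ⋃ m ∈ range (n + 1), {a | f a = m}}.Finite :=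
    Set.Finite.pi' fun _ => h1
  refine Set.finite_coe_iff.mpr (h2.subset ?_)
  intro a ha j
  have h3 : ∑ j, f (a j) = n := ha
  have h4 : f (a j) ≤ n := h3 ▸ Finset.single_le_sum (f := fun j => f (a j))
    (fun _ _ => Nat.zero_le _) (mem_univ j)
  exact Set.mem_biUnion (x := f (a j)) (mem_coe.mpr (mem_range.mpr (by omega))) rfl

theorem gf_pi {A : Type} {f : A → ℕ} (hfin : ∀ n : ℕ, Finite {a // f a = n}) (k : ℕ) :
    gf (fun a : Fin k → A => ∑ j, f (a j)) = gf f ^ k := by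
  induction k with
  | zero =>
    ext n
    rw [coeff_gf, pow_zero, PowerSeries.coeff_one]
    by_cases h : n = 0
    · subst h
      rw [if_pos rfl]
      have : Unique {a : Fin 0 → A // ∑ j, f (a j) = 0} :=
        { default := ⟨fun j => j.elim0, by simp⟩
          uniq := fun a => Subtype.ext (funext fun j => j.elim0) }
      rw [Nat.card_unique, Nat.cast_one]
    · rw [if_neg h]
      have : IsEmpty {a : Fin 0 → A // ∑ j, f (a j) = n} :=
        ⟨fun a => h (by rw [← a.2]; simp)⟩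
      rw [Nat.card_of_isEmpty, Nat.cast_zero]
  | succ k ih =>
    rw [pow_succ', ← ih, ← gf_prod hfin (finite_pi hfin k)]
    refine (gf_congr (Fin.consEquiv fun _ => A) fun a => ?_).symm
    rw [Fin.sum_univ_succ]
    rfl

/-! ### the series `P` and `Qo` -/

/-- `|x|²` -/
def nsq (x : Fin 4 → ℤ) : ℕ := ∑ i, (x i).natAbs ^ 2

theorem nsq_eq_iff (x : Fin 4 → ℤ) (n : ℕ) : nsq x = n ↔ ∑ i, x i ^ 2 = (n : ℤ) := by
  unfold nsq
  rw [← Nat.cast_inj (R := ℤ)]
  push_cast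
  simp only [sq_abs]

/-- four coordinates -/
def quadEquiv : (Fin 4 → ℤ) ≃ ℤ × ℤ × ℤ × ℤ where
  toFun x := (x 0, x 1, x 2, x 3)
  invFun p := ![p.1, p.2.1, p.2.2.1, p.2.2.2]
  left_inv x := by
    funext i
    fin_cases i <;> rfl
  right_inv p := rfl

theorem card_nsq (n : ℕ) : Nat.card {x // nsq x = n} =
    {(x, y, z, w) : ℤ × ℤ × ℤ × ℤ | x ^ 2 + y ^ 2 + z ^ 2 + w ^ 2 = n}.ncard := by
  rw [← Nat.card_coe_set_eq]
  refine Nat.card_congr (quadEquiv.subtypeEquiv fun x => ?_)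
  rw [nsq_eq_iff, Fin.sum_univ_four]
  exact Iff.rfl

theorem finite_nsq (n : ℕ) : Finite {x // nsq x = n} := by
  have h := finite_solutions (fun x y z w => x ^ 2 + y ^ 2 + z ^ 2 + w ^ 2)
    ⟨1, 0, 1⟩ ⟨1, 0, 1⟩ 1 (pos_mk 1 0 1 (by norm_num) (by norm_num))
    (pos_mk 1 0 1 (by norm_num) (by norm_num)) one_pos
    (fun x y z w => by simp only [LTF.Theta.BQ.ev, Int.cast_id]; push_cast; ring) n
  have := h.to_subtype
  refine Finite.of_injective
    (β := ↥{(x, y, z, w) : ℤ × ℤ × ℤ × ℤ | x ^ 2 + y ^ 2 + z ^ 2 + w ^ 2 = (n : ℤ)})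
    (fun x => ⟨quadEquiv x.1, ?_⟩) ?_
  · have h1 := x.2
    rw [nsq_eq_iff, Fin.sum_univ_four] at h1
    exact h1
  · intro x y hxy
    exact Subtype.ext (quadEquiv.injective (congrArg Subtype.val hxy))

/-- four odd integers -/
abbrev O4 : Type := {y : Fin 4 → ℤ // ∀ i, Odd (y i)}

theorem nsq_odd (y : O4) : nsq y.1 % 8 = 4 := by
  have h : ∀ i, (y.1 i).natAbs ^ 2 % 8 = 1 := fun i => by
    have h1 := odd_sq_mod_eight (y.2 i)
    have h2 : (((y.1 i).natAbs ^ 2 : ℕ) : ℤ) = y.1 i ^ 2 := by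
      push_cast
      exact sq_abs _
    omega
  unfold nsq
  rw [Fin.sum_univ_four]
  have h0 := h 0
  have h1 := h 1
  have h2 := h 2
  have h3 := h 3
  omega

/-- `|y|² / 4` -/
def osq (y : O4) : ℕ := nsq y.1 / 4

theorem osq_eq_iff (y : O4) (n : ℕ) : osq y = n ↔ nsq y.1 = 4 * n := by
  have := nsq_odd y
  unfold osq
  omega

theorem finite_osq (n : ℕ) : Finite {y // osq y = n} := by
  have := finite_nsq (4 * n)
  exact Finite.of_injective
    (fun y : {y // osq y = n} => (⟨y.1.1, (osq_eq_iff _ _).mp y.2⟩ : {x // nsq x = 4 * n}))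
    (by
      intro y z h
      have h1 := Subtype.ext_iff.mp h
      exact Subtype.ext (Subtype.ext h1))

theorem card_osq (n : ℕ) : Nat.card {y // osq y = n} =
    {(x, y, z, w) : ℤ × ℤ × ℤ × ℤ | (Odd x ∧ Odd y ∧ Odd z ∧ Odd w) ∧
      x ^ 2 + y ^ 2 + z ^ 2 + w ^ 2 = 4 * n}.ncard := by
  rw [← Nat.card_coe_set_eq]
  refine Nat.card_congr
    { toFun := fun y => ⟨(y.1.1 0, y.1.1 1, y.1.1 2, y.1.1 3),
        ⟨⟨y.1.2 0, y.1.2 1, y.1.2 2, y.1.2 3⟩, ?_⟩⟩
      invFun := fun v => ⟨⟨![v.1.1, v.1.2.1, v.1.2.2.1, v.1.2.2.2], ?_⟩, ?_⟩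
      left_inv := fun y => ?_
      right_inv := fun v => ?_ }
  · have h := (osq_eq_iff _ _).mp y.2
    rw [nsq_eq_iff, Fin.sum_univ_four] at h
    rw [h]
    push_cast
    rfl
  · obtain ⟨⟨x, y, z, w⟩, ⟨h1, h2, h3, h4⟩, h⟩ := v
    intro i
    fin_cases i
    exacts [h1, h2, h3, h4]
  · obtain ⟨⟨x, y, z, w⟩, ⟨h1, h2, h3, h4⟩, h⟩ := v
    rw [osq_eq_iff, nsq_eq_iff, Fin.sum_univ_four]
    have h' : x ^ 2 + y ^ 2 + z ^ 2 + w ^ 2 = 4 * (n : ℤ) := h
    push_cast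
    exact h'
  · apply Subtype.ext
    apply Subtype.ext
    funext i
    fin_cases i <;> rfl
  · rfl

/-- **Jacobi's identity** `P(t) - P(-t) = Qo(t)` (`θ₃⁴ - θ₄⁴ = θ₂⁴`) -/
theorem jacobi_identity :
    gf nsq = PowerSeries.rescale (-1 : ℤ) (gf nsq) + gf osq := by
  ext n
  rw [map_add, PowerSeries.coeff_rescale, coeff_gf, coeff_gf, card_nsq, card_osq]
  rcases Nat.even_or_odd n with he | ho
  · rw [he.neg_one_pow, one_mul]
    have h0 : {(x, y, z, w) : ℤ × ℤ × ℤ × ℤ | (Odd x ∧ Odd y ∧ Odd z ∧ Odd w) ∧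
        x ^ 2 + y ^ 2 + z ^ 2 + w ^ 2 = 4 * n} = ∅ := by
      rw [Set.eq_empty_iff_forall_notMem]
      rintro ⟨x, y, z, w⟩ ⟨⟨h1, h2, h3, h4⟩, h⟩
      have e1 := odd_sq_mod_eight h1
      have e2 := odd_sq_mod_eight h2
      have e3 := odd_sq_mod_eight h3
      have e4 := odd_sq_mod_eight h4
      obtain ⟨m, rfl⟩ := he
      push_cast at h
      omega
    rw [h0, Set.ncard_empty]
    simp
  · rw [ho.neg_one_pow, four_squares_odd ho, card_four_odd_squares ho]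
    push_cast
    ring

end Fermat.Agent.Cor.Quat
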