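import Fermat.Agent.Corollaries.Quat.Triangular
import Mathlib.Algebra.Quaternion

/-!
# Hurwitz quaternions of norm `n`

The Hurwitz quaternions form a ring; for `n ≥ 1` exactly `24 ∑_{d ∣ n, d odd} d` of them have norm
`n`: there are `24` units, and `24 (p + 1)` elements of norm `p` for an odd prime `p`.
-/

set_option autoImplicit false

noncomputable section

namespace Fermat.Agent.Cor.Quat

open Finset Quaternion

/-- the Hurwitz quaternion `y / 2` (`y` four integers of the same parity) -/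
def halfQ (y : ℤ × ℤ × ℤ × ℤ) : ℍ[ℚ] := ⟨y.1 / 2, y.2.1 / 2, y.2.2.1 / 2, y.2.2.2 / 2⟩

theorem mkmul (a b c d a' b' c' d' : ℚ) : (⟨a, b, c, d⟩ : ℍ[ℚ]) * ⟨a', b', c', d'⟩ =
    ⟨a * a' - b * b' - c * c' - d * d', a * b' + b * a' + c * d' - d * c',
      a * c' - b * d' + c * a' + d * b', a * d' + b * c' - c * b' + d * a'⟩ := by
  refine (QuaternionAlgebra.mk_mul_mk (R := ℚ) (c₁ := -1) (c₂ := 0) (c₃ := -1)
    a b c d a' b' c' d').trans ?_
  congr 1 <;> ring

theorem mkadd (a b c d a' b' c' d' : ℚ) : (⟨a, b, c, d⟩ : ℍ[ℚ]) + ⟨a', b', c', d'⟩ =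
    ⟨a + a', b + b', c + c', d + d'⟩ := rfl

theorem mkneg (a b c d : ℚ) : -(⟨a, b, c, d⟩ : ℍ[ℚ]) = ⟨-a, -b, -c, -d⟩ := rfl

theorem normSq_mk (a b c d : ℚ) :
    Quaternion.normSq (⟨a, b, c, d⟩ : ℍ[ℚ]) = a ^ 2 + b ^ 2 + c ^ 2 + d ^ 2 :=
  Quaternion.normSq_def' (R := ℚ) (a := ⟨a, b, c, d⟩)

theorem mkext {a b c d a' b' c' d' : ℚ} (h1 : a = a') (h2 : b = b') (h3 : c = c')
    (h4 : d = d') : (⟨a, b, c, d⟩ : ℍ[ℚ]) = ⟨a', b', c', d'⟩ := by
  subst h1 h2 h3 h4
  rfl

/-- **the ring of Hurwitz quaternions**: all coordinates in `ℤ` or all coordinates in `ℤ + 1/2` -/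
def hurwitz : Subring ℍ[ℚ] where
  carrier := {q | (∃ a b c d : ℤ, q = ⟨a, b, c, d⟩) ∨
    ∃ a b c d : ℤ, q = ⟨a + 1 / 2, b + 1 / 2, c + 1 / 2, d + 1 / 2⟩}
  zero_mem' := Or.inl ⟨0, 0, 0, 0, by ext <;> simp⟩
  one_mem' := Or.inl ⟨1, 0, 0, 0, by ext <;> simp⟩
  neg_mem' := by
    rintro q (⟨a, b, c, d, rfl⟩ | ⟨a, b, c, d, rfl⟩)
    · exact Or.inl ⟨-a, -b, -c, -d, (mkneg _ _ _ _).trans (mkext (by push_cast; ring)
        (by push_cast; ring) (by push_cast; ring) (by push_cast; ring))⟩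
    · exact Or.inr ⟨-a - 1, -b - 1, -c - 1, -d - 1, (mkneg _ _ _ _).trans
        (mkext (by push_cast; ring) (by push_cast; ring) (by push_cast; ring)
          (by push_cast; ring))⟩
  add_mem' := by
    rintro q r (⟨a, b, c, d, rfl⟩ | ⟨a, b, c, d, rfl⟩) (⟨a', b', c', d', rfl⟩ | ⟨a', b', c', d', rfl⟩)
    · exact Or.inl ⟨a + a', b + b', c + c', d + d', (mkadd _ _ _ _ _ _ _ _).trans
        (mkext (by push_cast; ring) (by push_cast; ring) (by push_cast; ring)
          (by push_cast; ring))⟩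
    · exact Or.inr ⟨a + a', b + b', c + c', d + d', (mkadd _ _ _ _ _ _ _ _).trans
        (mkext (by push_cast; ring) (by push_cast; ring) (by push_cast; ring)
          (by push_cast; ring))⟩
    · exact Or.inr ⟨a + a', b + b', c + c', d + d', (mkadd _ _ _ _ _ _ _ _).trans
        (mkext (by push_cast; ring) (by push_cast; ring) (by push_cast; ring)
          (by push_cast; ring))⟩
    · exact Or.inl ⟨a + a' + 1, b + b' + 1, c + c' + 1, d + d' + 1,
        (mkadd _ _ _ _ _ _ _ _).trans (mkext (by push_cast; ring) (by push_cast; ring)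
          (by push_cast; ring) (by push_cast; ring))⟩
  mul_mem' := by
    rintro q r (⟨a, b, c, d, rfl⟩ | ⟨a, b, c, d, rfl⟩) (⟨a', b', c', d', rfl⟩ | ⟨a', b', c', d', rfl⟩)
    · exact Or.inl ⟨a * a' - b * b' - c * c' - d * d', a * b' + b * a' + c * d' - d * c',
        a * c' - b * d' + c * a' + d * b', a * d' + b * c' - c * b' + d * a', (mkmul _ _ _ _ _ _ _ _).trans
          (mkext (by push_cast; rfl) (by push_cast; rfl) (by push_cast; rfl) (by push_cast; rfl))⟩
    · rcases Int.even_or_odd' (a + b + c + d) with ⟨k, hk | hk⟩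
      · refine Or.inl ⟨a * a' - b * b' - c * c' - d * d' + (k - b - c - d),
          a * b' + b * a' + c * d' - d * c' + (k - d),
          a * c' - b * d' + c * a' + d * b' + (k - b),
          a * d' + b * c' - c * b' + d * a' + (k - c), ?_⟩
        have h : (a : ℚ) + b + c + d = 2 * k := by exact_mod_cast hk
        exact (mkmul _ _ _ _ _ _ _ _).trans (mkext (by push_cast; linarith)
          (by push_cast; linarith) (by push_cast; linarith) (by push_cast; linarith))
      · refine Or.inr ⟨a * a' - b * b' - c * c' - d * d' + (k - b - c - d),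
          a * b' + b * a' + c * d' - d * c' + (k - d),
          a * c' - b * d' + c * a' + d * b' + (k - b),
          a * d' + b * c' - c * b' + d * a' + (k - c), ?_⟩
        have h : (a : ℚ) + b + c + d = 2 * k + 1 := by exact_mod_cast hk
        exact (mkmul _ _ _ _ _ _ _ _).trans (mkext (by push_cast; linarith)
          (by push_cast; linarith) (by push_cast; linarith) (by push_cast; linarith))
    · rcases Int.even_or_odd' (a' + b' + c' + d') with ⟨k, hk | hk⟩
      · refine Or.inl ⟨a * a' - b * b' - c * c' - d * d' + (k - b' - c' - d'),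
          a * b' + b * a' + c * d' - d * c' + (k - c'),
          a * c' - b * d' + c * a' + d * b' + (k - d'),
          a * d' + b * c' - c * b' + d * a' + (k - b'), ?_⟩
        have h : (a' : ℚ) + b' + c' + d' = 2 * k := by exact_mod_cast hk
        exact (mkmul _ _ _ _ _ _ _ _).trans (mkext (by push_cast; linarith)
          (by push_cast; linarith) (by push_cast; linarith) (by push_cast; linarith))
      · refine Or.inr ⟨a * a' - b * b' - c * c' - d * d' + (k - b' - c' - d'),
          a * b' + b * a' + c * d' - d * c' + (k - c'),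
          a * c' - b * d' + c * a' + d * b' + (k - d'),
          a * d' + b * c' - c * b' + d * a' + (k - b'), ?_⟩
        have h : (a' : ℚ) + b' + c' + d' = 2 * k + 1 := by exact_mod_cast hk
        exact (mkmul _ _ _ _ _ _ _ _).trans (mkext (by push_cast; linarith)
          (by push_cast; linarith) (by push_cast; linarith) (by push_cast; linarith))
    · rcases Int.even_or_odd' (a + b + c + d + (a' + b' + c' + d')) with ⟨k, hk | hk⟩
      · refine Or.inr ⟨a * a' - b * b' - c * c' - d * d' + (k - b - c - d - b' - c' - d') - 1,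
          a * b' + b * a' + c * d' - d * c' + (k - d - c'),
          a * c' - b * d' + c * a' + d * b' + (k - b - d'),
          a * d' + b * c' - c * b' + d * a' + (k - c - b'), ?_⟩
        have h : (a : ℚ) + b + c + d + (a' + b' + c' + d') = 2 * k := by exact_mod_cast hk
        exact (mkmul _ _ _ _ _ _ _ _).trans (mkext (by push_cast; linarith)
          (by push_cast; linarith) (by push_cast; linarith) (by push_cast; linarith))
      · refine Or.inl ⟨a * a' - b * b' - c * c' - d * d' + (k - b - c - d - b' - c' - d'),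
          a * b' + b * a' + c * d' - d * c' + (k - d - c') + 1,
          a * c' - b * d' + c * a' + d * b' + (k - b - d') + 1,
          a * d' + b * c' - c * b' + d * a' + (k - c - b') + 1, ?_⟩
        have h : (a : ℚ) + b + c + d + (a' + b' + c' + d') = 2 * k + 1 := by exact_mod_cast hk
        exact (mkmul _ _ _ _ _ _ _ _).trans (mkext (by push_cast; linarith)
          (by push_cast; linarith) (by push_cast; linarith) (by push_cast; linarith))

/-- **Hurwitz quaternions of norm `n`**: their number is `24` times the sum of the odd divisors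
of `n` -/
theorem card_hurwitz {n : ℕ} (hn : n ≠ 0) :
    {q : ℍ[ℚ] | q ∈ hurwitz ∧ Quaternion.normSq q = n}.ncard =
      24 * ∑ d ∈ n.divisors with Odd d, d := by
  have hf : Function.Injective halfQ := by
    rintro ⟨x, y, z, w⟩ ⟨x', y', z', w'⟩ h
    have h1 : (x : ℚ) / 2 = x' / 2 := congrArg (fun q : ℍ[ℚ] => q.re) h
    have h2 : (y : ℚ) / 2 = y' / 2 := congrArg (fun q : ℍ[ℚ] => q.imI) h
    have h3 : (z : ℚ) / 2 = z' / 2 := congrArg (fun q : ℍ[ℚ] => q.imJ) h
    have h4 : (w : ℚ) / 2 = w' / 2 := congrArg (fun q : ℍ[ℚ] => q.imK) h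
    have e1 : (x : ℚ) = x' := by linarith
    have e2 : (y : ℚ) = y' := by linarith
    have e3 : (z : ℚ) = z' := by linarith
    have e4 : (w : ℚ) = w' := by linarith
    rw [Prod.mk.injEq, Prod.mk.injEq, Prod.mk.injEq]
    exact ⟨by exact_mod_cast e1, by exact_mod_cast e2, by exact_mod_cast e3, by exact_mod_cast e4⟩
  have h4 := four_squares_even (n := 4 * n) (by omega) ((by decide : Even 4).mul_right n)
  have h5 : ∑ d ∈ (4 * n).divisors with Odd d, d = ∑ d ∈ n.divisors with Odd d, d := by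
    refine Finset.sum_congr ?_ fun _ _ => rfl
    ext d
    rw [mem_filter, mem_filter, Nat.mem_divisors, Nat.mem_divisors]
    constructor
    · rintro ⟨⟨h6, -⟩, h7⟩
      refine ⟨⟨?_, hn⟩, h7⟩
      have h8 : Nat.Coprime d 4 := by
        rw [show (4 : ℕ) = 2 ^ 2 by norm_num]
        exact Nat.Coprime.pow_right 2 (Nat.coprime_two_right.mpr h7)
      exact h8.dvd_of_dvd_mul_left h6
    · rintro ⟨⟨h6, -⟩, h7⟩
      exact ⟨⟨h6.mul_left 4, by omega⟩, h7⟩
  rw [← h5, ← h4, ← Set.ncard_image_of_injective _ hf]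
  congr 1
  ext q
  constructor
  · rintro ⟨⟨a, b, c, d, rfl⟩ | ⟨a, b, c, d, rfl⟩, h⟩
    · refine ⟨(2 * a, 2 * b, 2 * c, 2 * d), ?_, mkext (by push_cast; ring) (by push_cast; ring)
        (by push_cast; ring) (by push_cast; ring)⟩
      have h6 : (a : ℚ) ^ 2 + b ^ 2 + c ^ 2 + d ^ 2 = n := (normSq_mk _ _ _ _).symm.trans h
      have h7 : a ^ 2 + b ^ 2 + c ^ 2 + d ^ 2 = (n : ℤ) := by exact_mod_cast h6
      show (2 * a) ^ 2 + (2 * b) ^ 2 + (2 * c) ^ 2 + (2 * d) ^ 2 = ((4 * n : ℕ) : ℤ)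
      push_cast
      linarith
    · refine ⟨(2 * a + 1, 2 * b + 1, 2 * c + 1, 2 * d + 1), ?_, mkext (by push_cast; ring)
        (by push_cast; ring) (by push_cast; ring) (by push_cast; ring)⟩
      have h6 : ((a : ℚ) + 1 / 2) ^ 2 + (b + 1 / 2) ^ 2 + (c + 1 / 2) ^ 2 + (d + 1 / 2) ^ 2 = n :=
        (normSq_mk _ _ _ _).symm.trans h
      have h7 : (2 * a + 1) ^ 2 + (2 * b + 1) ^ 2 + (2 * c + 1) ^ 2 + (2 * d + 1) ^ 2 =
          4 * (n : ℤ) := by
        have h8 : (2 * (a : ℚ) + 1) ^ 2 + (2 * b + 1) ^ 2 + (2 * c + 1) ^ 2 + (2 * d + 1) ^ 2 =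
            4 * n := by linarith
        exact_mod_cast h8
      show (2 * a + 1) ^ 2 + (2 * b + 1) ^ 2 + (2 * c + 1) ^ 2 + (2 * d + 1) ^ 2 =
        ((4 * n : ℕ) : ℤ)
      push_cast
      exact h7
  · rintro ⟨⟨x, y, z, w⟩, h, rfl⟩
    have h6 : x ^ 2 + y ^ 2 + z ^ 2 + w ^ 2 = 4 * (n : ℤ) := by
      have : x ^ 2 + y ^ 2 + z ^ 2 + w ^ 2 = ((4 * n : ℕ) : ℤ) := h
      rw [this]
      push_cast
      rfl
    refine ⟨?_, ?_⟩
    · rcases parity h6 with ⟨⟨a, rfl⟩, ⟨b, rfl⟩, ⟨c, rfl⟩, ⟨d, rfl⟩⟩ |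
        ⟨⟨a, rfl⟩, ⟨b, rfl⟩, ⟨c, rfl⟩, ⟨d, rfl⟩⟩
      · exact Or.inr ⟨a, b, c, d, mkext (by push_cast; ring) (by push_cast; ring)
          (by push_cast; ring) (by push_cast; ring)⟩
      · exact Or.inl ⟨a, b, c, d, mkext (by push_cast; ring) (by push_cast; ring)
          (by push_cast; ring) (by push_cast; ring)⟩
    · have h7 : (x : ℚ) ^ 2 + y ^ 2 + z ^ 2 + w ^ 2 = 4 * n := by exact_mod_cast h6
      refine (normSq_mk _ _ _ _).trans ?_
      linarith

/-- there are `24` Hurwitz quaternions of norm `1` -/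
theorem card_hurwitz_units : {q : ℍ[ℚ] | q ∈ hurwitz ∧ Quaternion.normSq q = 1}.ncard = 24 := by
  have h := card_hurwitz one_ne_zero
  rw [Nat.cast_one] at h
  rw [h]
  decide

/-- for an odd prime `p` there are `24 (p + 1)` Hurwitz quaternions of norm `p` -/
theorem card_hurwitz_prime {p : ℕ} (hp : p.Prime) (h2 : p ≠ 2) :
    {q : ℍ[ℚ] | q ∈ hurwitz ∧ Quaternion.normSq q = p}.ncard = 24 * (p + 1) := by
  rw [card_hurwitz hp.ne_zero, hp.divisors, Finset.filter_true_of_mem, Finset.sum_insert,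
    Finset.sum_singleton, add_comm]
  · rw [mem_singleton]
    exact hp.one_lt.ne
  · intro d hd
    rw [mem_insert, mem_singleton] at hd
    rcases hd with rfl | rfl
    · exact odd_one
    · exact hp.odd_of_ne_two h2

end Fermat.Agent.Cor.Quat
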