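import Fermat.Agent.Corollaries.Quat.DTheta

/-!
# `E₈ ⊕ E₈` and `D⁺(16)` (Witt 1941, Milnor 1964)

The two even unimodular lattices `E₈ ⊕ E₈` and `D₁₆⁺` in dimension `16` have the same number of
vectors of every norm but are not isometric (so the tori `ℝ¹⁶ / L` are isospectral and not
isometric).
-/

set_option autoImplicit false

noncomputable section

namespace Fermat.Agent.Cor.Quat

open Finset

theorem nD_congr {ι κ : Type} [Fintype ι] [Fintype κ] (e : ι ≃ κ) (m : ℕ) : nD ι m = nD κ m := by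
  unfold nD
  rw [← Nat.card_coe_set_eq, ← Nat.card_coe_set_eq]
  refine Nat.card_congr ((e.arrowCongr (Equiv.refl ℚ)).subtypeEquiv fun x => ?_)
  have h1 : ∀ f : ℚ → ℚ, ∑ j, f (x (e.symm j)) = ∑ i, f (x i) := fun f =>
    Equiv.sum_comp e.symm fun i => f (x i)
  change ((((∀ i, ∃ k : ℤ, x i = k) ∨ (∀ i, ∃ k : ℤ, x i = k + 1 / 2)) ∧
    ∃ k : ℤ, ∑ i, x i = 2 * k) ∧ ∑ i, x i ^ 2 = m) ↔
    ((((∀ j, ∃ k : ℤ, x (e.symm j) = k) ∨ (∀ j, ∃ k : ℤ, x (e.symm j) = k + 1 / 2)) ∧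
    ∃ k : ℤ, ∑ j, x (e.symm j) = 2 * k) ∧ ∑ j, x (e.symm j) ^ 2 = m)
  rw [h1 fun t => t, h1 fun t => t ^ 2,
    e.symm.forall_congr_left (p := fun j => ∃ k : ℤ, x (e.symm j) = k),
    e.symm.forall_congr_left (p := fun j => ∃ k : ℤ, x (e.symm j) = k + 1 / 2)]
  simp only [Equiv.symm_symm, Equiv.symm_apply_apply]

theorem thetaD_congr {ι κ : Type} [Fintype ι] [Fintype κ] (e : ι ≃ κ) : thetaD ι = thetaD κ := by
  ext m
  rw [thetaD, thetaD, PowerSeries.coeff_mk, PowerSeries.coeff_mk, nD_congr e]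

theorem thetaD_eight : thetaD (Fin 8) = thetaD (Fin 2 × Fin 4) :=
  thetaD_congr (finProdFinEquiv (m := 2) (n := 4)).symm

theorem thetaD_sixteen : thetaD (Fin 16) = thetaD (Fin 4 × Fin 4) :=
  thetaD_congr (finProdFinEquiv (m := 4) (n := 4)).symm

/-- `θ(D⁺(16)) = θ(E₈)²` -/
theorem thetaD_sixteen_eq : thetaD (Fin 16) = thetaD (Fin 8) ^ 2 := by
  have h2 := two_mul_thetaD 2
  have h4 := two_mul_thetaD 4
  rw [← thetaD_eight] at h2
  rw [← thetaD_sixteen] at h4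
  have hJ := jacobi_identity
  set P := gf nsq
  set P' := PowerSeries.rescale (-1 : ℤ) P
  set O := gf osq
  have h : (4 : PowerSeries ℤ) * thetaD (Fin 16) = 4 * thetaD (Fin 8) ^ 2 := by
    have h5 : (4 : PowerSeries ℤ) * thetaD (Fin 8) ^ 2 = (2 * thetaD (Fin 8)) ^ 2 := by ring
    have h6 : (4 : PowerSeries ℤ) * thetaD (Fin 16) = 2 * (2 * thetaD (Fin 16)) := by ring
    rw [h5, h6, h2, h4, hJ]
    ring
  have h0 : (4 : PowerSeries ℤ) ≠ 0 := by
    intro h8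
    have h9 := congrArg (PowerSeries.constantCoeff (R := ℤ)) h8
    rw [map_ofNat, map_zero] at h9
    norm_num at h9
  exact mul_left_cancel₀ h0 h

/-- the natural number `∑ xᵢ²`, `x ∈ E₈` -/
def nE (x : E8) : ℕ := 2 * (E8_even x.2).choose

theorem nE_spec (x : E8) : qn x.1 = nE x := by
  refine ((E8_even x.2).choose_spec).trans ?_
  unfold nE
  push_cast
  rfl

theorem nE_eq_iff (x : E8) (m : ℕ) : nE x = m ↔ qn x.1 = m := by
  rw [nE_spec, Nat.cast_inj]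

theorem card_nE (m : ℕ) : Nat.card {x // nE x = m} = nD (Fin 8) m := by
  unfold nD
  rw [← Nat.card_coe_set_eq]
  exact Nat.card_congr
    { toFun := fun x => ⟨x.1.1, x.1.2, (nE_eq_iff _ _).mp x.2⟩
      invFun := fun x => ⟨⟨x.1, x.2.1⟩, (nE_eq_iff _ _).mpr x.2.2⟩
      left_inv := fun x => rfl
      right_inv := fun x => rfl }

theorem finite_nE (m : ℕ) : Finite {x // nE x = m} := by
  have := (finite_norm (ι := Fin 8) m).to_subtype
  refine Finite.of_injective (β := ↥{x : Fin 8 → ℚ | x ∈ Dplus (Fin 8) ∧ qn x = m})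
    (fun x => ⟨x.1.1, x.1.2, (nE_eq_iff _ _).mp x.2⟩) ?_
  intro x y h
  have h1 := Subtype.ext_iff.mp h
  exact Subtype.ext (Subtype.ext h1)

theorem gf_nE : gf nE = thetaD (Fin 8) := by
  ext m
  rw [coeff_gf, thetaD, PowerSeries.coeff_mk, card_nE]

/-- `E₈ ⊕ E₈` and `D₁₆⁺` have the same number of vectors of norm `m` -/
theorem card_sum_eq (m : ℕ) :
    {x : (Fin 8 → ℚ) × (Fin 8 → ℚ) | x ∈ E8.prod E8 ∧ qn x.1 + qn x.2 = m}.ncard =
      {x : Fin 16 → ℚ | x ∈ Dplus (Fin 16) ∧ qn x = m}.ncard := by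
  have h1 : (nD (Fin 16) m : ℤ) = (Nat.card {p : E8 × E8 // nE p.1 + nE p.2 = m} : ℤ) := by
    have h2 := congrArg (PowerSeries.coeff m) thetaD_sixteen_eq
    rw [← gf_nE, sq, ← gf_prod finite_nE finite_nE, coeff_gf, thetaD, PowerSeries.coeff_mk] at h2
    exact h2
  change _ = nD (Fin 16) m
  rw [Nat.cast_inj.mp h1, ← Nat.card_coe_set_eq]
  refine Nat.card_congr
    { toFun := fun x => ⟨(⟨x.1.1, (AddSubgroup.mem_prod.mp x.2.1).1⟩,
        ⟨x.1.2, (AddSubgroup.mem_prod.mp x.2.1).2⟩), ?_⟩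
      invFun := fun p => ⟨(p.1.1.1, p.1.2.1), AddSubgroup.mem_prod.mpr ⟨p.1.1.2, p.1.2.2⟩, ?_⟩
      left_inv := fun x => rfl
      right_inv := fun p => rfl }
  · have h2 := x.2.2
    have h3 := nE_spec ⟨x.1.1, (AddSubgroup.mem_prod.mp x.2.1).1⟩
    have h4 := nE_spec ⟨x.1.2, (AddSubgroup.mem_prod.mp x.2.1).2⟩
    dsimp only at h3 h4 ⊢
    rw [← Nat.cast_inj (R := ℚ), Nat.cast_add]
    linarith
  · have h2 := p.2
    have h3 := nE_spec p.1.1
    have h4 := nE_spec p.1.2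
    rw [← Nat.cast_inj (R := ℚ), Nat.cast_add] at h2
    dsimp only
    linarith

/-! ### `E₈` is generated by its vectors of norm `2` -/

theorem root2_add (v w : Fin 8 → ℤ) : root2 (v + w) = root2 v + root2 w := by
  funext i
  fin_cases i <;> simp [root2] <;> ring

theorem root2_zero : root2 0 = 0 := by
  funext i
  fin_cases i <;> simp [root2]

theorem root2_neg (v : Fin 8 → ℤ) : root2 (-v) = -root2 v := by
  have h := root2_add v (-v)
  rw [add_neg_cancel, root2_zero] at h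
  exact (neg_eq_of_add_eq_zero_right h.symm).symm

theorem fH_root2_mem (v : Fin 8 → ℤ) : fH (root2 v) ∈ E8 := by
  obtain ⟨h1, k, hk⟩ := (mem_range_root2 (root2 v)).mp ⟨v, rfl⟩
  refine ⟨?_, k, ?_⟩
  · rcases h1 with h | h
    · refine Or.inl fun i => ?_
      obtain ⟨a, ha⟩ := (h i).two_dvd
      exact ⟨a, by simp only [fH, ha]; push_cast; ring⟩
    · refine Or.inr fun i => ?_
      obtain ⟨a, ha⟩ := h i
      exact ⟨a, by simp only [fH, ha]; push_cast; ring⟩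
  · simp only [fH, ← Finset.sum_div]
    have h3 : (∑ i, (root2 v i : ℚ)) = ((4 * k : ℤ) : ℚ) := by exact_mod_cast hk
    rw [h3]
    push_cast
    ring

theorem qn_fH_root2 (v : Fin 8 → ℤ) :
    qn (fH (root2 v)) = ((v ⬝ᵥ (CartanMatrix.E₈.mulVec v) : ℤ) : ℚ) := by
  have h := root2_sq v
  have h1 : (∑ i, (root2 v i : ℚ) ^ 2) = ((4 * (v ⬝ᵥ (CartanMatrix.E₈.mulVec v)) : ℤ) : ℚ) := by
    exact_mod_cast h
  simp only [qn, fH, div_pow, ← Finset.sum_div]
  rw [h1]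
  push_cast
  ring

theorem qn_simple (i : Fin 8) : qn (fH (root2 (Pi.single i 1))) = 2 := by
  rw [qn_fH_root2]
  have h : ∀ i : Fin 8, (Pi.single i (1 : ℤ) : Fin 8 → ℤ) ⬝ᵥ
      (CartanMatrix.E₈.mulVec (Pi.single i 1)) = 2 := by
    intro i
    rw [Matrix.mulVec_single_one, single_one_dotProduct]
    fin_cases i <;> rfl
  rw [h i]
  norm_num

/-- `E₈` is generated by its roots -/
theorem E8_le_closure : E8 ≤ AddSubgroup.closure {x | x ∈ E8 ∧ qn x = 2} := by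
  set C := AddSubgroup.closure {x | x ∈ E8 ∧ qn x = 2} with hC
  have h1 : ∀ i : Fin 8, fH (root2 (Pi.single i 1)) ∈ C := fun i =>
    AddSubgroup.subset_closure ⟨fH_root2_mem _, qn_simple i⟩
  let f : (Fin 8 → ℤ) →+ (Fin 8 → ℚ) :=
    { toFun := fun v => fH (root2 v)
      map_zero' := by
        funext i
        simp only [fH, root2_zero]
        simp
      map_add' := fun v w => by
        funext i
        simp only [fH, root2_add, Pi.add_apply]
        push_cast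
        ring }
  have h2 : ∀ v, f v ∈ C := by
    intro v
    have h3 : v = ∑ i, v i • (Pi.single i 1 : Fin 8 → ℤ) := by
      funext j
      simp [Finset.sum_apply, Pi.single_apply]
    rw [h3, map_sum]
    refine AddSubgroup.sum_mem _ fun i _ => ?_
    rw [map_zsmul]
    exact AddSubgroup.zsmul_mem _ (h1 i) _
  rintro x ⟨h3, k, hk⟩
  obtain ⟨y, hy, hpar⟩ : ∃ y : Fin 8 → ℤ, (∀ i, x i = (y i : ℚ) / 2) ∧
      ((∀ i, Even (y i)) ∨ (∀ i, Odd (y i))) := by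
    rcases h3 with h3 | h3
    · choose z hz using h3
      exact ⟨fun i => 2 * z i, fun i => by rw [hz]; push_cast; ring,
        Or.inl fun i => even_two_mul (z i)⟩
    · choose z hz using h3
      exact ⟨fun i => 2 * z i + 1, fun i => by rw [hz]; push_cast; ring,
        Or.inr fun i => ⟨z i, rfl⟩⟩
  have h4 : 4 ∣ ∑ i, y i := by
    refine ⟨k, ?_⟩
    simp only [hy, ← Finset.sum_div] at hk
    have h5 : (∑ i, (y i : ℚ)) = ((4 * k : ℤ) : ℚ) := by push_cast; linarith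
    exact_mod_cast h5
  obtain ⟨v, rfl⟩ := (mem_range_root2 y).mpr ⟨hpar, h4⟩
  have h5 : x = f v := funext hy
  rw [h5]
  exact h2 v

/-! ### the lattices are not isometric -/

/-- vectors of norm `2` of `D₁₆⁺` are integral -/
theorem integral_of_norm_two {x : Fin 16 → ℚ} (hx : x ∈ Dplus (Fin 16)) (h2 : qn x = 2) :
    ∀ i, ∃ k : ℤ, x i = k := by
  obtain ⟨h1 | h1, -⟩ := hx
  · exact h1
  · exfalso
    have h3 : ∀ i, (1 : ℚ) / 4 ≤ x i ^ 2 := fun i => by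
      obtain ⟨k, hk⟩ := h1 i
      have h4 : (0 : ℚ) ≤ (k : ℚ) * (k + 1) := by
        have h5 : (0 : ℤ) ≤ k * (k + 1) := by
          rcases le_or_gt 0 k with h | h
          · positivity
          · have : k + 1 ≤ 0 := by omega
            exact mul_nonneg_of_nonpos_of_nonpos h.le this
        exact_mod_cast h5
      rw [hk]
      nlinarith
    have h4 : ∑ _i : Fin 16, (1 : ℚ) / 4 ≤ qn x := Finset.sum_le_sum fun i _ => h3 i
    simp only [Finset.sum_const, Finset.card_univ, Fintype.card_fin, nsmul_eq_mul] at h4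
    rw [h2] at h4
    norm_num at h4

/-- the integral vectors as a subgroup -/
def intSub : AddSubgroup (Fin 16 → ℚ) where
  carrier := {x | ∀ i, ∃ k : ℤ, x i = k}
  zero_mem' := fun _ => ⟨0, by simp⟩
  add_mem' := fun {x y} hx hy i => by
    obtain ⟨a, ha⟩ := hx i
    obtain ⟨b, hb⟩ := hy i
    exact ⟨a + b, by simp only [Pi.add_apply, ha, hb]; push_cast; rfl⟩
  neg_mem' := fun {x} hx i => by
    obtain ⟨a, ha⟩ := hx i
    exact ⟨-a, by simp only [Pi.neg_apply, ha]; push_cast; rfl⟩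

/-- the vector `(1/2, …, 1/2)` -/
theorem half_mem : (fun _ => 1 / 2 : Fin 16 → ℚ) ∈ Dplus (Fin 16) :=
  ⟨Or.inr fun _ => ⟨0, by norm_num⟩, 4, by
    simp only [Finset.sum_const, Finset.card_univ, Fintype.card_fin, nsmul_eq_mul]
    norm_num⟩

/-- there is no isometry `E₈ ⊕ E₈ ≃ D₁₆⁺` -/
theorem not_isometric (φ : E8.prod E8 ≃+ Dplus (Fin 16))
    (hφ : ∀ x, qn (φ x).1 = qn x.1.1 + qn x.1.2) : False := by
  have hq0 : qn (0 : Fin 8 → ℚ) = 0 := by simp [qn]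
  -- the images of `E₈ ⊕ 0` and of `0 ⊕ E₈` are integral
  have h1 : ∀ x (hx : x ∈ E8), (φ ⟨(x, 0), AddSubgroup.mem_prod.mpr ⟨hx, E8.zero_mem⟩⟩).1 ∈
      intSub := by
    let g : E8 →+ (Fin 16 → ℚ) :=
      (Dplus (Fin 16)).subtype.comp (φ.toAddMonoidHom.comp
        { toFun := fun x => ⟨(x.1, 0), AddSubgroup.mem_prod.mpr ⟨x.2, E8.zero_mem⟩⟩
          map_zero' := rfl
          map_add' := fun x y => Subtype.ext (Prod.ext rfl (add_zero 0).symm) })
    have h2 : (intSub.comap g).map E8.subtype ≥ AddSubgroup.closure {x | x ∈ E8 ∧ qn x = 2} := by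
      rw [ge_iff_le, AddSubgroup.closure_le]
      rintro x ⟨hx, hx2⟩
      refine ⟨⟨x, hx⟩, ?_, rfl⟩
      refine integral_of_norm_two (φ _).2 ?_
      refine (hφ ⟨(x, 0), AddSubgroup.mem_prod.mpr ⟨hx, E8.zero_mem⟩⟩).trans ?_
      change qn x + qn 0 = 2
      rw [hx2, hq0, add_zero]
    intro x hx
    obtain ⟨y, hy, hyx⟩ := h2 (E8_le_closure hx)
    obtain ⟨y, hy'⟩ := y
    change y = x at hyx
    subst hyx
    exact hy
  have h1' : ∀ x (hx : x ∈ E8), (φ ⟨(0, x), AddSubgroup.mem_prod.mpr ⟨E8.zero_mem, hx⟩⟩).1 ∈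
      intSub := by
    let g : E8 →+ (Fin 16 → ℚ) :=
      (Dplus (Fin 16)).subtype.comp (φ.toAddMonoidHom.comp
        { toFun := fun x => ⟨(0, x.1), AddSubgroup.mem_prod.mpr ⟨E8.zero_mem, x.2⟩⟩
          map_zero' := rfl
          map_add' := fun x y => Subtype.ext (Prod.ext (add_zero 0).symm rfl) })
    have h2 : (intSub.comap g).map E8.subtype ≥ AddSubgroup.closure {x | x ∈ E8 ∧ qn x = 2} := by
      rw [ge_iff_le, AddSubgroup.closure_le]
      rintro x ⟨hx, hx2⟩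
      refine ⟨⟨x, hx⟩, ?_, rfl⟩
      refine integral_of_norm_two (φ _).2 ?_
      refine (hφ ⟨(0, x), AddSubgroup.mem_prod.mpr ⟨E8.zero_mem, hx⟩⟩).trans ?_
      change qn 0 + qn x = 2
      rw [hx2, hq0, zero_add]
    intro x hx
    obtain ⟨y, hy, hyx⟩ := h2 (E8_le_closure hx)
    obtain ⟨y, hy'⟩ := y
    change y = x at hyx
    subst hyx
    exact hy
  obtain ⟨⟨⟨x, y⟩, hxy⟩, hx⟩ := φ.surjective ⟨_, half_mem⟩
  obtain ⟨hx8, hy8⟩ := AddSubgroup.mem_prod.mp hxy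
  have h3 : (⟨(x, y), hxy⟩ : E8.prod E8) =
      ⟨(x, 0), AddSubgroup.mem_prod.mpr ⟨hx8, E8.zero_mem⟩⟩ +
        ⟨(0, y), AddSubgroup.mem_prod.mpr ⟨E8.zero_mem, hy8⟩⟩ :=
    Subtype.ext (Prod.ext (add_zero x).symm (zero_add y).symm)
  rw [h3, map_add] at hx
  have h4 : (fun _ => 1 / 2 : Fin 16 → ℚ) ∈ intSub := by
    have h5 := intSub.add_mem (h1 x hx8) (h1' y hy8)
    have h6 := congrArg Subtype.val hx
    rw [AddSubgroup.coe_add] at h6
    rwa [h6] at h5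
  obtain ⟨k, hk⟩ := h4 0
  have h7 : ((2 * k : ℤ) : ℚ) = ((1 : ℤ) : ℚ) := by
    push_cast
    linarith
  have h8 : 2 * k = 1 := by exact_mod_cast h7
  omega

/-- **Witt, Milnor**: the lattices `E₈ ⊕ E₈` and `D₁₆⁺` have the same number of vectors of every
norm, and they are not isometric -/
theorem milnor :
    (∀ m : ℚ, {x : (Fin 8 → ℚ) × (Fin 8 → ℚ) | x ∈ E8.prod E8 ∧
        ∑ i, x.1 i ^ 2 + ∑ i, x.2 i ^ 2 = m}.ncard =
      {x : Fin 16 → ℚ | x ∈ Dplus (Fin 16) ∧ ∑ i, x i ^ 2 = m}.ncard) ∧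
    ¬ ∃ φ : E8.prod E8 ≃+ Dplus (Fin 16),
      ∀ x, ∑ i, (φ x).1 i ^ 2 = ∑ i, x.1.1 i ^ 2 + ∑ i, x.1.2 i ^ 2 := by
  refine ⟨fun m => ?_, fun ⟨φ, hφ⟩ => not_isometric φ hφ⟩
  by_cases hm : ∃ k : ℕ, m = k
  · obtain ⟨k, rfl⟩ := hm
    exact card_sum_eq k
  · have h1 : {x : (Fin 8 → ℚ) × (Fin 8 → ℚ) | x ∈ E8.prod E8 ∧
        ∑ i, x.1 i ^ 2 + ∑ i, x.2 i ^ 2 = m} = ∅ := by
      rw [Set.eq_empty_iff_forall_notMem]
      rintro x ⟨hx, h⟩
      obtain ⟨a, ha⟩ := E8_even (AddSubgroup.mem_prod.mp hx).1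
      obtain ⟨b, hb⟩ := E8_even (AddSubgroup.mem_prod.mp hx).2
      refine hm ⟨2 * a + 2 * b, ?_⟩
      rw [← h, ha, hb]
      push_cast
      rfl
    have h2 : {x : Fin 16 → ℚ | x ∈ Dplus (Fin 16) ∧ ∑ i, x i ^ 2 = m} = ∅ := by
      rw [Set.eq_empty_iff_forall_notMem]
      rintro x ⟨hx, h⟩
      obtain ⟨a, ha⟩ := Dplus_even (by rw [Fintype.card_fin]; norm_num) hx
      refine hm ⟨2 * a, ?_⟩
      rw [← h]
      refine ha.trans ?_
      push_cast
      rfl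
    rw [h1, h2, Set.ncard_empty, Set.ncard_empty]

end Fermat.Agent.Cor.Quat
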