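import Fermat.Agent.Corollaries.Quat.Delta

/-!
# Two Niemeier lattices and Ramanujan's `τ`

The even unimodular lattices `E₈ ⊕ E₈ ⊕ E₈` and `D₂₄⁺` in dimension `24`:
`#{x ∈ D₂₄⁺ : |x|² = 2n} = #{x ∈ E₈³ : |x|² = 2n} + 384 τ(n)`.
-/

set_option autoImplicit false

noncomputable section

namespace Fermat.Agent.Cor.Quat

open Finset

theorem thetaD_twentyfour : thetaD (Fin 24) = thetaD (Fin 6 × Fin 4) :=
  thetaD_congr (finProdFinEquiv (m := 6) (n := 4)).symm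

/-- `θ(D₂₄⁺) = θ(E₈)³ + 384 Δ(t²)` -/
theorem thetaD_twentyfour_eq :
    thetaD (Fin 24) = thetaD (Fin 8) ^ 3 + 384 * PowerSeries.mk tau2 := by
  have h2 := two_mul_thetaD 2
  have h6 := two_mul_thetaD 6
  have hT := theta_product
  rw [← thetaD_eight] at h2
  rw [← thetaD_twentyfour] at h6
  have hJ := jacobi_identity
  set P := gf nsq
  set P' := PowerSeries.rescale (-1 : ℤ) P
  set O := gf osq
  set T := PowerSeries.mk tau2
  have h : (8 : PowerSeries ℤ) * thetaD (Fin 24) = 8 * (thetaD (Fin 8) ^ 3 + 384 * T) := by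
    have h7 : (8 : PowerSeries ℤ) * (thetaD (Fin 8) ^ 3 + 384 * T) =
        (2 * thetaD (Fin 8)) ^ 3 + 12 * (256 * T) := by ring
    have h8 : (8 : PowerSeries ℤ) * thetaD (Fin 24) = 4 * (2 * thetaD (Fin 24)) := by ring
    rw [h7, h8, h2, h6, ← hT, hJ]
    ring
  have h0 : (8 : PowerSeries ℤ) ≠ 0 := by
    intro h8
    have h9 := congrArg (PowerSeries.constantCoeff (R := ℤ)) h8
    rw [map_ofNat, map_zero] at h9
    norm_num at h9
  exact mul_left_cancel₀ h0 h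

/-! ### counting in `E₈ ⊕ E₈ ⊕ E₈` -/

theorem finite_add {A B : Type} {f : A → ℕ} {g : B → ℕ}
    (hfin : ∀ n : ℕ, Finite {a // f a = n}) (hgin : ∀ n : ℕ, Finite {b // g b = n}) (n : ℕ) :
    Finite {p : A × B // f p.1 + g p.2 = n} := by
  have h1 : (⋃ m ∈ range (n + 1), {a | f a = m}).Finite :=
    Set.Finite.biUnion (range (n + 1)).finite_toSet fun m _ => Set.finite_coe_iff.mp (hfin m)
  have h2 : (⋃ m ∈ range (n + 1), {b | g b = m}).Finite :=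
    Set.Finite.biUnion (range (n + 1)).finite_toSet fun m _ => Set.finite_coe_iff.mp (hgin m)
  refine Set.finite_coe_iff.mpr ((h1.prod h2).subset ?_)
  rintro ⟨a, b⟩ h
  have h3 : f a + g b = n := h
  exact ⟨Set.mem_biUnion (x := f a) (mem_coe.mpr (mem_range.mpr (by omega))) rfl,
    Set.mem_biUnion (x := g b) (mem_coe.mpr (mem_range.mpr (by omega))) rfl⟩

/-- number of vectors of norm `m` of `E₈ ⊕ E₈ ⊕ E₈` -/
theorem card_E8_cube (m : ℕ) :
    ({x : (Fin 8 → ℚ) × (Fin 8 → ℚ) × (Fin 8 → ℚ) | x ∈ E8.prod (E8.prod E8) ∧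
      qn x.1 + (qn x.2.1 + qn x.2.2) = m}.ncard : ℤ) =
      PowerSeries.coeff m (thetaD (Fin 8) ^ 3) := by
  have h1 : thetaD (Fin 8) ^ 3 =
      gf (fun p : E8 × (E8 × E8) => nE p.1 + (nE p.2.1 + nE p.2.2)) := by
    rw [gf_prod finite_nE (finite_add finite_nE finite_nE), gf_prod finite_nE finite_nE, gf_nE]
    ring
  rw [h1, coeff_gf, Nat.cast_inj, ← Nat.card_coe_set_eq]
  refine Nat.card_congr
    { toFun := fun x => ⟨(⟨x.1.1, (AddSubgroup.mem_prod.mp x.2.1).1⟩,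
        (⟨x.1.2.1, (AddSubgroup.mem_prod.mp (AddSubgroup.mem_prod.mp x.2.1).2).1⟩,
          ⟨x.1.2.2, (AddSubgroup.mem_prod.mp (AddSubgroup.mem_prod.mp x.2.1).2).2⟩)), ?_⟩
      invFun := fun p => ⟨(p.1.1.1, (p.1.2.1.1, p.1.2.2.1)),
        AddSubgroup.mem_prod.mpr ⟨p.1.1.2, AddSubgroup.mem_prod.mpr ⟨p.1.2.1.2, p.1.2.2.2⟩⟩, ?_⟩
      left_inv := fun x => rfl
      right_inv := fun p => rfl }
  · have h2 := x.2.2
    have h3 := nE_spec ⟨x.1.1, (AddSubgroup.mem_prod.mp x.2.1).1⟩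
    have h4 := nE_spec ⟨x.1.2.1,
      (AddSubgroup.mem_prod.mp (AddSubgroup.mem_prod.mp x.2.1).2).1⟩
    have h5 := nE_spec ⟨x.1.2.2,
      (AddSubgroup.mem_prod.mp (AddSubgroup.mem_prod.mp x.2.1).2).2⟩
    dsimp only at h3 h4 h5 ⊢
    rw [← Nat.cast_inj (R := ℚ), Nat.cast_add, Nat.cast_add]
    linarith
  · have h2 := p.2
    have h3 := nE_spec p.1.1
    have h4 := nE_spec p.1.2.1
    have h5 := nE_spec p.1.2.2
    rw [← Nat.cast_inj (R := ℚ), Nat.cast_add, Nat.cast_add] at h2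
    dsimp only
    linarith

/-- **`#{x ∈ D₂₄⁺ : |x|² = 2n} = #{x ∈ E₈³ : |x|² = 2n} + 384 τ(n)`** -/
theorem card_D24 (n : ℕ) :
    ({x : Fin 24 → ℚ | x ∈ Dplus (Fin 24) ∧ ∑ i, x i ^ 2 = 2 * n}.ncard : ℤ) =
      {x : (Fin 8 → ℚ) × (Fin 8 → ℚ) × (Fin 8 → ℚ) | x ∈ E8.prod (E8.prod E8) ∧
        ∑ i, x.1 i ^ 2 + (∑ i, x.2.1 i ^ 2 + ∑ i, x.2.2 i ^ 2) = 2 * n}.ncard +
      384 * Tau.tau n := by
  have h1 := card_E8_cube (2 * n)
  have h2 := congrArg (PowerSeries.coeff (2 * n)) thetaD_twentyfour_eq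
  have h3 : PowerSeries.coeff (2 * n) ((384 : PowerSeries ℤ) * PowerSeries.mk tau2) =
      384 * Tau.tau n := by
    rw [show (384 : PowerSeries ℤ) = PowerSeries.C (384 : ℤ) by simp, PowerSeries.coeff_C_mul,
      PowerSeries.coeff_mk, tau2, if_pos (dvd_mul_right 2 n),
      Nat.mul_div_cancel_left n (by norm_num)]
  rw [map_add, ← h1, h3, thetaD, PowerSeries.coeff_mk, nD] at h2
  push_cast at h2
  exact h2

end Fermat.Agent.Cor.Quat
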