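import Fermat.Agent.Corollaries.Quat.Cor

/-!
# Four odd squares and four triangular numbers

**Jacobi, Legendre**: for `m` odd, `4 m` is in exactly `16 σ(m)` ways a sum of four odd squares;
every `n` is in exactly `σ(2 n + 1)` ways a sum of four triangular numbers (with order).
-/

set_option autoImplicit false

namespace Fermat.Agent.Cor.Quat

open Finset

/-- the odd number with sign `s` and absolute value `2 a + 1` -/
def sg (s : Bool) (a : ℕ) : ℤ := if s then 2 * a + 1 else -(2 * a + 1)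

theorem sg_sq (s : Bool) (a : ℕ) : sg s a ^ 2 = (2 * (a : ℤ) + 1) ^ 2 := by
  cases s
  · simp only [sg, Bool.false_eq_true, if_false]; ring
  · simp only [sg, if_true]

theorem odd_sg (s : Bool) (a : ℕ) : Odd (sg s a) := by
  cases s
  · exact ⟨-a - 1, by simp [sg]; ring⟩
  · exact ⟨a, by simp [sg]⟩

theorem decide_sg (s : Bool) (a : ℕ) : decide (0 < sg s a) = s := by
  cases s
  · simp only [sg, Bool.false_eq_true, if_false, decide_eq_false_iff_not]; omega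
  · simp only [sg, if_true, decide_eq_true_eq]; omega

theorem natAbs_sg (s : Bool) (a : ℕ) : ((sg s a).natAbs - 1) / 2 = a := by
  cases s
  · simp only [sg, Bool.false_eq_true, if_false]; omega
  · simp only [sg, if_true]; omega

theorem sg_eq {x : ℤ} (hx : Odd x) : sg (decide (0 < x)) ((x.natAbs - 1) / 2) = x := by
  obtain ⟨k, rfl⟩ := hx
  by_cases h : 0 < 2 * k + 1
  · simp only [h, decide_true, sg, if_true]; omega
  · simp only [h, decide_false, sg, Bool.false_eq_true, if_false]; omega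

/-- four odd integers = four signs and four natural numbers -/
def oddEquiv (m : ℕ) :
    {v : ℤ × ℤ × ℤ × ℤ // (Odd v.1 ∧ Odd v.2.1 ∧ Odd v.2.2.1 ∧ Odd v.2.2.2) ∧
      v.1 ^ 2 + v.2.1 ^ 2 + v.2.2.1 ^ 2 + v.2.2.2 ^ 2 = (m : ℤ)} ≃
    (Bool × Bool × Bool × Bool) × {a : ℕ × ℕ × ℕ × ℕ // (2 * a.1 + 1) ^ 2 +
      (2 * a.2.1 + 1) ^ 2 + (2 * a.2.2.1 + 1) ^ 2 + (2 * a.2.2.2 + 1) ^ 2 = m} where
  toFun v := ((decide (0 < v.1.1), decide (0 < v.1.2.1), decide (0 < v.1.2.2.1),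
      decide (0 < v.1.2.2.2)),
    ⟨((v.1.1.natAbs - 1) / 2, (v.1.2.1.natAbs - 1) / 2, (v.1.2.2.1.natAbs - 1) / 2,
      (v.1.2.2.2.natAbs - 1) / 2), by
        obtain ⟨⟨x, y, z, w⟩, ⟨hx, hy, hz, hw⟩, h⟩ := v
        dsimp only at hx hy hz hw h ⊢
        have key : ∀ {x : ℤ}, Odd x → (2 * (((x.natAbs - 1) / 2 : ℕ) : ℤ) + 1) ^ 2 = x ^ 2 :=
          fun {x} hx => by rw [← sg_sq (decide (0 < x)), sg_eq hx]
        rw [← Int.natCast_inj]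
        simp only [Nat.cast_add, Nat.cast_pow, Nat.cast_mul, Nat.cast_ofNat, Nat.cast_one]
        rw [key hx, key hy, key hz, key hw, h]⟩)
  invFun p := ⟨(sg p.1.1 p.2.1.1, sg p.1.2.1 p.2.1.2.1, sg p.1.2.2.1 p.2.1.2.2.1,
      sg p.1.2.2.2 p.2.1.2.2.2), ⟨odd_sg _ _, odd_sg _ _, odd_sg _ _, odd_sg _ _⟩, by
        have h := p.2.2
        simp only [sg_sq]
        exact_mod_cast h⟩
  left_inv v := by
    obtain ⟨⟨x, y, z, w⟩, ⟨hx, hy, hz, hw⟩, h⟩ := v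
    apply Subtype.ext
    simp only [sg_eq hx, sg_eq hy, sg_eq hz, sg_eq hw]
  right_inv p := by
    obtain ⟨⟨s, t, u, v⟩, ⟨⟨a, b, c, d⟩, h⟩⟩ := p
    simp only [decide_sg, natAbs_sg]

theorem sq_mod_four (x : ℤ) : (Odd x ∧ x ^ 2 % 4 = 1) ∨ (Even x ∧ x ^ 2 % 4 = 0) := by
  rcases Int.even_or_odd x with h | h
  · refine Or.inr ⟨h, ?_⟩
    obtain ⟨k, rfl⟩ := h
    ring_nf
    omega
  · refine Or.inl ⟨h, ?_⟩
    obtain ⟨k, rfl⟩ := h
    ring_nf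
    omega

/-- a multiple of four is a sum of four squares of the same parity only -/
theorem parity {x y z w m : ℤ} (h : x ^ 2 + y ^ 2 + z ^ 2 + w ^ 2 = 4 * m) :
    (Odd x ∧ Odd y ∧ Odd z ∧ Odd w) ∨ (Even x ∧ Even y ∧ Even z ∧ Even w) := by
  rcases sq_mod_four x with ⟨hx, h1⟩ | ⟨hx, h1⟩ <;> rcases sq_mod_four y with ⟨hy, h2⟩ | ⟨hy, h2⟩ <;>
    rcases sq_mod_four z with ⟨hz, h3⟩ | ⟨hz, h3⟩ <;>
    rcases sq_mod_four w with ⟨hw, h4⟩ | ⟨hw, h4⟩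
  all_goals first
    | exact Or.inl ⟨hx, hy, hz, hw⟩
    | exact Or.inr ⟨hx, hy, hz, hw⟩
    | (exfalso; omega)

/-- **Jacobi**: for `m` odd the number of `(x, y, z, w) ∈ ℤ⁴`, all odd, with
`x² + y² + z² + w² = 4 m` is `16 σ(m)` -/
theorem card_four_odd_squares {m : ℕ} (hm : Odd m) :
    {(x, y, z, w) : ℤ × ℤ × ℤ × ℤ | (Odd x ∧ Odd y ∧ Odd z ∧ Odd w) ∧
      x ^ 2 + y ^ 2 + z ^ 2 + w ^ 2 = 4 * m}.ncard = 16 * ∑ d ∈ m.divisors, d := by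
  have hm0 : m ≠ 0 := hm.pos.ne'
  set S : Set (ℤ × ℤ × ℤ × ℤ) :=
    {(x, y, z, w) : ℤ × ℤ × ℤ × ℤ | x ^ 2 + y ^ 2 + z ^ 2 + w ^ 2 = ((4 * m : ℕ) : ℤ)} with hS
  set O : Set (ℤ × ℤ × ℤ × ℤ) := {(x, y, z, w) : ℤ × ℤ × ℤ × ℤ |
    (Odd x ∧ Odd y ∧ Odd z ∧ Odd w) ∧ x ^ 2 + y ^ 2 + z ^ 2 + w ^ 2 = 4 * m} with hO
  set T : Set (ℤ × ℤ × ℤ × ℤ) :=
    {(x, y, z, w) : ℤ × ℤ × ℤ × ℤ | x ^ 2 + y ^ 2 + z ^ 2 + w ^ 2 = (m : ℤ)} with hT
  let f : ℤ × ℤ × ℤ × ℤ → ℤ × ℤ × ℤ × ℤ := fun v => (2 * v.1, 2 * v.2.1, 2 * v.2.2.1, 2 * v.2.2.2)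
  have hf : Function.Injective f := by
    rintro ⟨x, y, z, w⟩ ⟨x', y', z', w'⟩ h
    simp only [f, Prod.mk.injEq] at h ⊢
    omega
  have hU : S = O ∪ f '' T := by
    ext ⟨x, y, z, w⟩
    simp only [hS, hO, hT, Set.mem_ofPred_eq, Set.mem_union, Set.mem_image, f]
    push_cast
    constructor
    · intro h
      rcases parity h with h1 | ⟨hx, hy, hz, hw⟩
      · exact Or.inl ⟨h1, h⟩
      · obtain ⟨x, rfl⟩ := even_iff_two_dvd.mp hx
        obtain ⟨y, rfl⟩ := even_iff_two_dvd.mp hy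
        obtain ⟨z, rfl⟩ := even_iff_two_dvd.mp hz
        obtain ⟨w, rfl⟩ := even_iff_two_dvd.mp hw
        refine Or.inr ⟨(x, y, z, w), ?_, rfl⟩
        show x ^ 2 + y ^ 2 + z ^ 2 + w ^ 2 = (m : ℤ)
        linarith
    · rintro (⟨-, h⟩ | ⟨⟨x', y', z', w'⟩, h, he⟩)
      · exact h
      · simp only [Prod.mk.injEq] at he
        obtain ⟨rfl, rfl, rfl, rfl⟩ := he
        change x' ^ 2 + y' ^ 2 + z' ^ 2 + w' ^ 2 = (m : ℤ) at h
        linarith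
  have hfin : S.Finite := finite_solutions (fun x y z w => x ^ 2 + y ^ 2 + z ^ 2 + w ^ 2)
    ⟨1, 0, 1⟩ ⟨1, 0, 1⟩ 1 (pos_mk 1 0 1 (by norm_num) (by norm_num))
    (pos_mk 1 0 1 (by norm_num) (by norm_num)) one_pos
    (fun x y z w => by simp only [LTF.Theta.BQ.ev, Int.cast_id]; push_cast; ring) (4 * m)
  have hdisj : Disjoint O (f '' T) := by
    rw [Set.disjoint_left]
    rintro ⟨x, y, z, w⟩ ⟨⟨hx, -⟩, -⟩ ⟨⟨x', y', z', w'⟩, -, h⟩
    simp only [f, Prod.mk.injEq] at h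
    rw [← Int.not_even_iff_odd] at hx
    exact hx (even_iff_two_dvd.mpr ⟨x', h.1.symm⟩)
  have h1 : S.ncard = O.ncard + T.ncard := by
    rw [hU, Set.ncard_union_eq hdisj (hfin.subset (hU ▸ Set.subset_union_left))
      (hfin.subset (hU ▸ Set.subset_union_right)), Set.ncard_image_of_injective _ hf]
  have h2 : S.ncard = 24 * ∑ d ∈ m.divisors, d := by
    have h3 := four_squares_even (n := 4 * m) (by omega) ((by decide : Even 4).mul_right m)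
    rw [h3]
    congr 1
    refine Finset.sum_congr ?_ fun _ _ => rfl
    ext d
    rw [mem_filter, Nat.mem_divisors, Nat.mem_divisors]
    constructor
    · rintro ⟨⟨h4, -⟩, h5⟩
      refine ⟨?_, hm0⟩
      have h6 : Nat.Coprime d 4 := by
        rw [show (4 : ℕ) = 2 ^ 2 by norm_num]
        exact Nat.Coprime.pow_right 2 (Nat.coprime_two_right.mpr h5)
      exact h6.dvd_of_dvd_mul_left h4
    · rintro ⟨h4, -⟩
      exact ⟨⟨h4.mul_left 4, by omega⟩, hm.of_dvd_nat h4⟩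
  have h3 : T.ncard = 8 * ∑ d ∈ m.divisors, d := four_squares_odd hm
  omega

/-- the number of `(a, b, c, d) ∈ ℕ⁴` with `(2a+1)² + (2b+1)² + (2c+1)² + (2d+1)² = 4 m` is `σ(m)`
(`m` odd) -/
theorem card_four_odd_squares_nat {m : ℕ} (hm : Odd m) :
    {(a, b, c, d) : ℕ × ℕ × ℕ × ℕ |
      (2 * a + 1) ^ 2 + (2 * b + 1) ^ 2 + (2 * c + 1) ^ 2 + (2 * d + 1) ^ 2 = 4 * m}.ncard =
      ∑ d ∈ m.divisors, d := by
  have h := card_four_odd_squares hm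
  have h1 := Nat.card_congr (oddEquiv (4 * m))
  rw [Nat.card_prod] at h1
  have h2 : Nat.card (Bool × Bool × Bool × Bool) = 16 := by
    simp [Nat.card_eq_fintype_card]
  rw [h2] at h1
  have h3 : Nat.card {v : ℤ × ℤ × ℤ × ℤ // (Odd v.1 ∧ Odd v.2.1 ∧ Odd v.2.2.1 ∧ Odd v.2.2.2) ∧
      v.1 ^ 2 + v.2.1 ^ 2 + v.2.2.1 ^ 2 + v.2.2.2 ^ 2 = ((4 * m : ℕ) : ℤ)} =
      {(x, y, z, w) : ℤ × ℤ × ℤ × ℤ | (Odd x ∧ Odd y ∧ Odd z ∧ Odd w) ∧
        x ^ 2 + y ^ 2 + z ^ 2 + w ^ 2 = 4 * m}.ncard := by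
    rw [← Nat.card_coe_set_eq]
    refine Nat.card_congr (Equiv.subtypeEquivRight fun v => ?_)
    obtain ⟨x, y, z, w⟩ := v
    simp only [Nat.cast_mul, Nat.cast_ofNat, Set.mem_ofPred_eq]
  rw [h3, h] at h1
  have h4 : Nat.card {a : ℕ × ℕ × ℕ × ℕ // (2 * a.1 + 1) ^ 2 +
      (2 * a.2.1 + 1) ^ 2 + (2 * a.2.2.1 + 1) ^ 2 + (2 * a.2.2.2 + 1) ^ 2 = 4 * m} =
      {(a, b, c, d) : ℕ × ℕ × ℕ × ℕ |
        (2 * a + 1) ^ 2 + (2 * b + 1) ^ 2 + (2 * c + 1) ^ 2 + (2 * d + 1) ^ 2 = 4 * m}.ncard := by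
    rw [← Nat.card_coe_set_eq]
    exact Nat.card_congr (Equiv.subtypeEquivRight fun v => Iff.rfl)
  rw [h4] at h1
  omega

/-- **Legendre's theorem on triangular numbers**: every `n` has exactly `σ(2 n + 1)`
representations as a sum of four triangular numbers -/
theorem card_four_triangular (n : ℕ) :
    {(a, b, c, d) : ℕ × ℕ × ℕ × ℕ |
      a * (a + 1) / 2 + b * (b + 1) / 2 + c * (c + 1) / 2 + d * (d + 1) / 2 = n}.ncard =
      ∑ d ∈ (2 * n + 1).divisors, d := by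
  rw [← card_four_odd_squares_nat (m := 2 * n + 1) ⟨n, rfl⟩]
  congr 1
  ext ⟨a, b, c, d⟩
  have h : ∀ a : ℕ, (2 * a + 1) ^ 2 = 8 * (a * (a + 1) / 2) + 1 := by
    intro a
    have h1 : a * (a + 1) / 2 * 2 = a * (a + 1) := Nat.div_mul_cancel (Nat.even_mul_succ_self a).two_dvd
    nlinarith
  simp only [Set.mem_ofPred_eq, h]
  omega

end Fermat.Agent.Cor.Quat
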