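import Fermat.Agent.Corollaries.Quat.Eight
import Fermat.Agent.Corollaries.Quat.Triangular

/-!
# Sums of eight triangular numbers

**Legendre**: the number of representations of `n` as a sum of eight triangular numbers is
`∑ d³` over the divisors `d` of `n + 1` with `(n + 1) / d` odd.  This comes from the identity
`(∑_{m odd} σ(m) q^m)² = ∑_n (σ₃(n) - σ₃(n/2)) q^{2n}` in `M₄(Γ₀(4))`.
-/

set_option autoImplicit false

noncomputable section

open UpperHalfPlane CongruenceSubgroup ModularFormClass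
open scoped MatrixGroups

namespace Fermat.Agent.Cor.Quat

open Finset

/-- `σ(n)` for `n` odd, `0` for `n` even -/
def oddσ (n : ℕ) : ℕ := if n % 2 = 1 then ∑ d ∈ n.divisors, d else 0

theorem sum_four_even {n : ℕ} (hn : n ≠ 0) (he : Even n) :
    ∑ d ∈ n.divisors with ¬ 4 ∣ d, d = 3 * ∑ d ∈ n.divisors with ¬ 2 ∣ d, d := by
  have h1 := jacobi_four_squares hn
  rw [four_squares_even hn he] at h1
  have h2 : ∑ d ∈ n.divisors with Odd d, d = ∑ d ∈ n.divisors with ¬ 2 ∣ d, d := by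
    refine Finset.sum_congr (Finset.filter_congr fun d _ => ?_) fun _ _ => rfl
    rw [← Nat.not_even_iff_odd, even_iff_two_dvd]
  rw [h2] at h1
  omega

theorem eisc_comb (n : ℕ) : 3 * eisc 2 n - eisc 4 n = 48 * (oddσ n : ℤ) := by
  rcases eq_or_ne n 0 with rfl | hn
  · simp [eisc, oddσ]
  · have h24 : ∀ l : ℕ, eisc l n = 24 * ((∑ e ∈ n.divisors with ¬ l ∣ e, e : ℕ) : ℤ) := by
      intro l
      rw [eisc, if_neg hn, Nat.cast_sum]
    rw [h24, h24, oddσ]
    rcases Nat.even_or_odd n with he | ho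
    · rw [sum_four_even hn he, if_neg (by rw [Nat.even_iff] at he; omega)]
      push_cast
      ring
    · have h1 : ∀ l, 2 ∣ l → ∑ e ∈ n.divisors with ¬ l ∣ e, e = ∑ e ∈ n.divisors, e := by
        intro l hl
        rw [Finset.filter_true_of_mem]
        intro e he h
        exact Nat.not_even_iff_odd.mpr ho
          (even_iff_two_dvd.mpr ((hl.trans h).trans (Nat.dvd_of_mem_divisors he)))
      rw [h1 2 (dvd_refl 2), h1 4 (by norm_num), if_pos (Nat.odd_iff.mp ho)]
      ring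

theorem exists_form_oddσ :
    ∃ F : ModularForm (Gamma0 4) 2, ∀ n, qCoeff F n = (oddσ n : ℂ) := by
  obtain ⟨E2, h2⟩ := exists_eis 2 4 (by norm_num)
  obtain ⟨E4, h4⟩ := exists_eis 4 4 (dvd_refl 4)
  refine ⟨∑ d ∈ ({2, 4} : Finset ℕ), (if d = 2 then (3 : ℂ) / 48 else -1 / 48) •
    (if d = 2 then E2 else E4), fun n => ?_⟩
  rw [qCoeff_sum {2, 4} (fun d => if d = 2 then (3 : ℂ) / 48 else -1 / 48)
    (fun d => if d = 2 then E2 else E4), Finset.sum_insert (by decide), Finset.sum_singleton]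
  have h := congrArg (Int.cast : ℤ → ℂ) (eisc_comb n)
  push_cast at h
  simp only [if_true, show (4 : ℕ) ≠ 2 by decide, if_false, h2, h4]
  linear_combination h / 48

/-- `∑_{k + l = n} σ(k) σ(l)`, `k`, `l` odd -/
theorem conv_oddσ {n : ℕ} (hn : n ≠ 0) :
    ((∑ ij ∈ HasAntidiagonal.antidiagonal n, oddσ ij.1 * oddσ ij.2 : ℕ) : ℤ) =
      s3 2 n - s3 4 n := by
  obtain ⟨F, hF⟩ := exists_form_oddσ
  have h := mul_eq_sum' hF hF {2, 4} (by decide) (fun d => if d = 2 then 1 else -1)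
    (B := 2) (by decide +kernel) (by decide) (by decide +kernel) hn
  rw [h, Finset.sum_insert (by decide), Finset.sum_singleton]
  simp only [if_true, show (4 : ℕ) ≠ 2 by decide, if_false]
  ring

theorem s3_two_mul (l m : ℕ) : s3 (2 * l) (2 * m) = s3 l m := by
  unfold s3
  rw [Nat.mul_div_mul_left m l (by norm_num)]
  by_cases h : l ∣ m
  · rw [if_pos h, if_pos (Nat.mul_dvd_mul_left 2 h)]
  · rw [if_neg h, if_neg (fun h' => h (Nat.dvd_of_mul_dvd_mul_left (by norm_num) h'))]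

/-- `∑_{i + j = n} σ(2i + 1) σ(2j + 1) = σ₃(n + 1) - σ₃((n + 1) / 2)` -/
theorem conv_sigma (n : ℕ) :
    ((∑ ij ∈ HasAntidiagonal.antidiagonal n,
      (∑ d ∈ (2 * ij.1 + 1).divisors, d) * (∑ d ∈ (2 * ij.2 + 1).divisors, d) : ℕ) : ℤ) =
      s3 1 (n + 1) - s3 2 (n + 1) := by
  have h1 : ∑ ij ∈ HasAntidiagonal.antidiagonal n,
      (∑ d ∈ (2 * ij.1 + 1).divisors, d) * (∑ d ∈ (2 * ij.2 + 1).divisors, d) =
      ∑ kl ∈ HasAntidiagonal.antidiagonal (2 * n + 2), oddσ kl.1 * oddσ kl.2 := by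
    trans ∑ kl ∈ (HasAntidiagonal.antidiagonal (2 * n + 2)).filter (fun kl => kl.1 % 2 = 1),
      oddσ kl.1 * oddσ kl.2
    · refine Finset.sum_bij' (fun ij _ => (2 * ij.1 + 1, 2 * ij.2 + 1))
        (fun kl _ => (kl.1 / 2, kl.2 / 2)) ?_ ?_ ?_ ?_ ?_
      · intro ij hij
        rw [HasAntidiagonal.mem_antidiagonal] at hij
        rw [mem_filter, HasAntidiagonal.mem_antidiagonal]
        dsimp only
        omega
      · intro kl hkl
        rw [mem_filter, HasAntidiagonal.mem_antidiagonal] at hkl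
        rw [HasAntidiagonal.mem_antidiagonal]
        dsimp only
        omega
      · intro ij _
        refine Prod.ext ?_ ?_ <;> dsimp only <;> omega
      · intro kl hkl
        rw [mem_filter, HasAntidiagonal.mem_antidiagonal] at hkl
        refine Prod.ext ?_ ?_ <;> dsimp only <;> omega
      · intro ij _
        dsimp only
        rw [oddσ, oddσ, if_pos (by omega), if_pos (by omega)]
    · refine Finset.sum_filter_of_ne fun kl _ hne => ?_
      by_contra h
      refine hne ?_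
      rw [oddσ, if_neg h, zero_mul]
  rw [h1, conv_oddσ (by omega)]
  have e1 : s3 2 (2 * n + 2) = s3 1 (n + 1) := s3_two_mul 1 (n + 1)
  have e2 : s3 4 (2 * n + 2) = s3 2 (n + 1) := s3_two_mul 2 (n + 1)
  rw [e1, e2]

/-- `σ₃(m) - σ₃(m / 2) = ∑ d³` over the divisors `d` of `m` with `m / d` odd -/
theorem s3_sub {m : ℕ} (hm : m ≠ 0) :
    s3 1 m - s3 2 m = ((∑ d ∈ m.divisors with Odd (m / d), d ^ 3 : ℕ) : ℤ) := by
  have h1 : s3 1 m = ∑ d ∈ m.divisors, (d : ℤ) ^ 3 := by
    rw [s3, if_pos (one_dvd m), Nat.div_one]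
  have h2 : s3 2 m = ∑ d ∈ m.divisors with ¬ Odd (m / d), (d : ℤ) ^ 3 := by
    unfold s3
    split_ifs with h
    · refine Finset.sum_congr ?_ fun _ _ => rfl
      obtain ⟨k, rfl⟩ := h
      have hk : k ≠ 0 := fun h => hm (by rw [h])
      ext d
      rw [Nat.mul_div_cancel_left k (by norm_num), mem_filter, Nat.mem_divisors, Nat.mem_divisors,
        Nat.not_odd_iff_even]
      constructor
      · rintro ⟨⟨c, rfl⟩, -⟩
        have hd : 0 < d := Nat.pos_of_ne_zero fun h => hk (by rw [h, zero_mul])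
        refine ⟨⟨⟨2 * c, by ring⟩, hm⟩, ?_⟩
        rw [show 2 * (d * c) = d * (2 * c) by ring, Nat.mul_div_cancel_left _ hd]
        exact even_two_mul c
      · rintro ⟨⟨⟨c, hc⟩, -⟩, he⟩
        have hd : 0 < d := Nat.pos_of_ne_zero fun h => hm (by rw [hc, h, zero_mul])
        rw [hc, Nat.mul_div_cancel_left _ hd] at he
        obtain ⟨e, rfl⟩ := even_iff_two_dvd.mp he
        refine ⟨⟨e, ?_⟩, hk⟩
        have h3 : 2 * k = 2 * (d * e) := by rw [hc]; ring
        omega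
    · symm
      refine Finset.sum_eq_zero fun d hd => ?_
      rw [mem_filter, Nat.mem_divisors, Nat.not_odd_iff_even, even_iff_two_dvd] at hd
      exact absurd (hd.2.trans (Nat.div_dvd_of_dvd hd.1.1)) h
  rw [h1, h2, ← Finset.sum_filter_add_sum_filter_not m.divisors (fun d => Odd (m / d))
    (fun d => (d : ℤ) ^ 3), add_sub_cancel_right]
  push_cast
  rfl

/-! ### counting -/

/-- sum of four triangular numbers -/
def tri4 (a : ℕ × ℕ × ℕ × ℕ) : ℤ :=
  ((a.1 * (a.1 + 1) / 2 + a.2.1 * (a.2.1 + 1) / 2 + a.2.2.1 * (a.2.2.1 + 1) / 2 +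
    a.2.2.2 * (a.2.2.2 + 1) / 2 : ℕ) : ℤ)

theorem card_tri4 (n : ℕ) : Nat.card {a // tri4 a = n} = ∑ d ∈ (2 * n + 1).divisors, d := by
  rw [← card_four_triangular n, ← Nat.card_coe_set_eq]
  refine Nat.card_congr (Equiv.subtypeEquivRight fun a => ?_)
  obtain ⟨a, b, c, d⟩ := a
  exact Nat.cast_inj

theorem finite_tri4 (n : ℕ) : Finite {a // tri4 a = n} := by
  refine Nat.finite_of_card_ne_zero ?_
  rw [card_tri4]
  refine (Finset.sum_pos (fun d hd => Nat.pos_of_mem_divisors hd) ⟨1, ?_⟩).ne'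
  exact Nat.one_mem_divisors.mpr (by omega)

/-- eight natural numbers -/
def eightNat : (Fin 8 → ℕ) ≃ (ℕ × ℕ × ℕ × ℕ) × (ℕ × ℕ × ℕ × ℕ) where
  toFun x := ((x 0, x 1, x 2, x 3), (x 4, x 5, x 6, x 7))
  invFun p := ![p.1.1, p.1.2.1, p.1.2.2.1, p.1.2.2.2, p.2.1, p.2.2.1, p.2.2.2.1, p.2.2.2.2]
  left_inv x := by
    funext i
    fin_cases i <;> rfl
  right_inv p := rfl

theorem eightNat_apply (x : Fin 8 → ℕ) :
    eightNat x = ((x 0, x 1, x 2, x 3), (x 4, x 5, x 6, x 7)) := rfl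

/-- **Legendre's theorem on eight triangular numbers** -/
theorem card_eight_triangular (n : ℕ) :
    {a : Fin 8 → ℕ | ∑ i, a i * (a i + 1) / 2 = n}.ncard =
      ∑ d ∈ (n + 1).divisors with Odd ((n + 1) / d), d ^ 3 := by
  have h := card_add (f := tri4) (g := tri4) (fun a => Int.natCast_nonneg _)
    (fun a => Int.natCast_nonneg _) finite_tri4 finite_tri4 n
  simp only [card_tri4] at h
  have h1 := conv_sigma n
  rw [← h, s3_sub (by omega)] at h1
  rw [← Nat.cast_inj (R := ℤ), ← h1, Nat.cast_inj, ← Nat.card_coe_set_eq]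
  refine Nat.card_congr (eightNat.subtypeEquiv fun a => ?_)
  change ∑ i, a i * (a i + 1) / 2 = n ↔ _
  rw [Fin.sum_univ_eight, eightNat_apply, tri4, tri4, ← Nat.cast_add, Nat.cast_inj]
  simp only [← add_assoc]

end Fermat.Agent.Cor.Quat
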