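import Fermat.Agent.Corollaries.Quat.Milnor

/-!
# `E₄² = E₈` and the number of vectors of `E₈ ⊕ E₈` and of `D₁₆⁺`

`σ₇(n) = σ₃(n) + 120 ∑_{0 < m < n} σ₃(m) σ₃(n - m)`; both lattices have exactly `480 σ₇(n)`
vectors of norm `2n`.
-/

set_option autoImplicit false

noncomputable section

open UpperHalfPlane CongruenceSubgroup ModularFormClass
open scoped MatrixGroups

namespace Fermat.Agent.Cor.Quat

open Finset

/-- coefficients of `E₈` -/
def e8c (n : ℕ) : ℕ := if n = 0 then 1 else 480 * ∑ e ∈ n.divisors, e ^ 7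

theorem exists_weight_eight : ∃ F : ModularForm (Gamma0 1) 8, ∀ n, qCoeff F n = (e8c n : ℂ) := by
  let F : ModularForm (Gamma0 1) 8 :=
    { toFun := ⇑(ModularForm.E (k := 8) (by norm_num))
      slash_action_eq' := fun γ hγ =>
        SlashInvariantFormClass.slash_action_eq (ModularForm.E (k := 8) (by norm_num)) γ
          (S16.Gamma0_le_SL 1 hγ)
      holo' := ModularFormClass.holo (ModularForm.E (k := 8) (by norm_num))
      bdd_at_cusps' := fun hc => ModularFormClass.bdd_at_cusps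
        (ModularForm.E (k := 8) (by norm_num)) (hc.mono (S16.Gamma0_le_SL 1)) }
  refine ⟨F, fun n => ?_⟩
  have h : qCoeff F n = (qExpansion 1 (ModularForm.E (k := 8) (by norm_num))).coeff n := rfl
  rw [h, EisensteinSeries.E_qExpansion_coeff (by norm_num) ⟨4, rfl⟩, e8c]
  rcases eq_or_ne n 0 with rfl | hn
  · simp
  · rw [if_neg hn, if_neg hn, ArithmeticFunction.sigma_apply,
      show bernoulli 8 = -1 / 30 by decide +kernel]
    push_cast
    norm_num

/-- `E₄² = E₈`, in terms of coefficients -/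
theorem conv_e4c (n : ℕ) :
    ∑ ij ∈ HasAntidiagonal.antidiagonal n, e4c ij.1 * e4c ij.2 = e8c n := by
  obtain ⟨F, hF⟩ := exists_E4 1 1 (dvd_refl 1)
  obtain ⟨G, hG⟩ := exists_weight_eight
  have hF' : ∀ n, qCoeff F n = (e4c n : ℂ) := fun n => by
    rw [hF, if_pos (one_dvd n), Nat.div_one]
  let F2 : ModularForm (Gamma0 1) 8 := F.mul F
  have hF2 : ∀ n, qCoeff F2 n =
      ((∑ ij ∈ HasAntidiagonal.antidiagonal n, e4c ij.1 * e4c ij.2 : ℕ) : ℂ) := by
    intro n
    have h1 : qCoeff F2 n = ∑ ij ∈ HasAntidiagonal.antidiagonal n,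
        qCoeff F ij.1 * qCoeff F ij.2 := by
      unfold qCoeff
      have h2 := ModularForm.qExpansion_mul one_pos (one_mem_strictPeriods_Gamma0 1) F F
      have h3 : qExpansion 1 ⇑F2 = qExpansion 1 ⇑F * qExpansion 1 ⇑F := h2
      rw [h3, PowerSeries.coeff_mul]
    rw [h1]
    push_cast
    exact Finset.sum_congr rfl fun ij _ => by rw [hF', hF']
  have hsub : ∀ n, qCoeff ⇑(F2 - G) n = qCoeff F2 n - qCoeff G n := by
    intro n
    unfold qCoeff
    have h := ModularForm.qExpansion_sub one_pos (one_mem_strictPeriods_Gamma0 1) F2 G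
    rw [show (⇑(F2 - G) : ℍ → ℂ) = ⇑F2 - ⇑G from rfl, h, map_sub]
  have key : F2 - G = 0 := by
    refine ModularForm.sturm_bound_Gamma0 1 _ fun n hn => ?_
    rw [P1Count.index_Gamma0, show ModularCurve.dedekindPsi 1 = 1 by decide +kernel] at hn
    have hn0 : n = 0 := by
      have h1 : ((8 : ℤ) * ((1 : ℕ) : ℤ)).toNat / 12 = 0 := by decide
      omega
    subst hn0
    have h3 : qCoeff ⇑(F2 - G) 0 = 0 := by
      rw [hsub, hF2, hG, Finset.Nat.antidiagonal_zero, sum_singleton]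
      simp [e4c, e8c]
    exact h3
  have h4 := hsub n
  rw [key, hF2, hG] at h4
  have h5 : qCoeff (⇑(0 : ModularForm (Gamma0 1) 8) : ℍ → ℂ) n = 0 := by
    unfold qCoeff
    have h6 : (qExpansion 1 (⇑(0 : ModularForm (Gamma0 1) 8) : ℍ → ℂ)) = 0 := by
      rw [ModularForm.qExpansion_eq_zero_iff one_pos (one_mem_strictPeriods_Gamma0 1)]
    rw [h6, map_zero]
  rw [h5] at h4
  have h6 := sub_eq_zero.mp h4.symm
  exact_mod_cast h6

/-- `σ₇(n) = σ₃(n) + 120 ∑_{0 < m < n} σ₃(m) σ₃(n - m)` -/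
theorem sigma_seven (n : ℕ) :
    ∑ d ∈ n.divisors, d ^ 7 = ∑ d ∈ n.divisors, d ^ 3 +
      120 * ∑ m ∈ Ioo 0 n, (∑ d ∈ m.divisors, d ^ 3) * (∑ d ∈ (n - m).divisors, d ^ 3) := by
  rcases eq_or_ne n 0 with rfl | hn
  · simp
  · have h := conv_e4c n
    rw [Finset.Nat.sum_antidiagonal_eq_sum_range_succ_mk, Finset.sum_range_succ] at h
    obtain ⟨k, rfl⟩ : ∃ k, n = k + 1 := ⟨n - 1, by omega⟩
    rw [Finset.sum_range_succ'] at h
    simp only [e4c, e8c, Nat.succ_ne_zero, if_false, if_true, Nat.sub_zero, Nat.sub_self,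
      one_mul, mul_one] at h
    have h2 : ∑ i ∈ range k, (if i + 1 = 0 then 1 else 240 * ∑ e ∈ (i + 1).divisors, e ^ 3) *
        (if k + 1 - (i + 1) = 0 then 1 else 240 * ∑ e ∈ (k + 1 - (i + 1)).divisors, e ^ 3) =
        57600 * ∑ m ∈ Ioo 0 (k + 1),
          (∑ d ∈ m.divisors, d ^ 3) * (∑ d ∈ (k + 1 - m).divisors, d ^ 3) := by
      rw [Finset.mul_sum]
      refine Finset.sum_bij' (fun i _ => i + 1) (fun m _ => m - 1) ?_ ?_ ?_ ?_ ?_
      · intro i hi
        rw [mem_range] at hi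
        rw [mem_Ioo]
        omega
      · intro m hm
        rw [mem_Ioo] at hm
        rw [mem_range]
        omega
      · intro i _
        omega
      · intro m hm
        rw [mem_Ioo] at hm
        omega
      · intro i hi
        rw [mem_range] at hi
        rw [if_neg (by omega), if_neg (by omega)]
        ring
    simp only [Nat.succ_ne_zero, if_false] at h2
    rw [h2] at h
    omega

/-! ### the lattices -/

theorem nD_eight_two_mul (n : ℕ) : nD (Fin 8) (2 * n) = e4c n := by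
  unfold nD e4c
  have h1 : {x : Fin 8 → ℚ | x ∈ Dplus (Fin 8) ∧ qn x = ((2 * n : ℕ) : ℚ)} =
      {x : Fin 8 → ℚ | x ∈ E8 ∧ ∑ i, x i ^ 2 = 2 * (n : ℚ)} := by
    ext x
    refine and_congr Iff.rfl ?_
    unfold qn
    push_cast
    exact Iff.rfl
  rcases eq_or_ne n 0 with rfl | hn
  · rw [if_pos rfl, h1, Set.ncard_eq_one]
    refine ⟨0, ?_⟩
    ext x
    constructor
    · rintro ⟨-, h2⟩
      have h3 : ∑ i, x i ^ 2 = 0 := by rw [h2]; simp
      rw [Finset.sum_eq_zero_iff_of_nonneg fun i _ => sq_nonneg (x i)] at h3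
      exact funext fun i => pow_eq_zero_iff (by norm_num) |>.mp (h3 i (mem_univ i))
    · rintro rfl
      exact ⟨E8.zero_mem, by simp⟩
  · rw [if_neg hn, h1, card_E8 hn]

theorem nD_eight_odd {m : ℕ} (hm : ¬ 2 ∣ m) : nD (Fin 8) m = 0 := by
  unfold nD
  rw [Set.ncard_eq_zero (finite_norm m), Set.eq_empty_iff_forall_notMem]
  rintro x ⟨hx, h⟩
  obtain ⟨a, ha⟩ := Dplus_even (by rw [Fintype.card_fin]) hx
  rw [ha] at h
  exact hm ⟨a, by exact_mod_cast h.symm⟩

/-- **`D₁₆⁺` has exactly `480 σ₇(n)` vectors of norm `2n`** -/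
theorem card_D16 {n : ℕ} (hn : n ≠ 0) :
    {x : Fin 16 → ℚ | x ∈ Dplus (Fin 16) ∧ ∑ i, x i ^ 2 = 2 * n}.ncard =
      480 * ∑ d ∈ n.divisors, d ^ 7 := by
  have h1 : {x : Fin 16 → ℚ | x ∈ Dplus (Fin 16) ∧ ∑ i, x i ^ 2 = 2 * n}.ncard =
      nD (Fin 16) (2 * n) := by
    unfold nD qn
    push_cast
    rfl
  have h2 : (nD (Fin 16) (2 * n) : ℤ) =
      ∑ ij ∈ HasAntidiagonal.antidiagonal (2 * n),
        (nD (Fin 8) ij.1 : ℤ) * (nD (Fin 8) ij.2 : ℤ) := by
    have h3 := congrArg (PowerSeries.coeff (2 * n)) thetaD_sixteen_eq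
    rw [sq, PowerSeries.coeff_mul, thetaD, PowerSeries.coeff_mk] at h3
    rw [h3]
    exact Finset.sum_congr rfl fun ij _ => by
      rw [thetaD, PowerSeries.coeff_mk, PowerSeries.coeff_mk]
  have h3 : ∑ kl ∈ HasAntidiagonal.antidiagonal (2 * n), nD (Fin 8) kl.1 * nD (Fin 8) kl.2 =
      ∑ ij ∈ HasAntidiagonal.antidiagonal n, e4c ij.1 * e4c ij.2 := by
    symm
    trans ∑ kl ∈ (HasAntidiagonal.antidiagonal (2 * n)).filter (fun kl => 2 ∣ kl.1),
      nD (Fin 8) kl.1 * nD (Fin 8) kl.2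
    · refine Finset.sum_bij' (fun ij _ => (2 * ij.1, 2 * ij.2))
        (fun kl _ => (kl.1 / 2, kl.2 / 2)) ?_ ?_ ?_ ?_ ?_
      · intro ij hij
        rw [HasAntidiagonal.mem_antidiagonal] at hij
        rw [mem_filter, HasAntidiagonal.mem_antidiagonal]
        dsimp only
        omega
      · intro kl hkl
        rw [mem_filter, HasAntidiagonal.mem_antidiagonal] at hkl
        rw [HasAntidiagonal.mem_antidiagonal]
        dsimp only
        omega
      · intro ij _
        refine Prod.ext ?_ ?_ <;> dsimp only <;> omega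
      · intro kl hkl
        rw [mem_filter, HasAntidiagonal.mem_antidiagonal] at hkl
        refine Prod.ext ?_ ?_ <;> dsimp only <;> omega
      · intro ij _
        dsimp only
        rw [nD_eight_two_mul, nD_eight_two_mul]
    · refine Finset.sum_filter_of_ne fun kl _ hne => ?_
      by_contra h
      exact hne (by rw [nD_eight_odd h, zero_mul])
  rw [h1, ← Nat.cast_inj (R := ℤ), h2]
  have h4 := conv_e4c n
  rw [e8c, if_neg hn] at h4
  rw [← h4, ← h3]
  push_cast
  rfl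

/-- **`E₈ ⊕ E₈` has exactly `480 σ₇(n)` vectors of norm `2n`** -/
theorem card_E8_sum {n : ℕ} (hn : n ≠ 0) :
    {x : (Fin 8 → ℚ) × (Fin 8 → ℚ) | x ∈ E8.prod E8 ∧
      ∑ i, x.1 i ^ 2 + ∑ i, x.2 i ^ 2 = 2 * n}.ncard = 480 * ∑ d ∈ n.divisors, d ^ 7 := by
  rw [← card_D16 hn]
  exact milnor.1 (2 * n)

end Fermat.Agent.Cor.Quat
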