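import Fermat.Agent.Corollaries.Quat.Eis4
import Fermat.Agent.Corollaries.Quat.Forms

/-!
# Products of two theta series of weight two

If the product of two forms of weight two and level `M` with coefficients `a(n)`, `b(n)` agrees up
to the Sturm bound with a combination of the `E₄(dz)`, `d ∣ M`, then
`∑_{i + j = n} a(i) b(j) = ∑_{e ∣ n} W(e) e³`.
-/

set_option autoImplicit false

noncomputable section

open UpperHalfPlane CongruenceSubgroup ModularFormClass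
open scoped MatrixGroups

namespace Fermat.Agent.Cor.Quat

open Fermat.Agent.LTF.Theta Finset

/-! ### comparison of coefficients, weight `4` -/

theorem qCoeff_sub4 {M : ℕ} (F G : ModularForm (Gamma0 M) 4) (n : ℕ) :
    qCoeff ⇑(F - G) n = qCoeff F n - qCoeff G n := by
  unfold qCoeff
  have h := ModularForm.qExpansion_sub one_pos (one_mem_strictPeriods_Gamma0 M) F G
  rw [show (⇑(F - G) : ℍ → ℂ) = ⇑F - ⇑G from rfl, h, map_sub]

theorem qCoeff_sum4 {M : ℕ} (ι : Finset ℕ) (β : ℕ → ℂ) (E : ℕ → ModularForm (Gamma0 M) 4)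
    (n : ℕ) : qCoeff ⇑(∑ d ∈ ι, β d • E d) n = ∑ d ∈ ι, β d * qCoeff (E d) n := by
  unfold qCoeff
  have h := map_sum (ModularForm.qExpansionAddHom one_pos (one_mem_strictPeriods_Gamma0 M) 4)
    (fun d => β d • E d) ι
  have h2 : ∀ d, ModularForm.qExpansionAddHom one_pos (one_mem_strictPeriods_Gamma0 M) 4
      (β d • E d) = β d • qExpansion 1 (E d) := fun d =>
    ModularForm.qExpansion_smul one_pos (one_mem_strictPeriods_Gamma0 M) (β d) (E d)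
  have h3 : qExpansion 1 ⇑(∑ d ∈ ι, β d • E d) = ∑ d ∈ ι, β d • qExpansion 1 (E d) := by
    rw [← Finset.sum_congr rfl fun d _ => h2 d, ← h]
    rfl
  rw [h3, map_sum]
  rfl

theorem eq_of_sturm4 {M : ℕ} [NeZero M] {F G : ModularForm (Gamma0 M) 4} {B : ℕ}
    (hB : 4 * ModularCurve.dedekindPsi M / 12 ≤ B) (h : ∀ n ≤ B, qCoeff F n = qCoeff G n) :
    F = G := by
  rw [← sub_eq_zero]
  refine ModularForm.sturm_bound_Gamma0 M _ fun n hn => ?_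
  rw [P1Count.index_Gamma0] at hn
  have h1 : n ≤ B := by
    refine le_trans ?_ hB
    have h2 : ((4 : ℤ) * (ModularCurve.dedekindPsi M : ℤ)).toNat =
        4 * ModularCurve.dedekindPsi M := by
      omega
    rwa [h2] at hn
  have h3 : qCoeff ⇑(F - G) n = 0 := by rw [qCoeff_sub4, h n h1, sub_self]
  exact h3

theorem qCoeff_mul {M : ℕ} (F G : ModularForm (Gamma0 M) 2) (n : ℕ) :
    qCoeff ⇑(F.mul G) n = ∑ ij ∈ antidiagonal n, qCoeff F ij.1 * qCoeff G ij.2 := by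
  unfold qCoeff
  rw [ModularForm.qExpansion_mul one_pos (one_mem_strictPeriods_Gamma0 M) F G,
    PowerSeries.coeff_mul]

/-- the weights: `W(e) = ∑_{d ∈ ι, d ∣ e} δ(d)` -/
def wt4 (ι : Finset ℕ) (δ : ℕ → ℤ) (e : ℕ) : ℤ := ∑ d ∈ ι.filter (fun d => d ∣ e), δ d

theorem sum_cube (d n : ℕ) (hn : n ≠ 0) (hd : d ∣ n) :
    (d : ℤ) ^ 3 * ∑ e ∈ (n / d).divisors, (e : ℤ) ^ 3 =
      ∑ f ∈ n.divisors.filter (fun f => d ∣ f), (f : ℤ) ^ 3 := by
  have hd0 : 0 < d := Nat.pos_of_dvd_of_pos hd (Nat.pos_of_ne_zero hn)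
  rw [Finset.mul_sum]
  refine Finset.sum_bij' (fun e _ => d * e) (fun f _ => f / d) ?_ ?_ ?_ ?_ ?_
  · intro e he
    rw [Nat.mem_divisors] at he
    rw [mem_filter, Nat.mem_divisors]
    refine ⟨⟨?_, hn⟩, dvd_mul_right d e⟩
    obtain ⟨m, rfl⟩ := hd
    rw [Nat.mul_div_cancel_left m hd0] at he
    exact Nat.mul_dvd_mul_left d he.1
  · intro f hf
    rw [mem_filter, Nat.mem_divisors] at hf
    obtain ⟨⟨hf, -⟩, hdf⟩ := hf
    rw [Nat.mem_divisors]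
    refine ⟨Nat.div_dvd_div hdf hf, ?_⟩
    exact (Nat.div_pos (Nat.le_of_dvd (Nat.pos_of_ne_zero hn) hd) hd0).ne'
  · intro e _
    exact Nat.mul_div_cancel_left e hd0
  · intro f hf
    rw [mem_filter] at hf
    exact Nat.mul_div_cancel' hf.2
  · intro e _
    push_cast
    ring

theorem sum_wt4 (ι : Finset ℕ) (δ : ℕ → ℤ) {n : ℕ} (hn : n ≠ 0) :
    ∑ e ∈ n.divisors, wt4 ι δ e * (e : ℤ) ^ 3 =
      ∑ d ∈ ι, δ d * (if d ∣ n then (d : ℤ) ^ 3 * ∑ e ∈ (n / d).divisors, (e : ℤ) ^ 3 else 0) := by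
  have h1 : ∀ d, (if d ∣ n then (d : ℤ) ^ 3 * ∑ e ∈ (n / d).divisors, (e : ℤ) ^ 3 else 0) =
      ∑ f ∈ n.divisors.filter (fun f => d ∣ f), (f : ℤ) ^ 3 := by
    intro d
    split_ifs with hd
    · exact sum_cube d n hn hd
    · symm
      refine Finset.sum_eq_zero fun f hf => ?_
      rw [mem_filter, Nat.mem_divisors] at hf
      exact absurd (hf.2.trans hf.1.1) hd
  simp only [h1]
  unfold wt4
  simp only [Finset.sum_filter, Finset.sum_mul, Finset.mul_sum]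
  rw [Finset.sum_comm]
  refine Finset.sum_congr rfl fun d _ => Finset.sum_congr rfl fun e _ => ?_
  split_ifs <;> simp

/-- `σ₃(n / d)`, and `0` if `d ∤ n` -/
def s3 (d n : ℕ) : ℤ := if d ∣ n then ∑ e ∈ (n / d).divisors, (e : ℤ) ^ 3 else 0

/-- **the general formula in weight four** -/
theorem mul_eq_sum' {M : ℕ} [NeZero M] {F₁ F₂ : ModularForm (Gamma0 M) 2} {a b : ℕ → ℕ}
    (ha : ∀ n, qCoeff F₁ n = (a n : ℂ)) (hb : ∀ n, qCoeff F₂ n = (b n : ℂ)) (ι : Finset ℕ)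
    (hι : ∀ d ∈ ι, d ∣ M) (γ : ℕ → ℤ) {B : ℕ} (hB : 4 * ModularCurve.dedekindPsi M / 12 ≤ B)
    (h0 : ∑ d ∈ ι, γ d = 240 * ((a 0 * b 0 : ℕ) : ℤ))
    (h : ∀ n ∈ Icc 1 B, ((∑ ij ∈ antidiagonal n, a ij.1 * b ij.2 : ℕ) : ℤ) =
      ∑ d ∈ ι, γ d * s3 d n) {n : ℕ} (hn : n ≠ 0) :
    ((∑ ij ∈ antidiagonal n, a ij.1 * b ij.2 : ℕ) : ℤ) = ∑ d ∈ ι, γ d * s3 d n := by
  set F : ModularForm (Gamma0 M) 4 := F₁.mul F₂ with hFdef
  have hF : ∀ n, qCoeff F n = ((∑ ij ∈ antidiagonal n, a ij.1 * b ij.2 : ℕ) : ℂ) := by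
    intro n
    rw [hFdef, qCoeff_mul]
    push_cast
    exact Finset.sum_congr rfl fun ij _ => by rw [ha, hb]
  have hE : ∀ d : ℕ, ∃ E : ModularForm (Gamma0 M) 4,
      d ∣ M → ∀ n, qCoeff E n = if d ∣ n then (e4c (n / d) : ℂ) else 0 := by
    intro d
    by_cases hd : d ∣ M
    · obtain ⟨E, hE⟩ := exists_E4 d M hd
      exact ⟨E, fun _ => hE⟩
    · exact ⟨0, fun h => absurd h hd⟩
  choose E hE using hE
  set G : ModularForm (Gamma0 M) 4 := ∑ d ∈ ι, ((γ d : ℂ) / 240) • E d with hG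
  have hGc : ∀ n, qCoeff G n = ∑ d ∈ ι, ((γ d : ℂ) / 240) *
      (if d ∣ n then (e4c (n / d) : ℂ) else 0) := by
    intro n
    rw [hG, qCoeff_sum4 ι (fun d => (γ d : ℂ) / 240) E n]
    exact Finset.sum_congr rfl fun d hd => by rw [hE d (hι d hd) n]
  have hG0 : qCoeff G 0 = ((a 0 * b 0 : ℕ) : ℂ) := by
    rw [hGc]
    have h1 := congrArg (Int.cast : ℤ → ℂ) h0
    push_cast at h1
    have h2 : ∀ d : ℕ, ((γ d : ℂ) / 240) *
        (if d ∣ 0 then (e4c (0 / d) : ℂ) else 0) = (γ d : ℂ) / 240 := by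
      intro d
      rw [if_pos (dvd_zero d), Nat.zero_div, e4c, if_pos rfl, Nat.cast_one, mul_one]
    rw [Finset.sum_congr rfl fun d _ => h2 d, ← Finset.sum_div, h1]
    push_cast
    ring
  have hG1 : ∀ n, n ≠ 0 → qCoeff G n = ((∑ d ∈ ι, γ d * s3 d n : ℤ) : ℂ) := by
    intro n hn
    rw [hGc, Int.cast_sum]
    refine Finset.sum_congr rfl fun d _ => ?_
    unfold s3
    by_cases hd : d ∣ n
    · have h1 : n / d ≠ 0 := fun h2 => hn (Nat.eq_zero_of_dvd_of_div_eq_zero hd h2)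
      rw [if_pos hd, if_pos hd, e4c, if_neg h1]
      push_cast
      ring
    · rw [if_neg hd, if_neg hd]
      simp
  have key : F = G := by
    refine eq_of_sturm4 hB fun n hn => ?_
    rcases Nat.eq_zero_or_pos n with rfl | hpos
    · rw [hF, hG0, Finset.Nat.antidiagonal_zero, sum_singleton]
    · rw [hF, hG1 n hpos.ne', ← h n (mem_Icc.mpr ⟨hpos, hn⟩)]
      push_cast
      rfl
  have h3 := hF n
  rw [key, hG1 n hn] at h3
  exact_mod_cast h3.symm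

/-- the general formula as a sum over the divisors of `n` -/
theorem mul_eq_sum {M : ℕ} [NeZero M] {F₁ F₂ : ModularForm (Gamma0 M) 2} {a b : ℕ → ℕ}
    (ha : ∀ n, qCoeff F₁ n = (a n : ℂ)) (hb : ∀ n, qCoeff F₂ n = (b n : ℂ)) (ι : Finset ℕ)
    (hι : ∀ d ∈ ι, d ∣ M) (δ : ℕ → ℤ) {B : ℕ} (hB : 4 * ModularCurve.dedekindPsi M / 12 ≤ B)
    (h0 : ∑ d ∈ ι, δ d * (d : ℤ) ^ 3 = 240 * ((a 0 * b 0 : ℕ) : ℤ))
    (h : ∀ n ∈ Icc 1 B, ((∑ ij ∈ antidiagonal n, a ij.1 * b ij.2 : ℕ) : ℤ) =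
      ∑ e ∈ n.divisors, wt4 ι δ e * (e : ℤ) ^ 3) {n : ℕ} (hn : n ≠ 0) :
    ((∑ ij ∈ antidiagonal n, a ij.1 * b ij.2 : ℕ) : ℤ) =
      ∑ e ∈ n.divisors, wt4 ι δ e * (e : ℤ) ^ 3 := by
  have h1 : ∀ m, m ≠ 0 → ∑ e ∈ m.divisors, wt4 ι δ e * (e : ℤ) ^ 3 =
      ∑ d ∈ ι, (δ d * (d : ℤ) ^ 3) * s3 d m := by
    intro m hm
    rw [sum_wt4 ι δ hm]
    refine Finset.sum_congr rfl fun d _ => ?_
    unfold s3
    split_ifs <;> ring
  rw [h1 n hn]
  refine mul_eq_sum' ha hb ι hι (fun d => δ d * (d : ℤ) ^ 3) hB h0 (fun m hm => ?_) hn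
  rw [h m hm, h1 m (by rw [mem_Icc] at hm; omega)]

end Fermat.Agent.Cor.Quat
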